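import Fermat.Agent.S13.Ladder
import Fermat.Agent.S05.Final

/-!
# Counting the `p`-torsion points of the Frey curve
-/

set_option autoImplicit false

namespace Fermat.Agent.S13Lib

open Fermat.Agent.S05Lib Polynomial WeierstrassCurve WeierstrassCurve.Affine OrdData

local notation "Qbar" => AlgebraicClosure ℚ

namespace CT

section Abstract

variable {L : Type} [Field L] {G : Type} [AddCommGroup G] {a₂ a₄ : L}

lemma divD_ne_zero (a₂ a₄ : L) (k : ℕ) (hk : (2 * k + 1 : L) ≠ 0) : divD a₂ a₄ k ≠ 0 := by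
  intro h
  have := divD_coeff a₂ a₄ k
  rw [h, coeff_zero] at this
  exact hk (neg_eq_zero.mp this.symm)

lemma divD_natDegree (a₂ a₄ : L) (k : ℕ) (hk : (2 * k + 1 : L) ≠ 0) :
    (divD a₂ a₄ k).natDegree = 2 * k ^ 2 + 2 * k := by
  refine le_antisymm (divD_natDegree_le a₂ a₄ k) (le_natDegree_of_ne_zero ?_)
  rw [divD_coeff]
  exact neg_ne_zero.mpr hk

open Classical in
theorem torsion_card (M : XYModel L G a₂ a₄) (h2 : (2 : L) ≠ 0) (h4 : a₄ ≠ 0)
    (hd : a₂ ^ 2 - 4 * a₄ ≠ 0) (k : ℕ) (hk : (2 * k + 1 : L) ≠ 0) :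
    {x : G | (2 * k + 1) • x = 0}.Finite ∧ {x : G | (2 * k + 1) • x = 0}.ncard ≤ (2 * k + 1) ^ 2 := by
  set f := divD a₂ a₄ k with hf
  have hf0 : f ≠ 0 := divD_ne_zero a₂ a₄ k hk
  let g : L → G := fun X => if h : ∃ P : G, ∃ Y : L, M.co P = some (X, Y) then h.choose else 0
  set R := f.roots.toFinset with hR
  have hRcard : R.card ≤ 2 * k ^ 2 + 2 * k :=
    (Multiset.toFinset_card_le _).trans ((card_roots' f).trans (divD_natDegree_le a₂ a₄ k))
  set T : Finset G := insert 0 (R.image g ∪ R.image (fun X => - g X)) with hT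
  have hsub : {x : G | (2 * k + 1) • x = 0} ⊆ (T : Set G) := by
    intro x hx
    change (2 * k + 1) • x = 0 at hx
    rw [Finset.mem_coe, hT, Finset.mem_insert, Finset.mem_union, Finset.mem_image,
      Finset.mem_image]
    by_cases hx0 : x = 0
    · exact Or.inl hx0
    right
    obtain ⟨X, Y, hco⟩ := M.exists_co_of_ne_zero hx0
    have hroot : X ∈ R := by
      rw [hR, Multiset.mem_toFinset, mem_roots hf0]
      exact (nsmul_eq_zero_iff M h2 h4 hd hco k).mp hx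
    have hex : ∃ P : G, ∃ Y : L, M.co P = some (X, Y) := ⟨x, Y, hco⟩
    have hg : g X = hex.choose := dif_pos hex
    obtain ⟨Y', hY'⟩ := hex.choose_spec
    rcases M.eq_or_eq_neg hco hY' with h | h
    · exact Or.inl ⟨X, hroot, by rw [hg, h]⟩
    · exact Or.inr ⟨X, hroot, by rw [hg, h]⟩
  refine ⟨T.finite_toSet.subset hsub, ?_⟩
  calc {x : G | (2 * k + 1) • x = 0}.ncard ≤ (T : Set G).ncard :=
        Set.ncard_le_ncard hsub T.finite_toSet
    _ = T.card := Set.ncard_coe_finset T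
    _ ≤ (R.image g ∪ R.image (fun X => - g X)).card + 1 := Finset.card_insert_le _ _
    _ ≤ (R.image g).card + (R.image (fun X => - g X)).card + 1 :=
        Nat.add_le_add_right (Finset.card_union_le _ _) 1
    _ ≤ R.card + R.card + 1 :=
        Nat.add_le_add_right (Nat.add_le_add Finset.card_image_le Finset.card_image_le) 1
    _ ≤ (2 * k + 1) ^ 2 := by nlinarith

end Abstract

end CT

section Frey

variable [DecidableEq Qbar]

theorem frey_exists_torsion (P : FreyPackage) :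
    ∃ x : (P.freyCurve⁄Qbar).Point, x ≠ 0 ∧ P.p • x = 0 := by
  set a : Qbar := (P.a : Qbar) ^ P.p with ha
  set b : Qbar := (P.b : Qbar) ^ P.p with hb
  set c : Qbar := (P.c : Qbar) ^ P.p with hc
  have habc : a + b = c := by
    rw [ha, hb, hc]; exact_mod_cast congrArg (Int.cast : ℤ → Qbar) P.hFLT
  have ha0 : a ≠ 0 := pow_ne_zero _ (by exact_mod_cast P.ha0)
  have hb0 : b ≠ 0 := pow_ne_zero _ (by exact_mod_cast P.hb0)
  have hc0 : c ≠ 0 := pow_ne_zero _ (by exact_mod_cast P.hc0)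
  have h20 : (2 : Qbar) ≠ 0 := two_ne_zero
  have h₁ : (P.freyCurve⁄Qbar).a₁ = 1 := by simp [FreyPackage.freyCurve]
  have h₃ : (P.freyCurve⁄Qbar).a₃ = 0 := by simp [FreyPackage.freyCurve]
  have h₆ : (P.freyCurve⁄Qbar).a₆ = 0 := by simp [FreyPackage.freyCurve]
  have h₂ : (P.freyCurve⁄Qbar).a₂ = (b - 1 - a) / 4 := by simp [FreyPackage.freyCurve, ha, hb]
  have h₄ : (P.freyCurve⁄Qbar).a₄ = -a * b / 16 := by simp [FreyPackage.freyCurve, ha, hb]
  set M := freyModel (P.freyCurve⁄Qbar) h20 a b 0 h₁ h₃ h₆ h₂ h₄ (by ring) with hM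
  have hA4 : 3 * (0 : Qbar) ^ 2 + 2 * (b - a) * 0 - a * b ≠ 0 := by
    have : 3 * (0 : Qbar) ^ 2 + 2 * (b - a) * 0 - a * b = -(a * b) := by ring
    rw [this]; exact neg_ne_zero.mpr (mul_ne_zero ha0 hb0)
  have hdisc : (3 * 0 + b - a) ^ 2 - 4 * (3 * (0 : Qbar) ^ 2 + 2 * (b - a) * 0 - a * b) ≠ 0 := by
    have : (3 * 0 + b - a) ^ 2 - 4 * (3 * (0 : Qbar) ^ 2 + 2 * (b - a) * 0 - a * b) = c ^ 2 := by
      rw [← habc]; ring
    rw [this]; exact pow_ne_zero 2 hc0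
  obtain ⟨k, hk⟩ := P.hp_odd
  have hk1 : 1 ≤ k := by have := P.hp5; omega
  have hkne : (2 * k + 1 : Qbar) ≠ 0 := by exact_mod_cast (Nat.succ_ne_zero (2 * k))
  have hdeg := CT.divD_natDegree (3 * 0 + b - a) (3 * (0 : Qbar) ^ 2 + 2 * (b - a) * 0 - a * b) k hkne
  obtain ⟨X₀, hX₀⟩ := IsAlgClosed.exists_root
    (divD (3 * 0 + b - a) (3 * (0 : Qbar) ^ 2 + 2 * (b - a) * 0 - a * b) k) (by
      rw [degree_eq_natDegree (CT.divD_ne_zero _ _ k hkne), hdeg]
      have : 0 < 2 * k ^ 2 + 2 * k := by positivity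
      exact_mod_cast this.ne')
  obtain ⟨Y₀, hY₀⟩ := IsAlgClosed.exists_pow_nat_eq
    (X₀ ^ 3 + (b - a) * X₀ ^ 2 - a * b * X₀) (n := 2) (by norm_num)
  have hΔ : (P.freyCurve⁄Qbar).Δ ≠ 0 := by
    have : (P.freyCurve⁄Qbar).Δ = (a * b * c) ^ 2 / 256 := by
      rw [WeierstrassCurve.Δ, WeierstrassCurve.b₂, WeierstrassCurve.b₄, WeierstrassCurve.b₆,
        WeierstrassCurve.b₈, h₁, h₂, h₃, h₄, h₆, ← habc]
      field_simp
      ring
    rw [this]
    exact div_ne_zero (pow_ne_zero 2 (mul_ne_zero (mul_ne_zero ha0 hb0) hc0)) (by norm_num)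
  have heq : (P.freyCurve⁄Qbar).Equation (X₀ / 4) ((Y₀ - X₀) / 8) := by
    rw [Affine.equation_iff, h₁, h₂, h₃, h₄, h₆]
    linear_combination (1 / 64 : Qbar) * hY₀
  have hns := (Affine.equation_iff_nonsingular_of_Δ_ne_zero (W := P.freyCurve⁄Qbar) hΔ).mp heq
  refine ⟨Point.some _ _ hns, ?_, ?_⟩
  · exact Point.some_ne_zero _
  · have hco : M.co (Point.some _ _ hns) = some (X₀, Y₀) := by
      show freyCo (P.freyCurve⁄Qbar) 0 (Point.some _ _ hns) = some (X₀, Y₀)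
      simp only [freyCo, Option.some.injEq, Prod.mk.injEq]
      constructor <;> ring
    rw [hk]
    exact (nsmul_eq_zero_iff M h20 hA4 hdisc hco k).mpr hX₀

theorem frey_torsion_card (P : FreyPackage) :
    {x : (P.freyCurve⁄Qbar).Point | P.p • x = 0}.Finite ∧
      {x : (P.freyCurve⁄Qbar).Point | P.p • x = 0}.ncard ≤ P.p ^ 2 := by
  set a : Qbar := (P.a : Qbar) ^ P.p with ha
  set b : Qbar := (P.b : Qbar) ^ P.p with hb
  set c : Qbar := (P.c : Qbar) ^ P.p with hc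
  have habc : a + b = c := by
    rw [ha, hb, hc]; exact_mod_cast congrArg (Int.cast : ℤ → Qbar) P.hFLT
  have ha0 : a ≠ 0 := pow_ne_zero _ (by exact_mod_cast P.ha0)
  have hb0 : b ≠ 0 := pow_ne_zero _ (by exact_mod_cast P.hb0)
  have hc0 : c ≠ 0 := pow_ne_zero _ (by exact_mod_cast P.hc0)
  have h20 : (2 : Qbar) ≠ 0 := two_ne_zero
  have h₁ : (P.freyCurve⁄Qbar).a₁ = 1 := by simp [FreyPackage.freyCurve]
  have h₃ : (P.freyCurve⁄Qbar).a₃ = 0 := by simp [FreyPackage.freyCurve]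
  have h₆ : (P.freyCurve⁄Qbar).a₆ = 0 := by simp [FreyPackage.freyCurve]
  have h₂ : (P.freyCurve⁄Qbar).a₂ = (b - 1 - a) / 4 := by simp [FreyPackage.freyCurve, ha, hb]
  have h₄ : (P.freyCurve⁄Qbar).a₄ = -a * b / 16 := by simp [FreyPackage.freyCurve, ha, hb]
  have hA4 : 3 * (0 : Qbar) ^ 2 + 2 * (b - a) * 0 - a * b ≠ 0 := by
    have : 3 * (0 : Qbar) ^ 2 + 2 * (b - a) * 0 - a * b = -(a * b) := by ring
    rw [this]; exact neg_ne_zero.mpr (mul_ne_zero ha0 hb0)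
  have hdisc : (3 * 0 + b - a) ^ 2 - 4 * (3 * (0 : Qbar) ^ 2 + 2 * (b - a) * 0 - a * b) ≠ 0 := by
    have : (3 * 0 + b - a) ^ 2 - 4 * (3 * (0 : Qbar) ^ 2 + 2 * (b - a) * 0 - a * b) = c ^ 2 := by
      rw [← habc]; ring
    rw [this]; exact pow_ne_zero 2 hc0
  obtain ⟨k, hk⟩ := P.hp_odd
  have hkne : (2 * k + 1 : Qbar) ≠ 0 := by exact_mod_cast (Nat.succ_ne_zero (2 * k))
  rw [hk]
  exact CT.torsion_card (freyModel (P.freyCurve⁄Qbar) h20 a b 0 h₁ h₃ h₆ h₂ h₄ (by ring))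
    h20 hA4 hdisc k hkne

end Frey

end Fermat.Agent.S13Lib
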