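import Fermat.Agent.S05.Ord

set_option autoImplicit false

namespace Fermat.Agent.S13Lib

open Fermat.Agent.S05Lib Polynomial

/-- removing a root of negative valuation keeps the polynomial integral after scaling -/
theorem GA.integral_step {L : Type} [Field L] (O : OrdData L) (g : L[X]) (x : L) (hx0 : x ≠ 0)
    (hx : O.ord x < 0) (hf : ∀ i, O.GE (((X - C x) * g).coeff i) 0) (i : ℕ) :
    O.GE ((C x * g).coeff i) 0 := by
  have hxi : O.GE x⁻¹ 0 := (OrdData.EQ.inv (OrdData.eq_self (O := O) hx0)).ge (by linarith)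
  induction i with
  | zero =>
    have h := hf 0
    have h0 : ((X - C x) * g).coeff 0 = -((C x * g).coeff 0) := by
      rw [sub_mul, coeff_sub, coeff_X_mul_zero, zero_sub]
    rw [h0] at h
    simpa using h.neg
  | succ k ih =>
    have h := hf (k + 1)
    have h0 : (C x * g).coeff (k + 1) = x⁻¹ * (C x * g).coeff k - ((X - C x) * g).coeff (k + 1) := by
      rw [sub_mul, coeff_sub, coeff_X_mul, coeff_C_mul, coeff_C_mul, inv_mul_cancel_left₀ hx0]
      ring
    rw [h0]
    have := (hxi.mul ih)
    rw [add_zero] at this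
    exact this.sub h

theorem gauss_bound {L : Type} [Field L] (O : OrdData L) (f : L[X]) (hf0 : f ≠ 0)
    (hf : ∀ i, O.GE (f.coeff i) 0) (S : Finset L)
    (hS : ∀ x ∈ S, f.eval x = 0 ∧ x ≠ 0 ∧ O.ord x < 0) :
    O.GE (f.leadingCoeff * ∏ x ∈ S, x) 0 := by
  classical
  induction S using Finset.induction_on generalizing f with
  | empty =>
    simpa using hf f.natDegree
  | insert x S hxS ih =>
    obtain ⟨hroot, hx0, hx⟩ := hS x (Finset.mem_insert_self x S)
    obtain ⟨g, rfl⟩ := dvd_iff_isRoot.2 hroot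
    have hg0 : g ≠ 0 := right_ne_zero_of_mul hf0
    have h1 := ih (C x * g) (mul_ne_zero (C_ne_zero.2 hx0) hg0)
      (GA.integral_step O g x hx0 hx hf) (by
        intro y hy
        obtain ⟨hyroot, hy0, hyo⟩ := hS y (Finset.mem_insert_of_mem hy)
        refine ⟨?_, hy0, hyo⟩
        have hne : y ≠ x := fun h => hxS (h ▸ hy)
        rw [eval_mul, eval_sub, eval_X, eval_C] at hyroot
        rcases mul_eq_zero.1 hyroot with h | h
        · exact absurd (sub_eq_zero.1 h) hne
        · rw [eval_mul, h, mul_zero])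
    rw [Finset.prod_insert hxS, leadingCoeff_mul, leadingCoeff_X_sub_C, one_mul]
    rw [leadingCoeff_mul, leadingCoeff_C] at h1
    convert h1 using 1
    ring

end Fermat.Agent.S13Lib
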