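import Fermat.Agent.S13.Ladder
import Fermat.Agent.S13.Gauss
import Fermat.Agent.S05.Final
import Fermat.Agent.Lib.FrobeniusExists

set_option autoImplicit false

namespace Fermat.Agent.S13Lib

open Fermat.Agent.S05Lib Polynomial WeierstrassCurve WeierstrassCurve.Affine OrdData

local notation "Qbar" => AlgebraicClosure ℚ

/-- elements fixed by the whole Galois group are rational -/
theorem PL.rational_of_fixed (x : Qbar) (h : ∀ σ : Qbar ≃ₐ[ℚ] Qbar, σ x = x) :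
    ∃ r : ℚ, algebraMap ℚ Qbar r = x := by
  have h1 : Algebra.IsAlgebraic ℚ Qbar := by
    have h : @Algebra.IsAlgebraic ℚ Qbar _ _ (AlgebraicClosure.instAlgebra ℚ) := inferInstance
    convert h
    exact Subsingleton.elim _ _
  have h2 : IsAlgClosure ℚ Qbar := ⟨inferInstance, h1⟩
  have h3 : IsGalois ℚ Qbar := IsAlgClosure.isGalois ℚ Qbar
  exact (InfiniteGalois.mem_range_algebraMap_iff_fixed x).2 h

/-- the valuation of a nonzero rational number is an integer -/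
theorem PL.ord_rat {A : ValuationSubring Qbar} {q : ℕ} (hq : q.Prime) (hA : A.LiesOverPrime q)
    (r : ℚ) (hr : r ≠ 0) : ∃ k : ℤ, (qbarOrd A hq hA).EQ (algebraMap ℚ Qbar r) k := by
  obtain ⟨w₁, h1, -⟩ := qbarOrd_int_exists hq hA (n := r.num) (by simpa using hr)
  obtain ⟨w₂, h2, -⟩ := qbarOrd_int_exists hq hA (n := (r.den : ℤ)) (by exact_mod_cast r.den_ne_zero)
  refine ⟨(w₁ : ℤ) - w₂, ?_⟩
  have : algebraMap ℚ Qbar r = ((r.num : ℤ) : Qbar) / (((r.den : ℤ)) : Qbar) := by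
    conv_lhs => rw [← Rat.num_div_den r]
    simp
  rw [this]
  exact (h1.div h2).of_eq (by push_cast; ring)

/-- valuation of a product -/
theorem PL.ord_prod {L : Type} [Field L] (O : OrdData L) (S : Finset L)
    (hS : ∀ x ∈ S, x ≠ 0 ∧ O.ord x < 0) (hne : S.Nonempty) :
    ∃ c : ℚ, c < 0 ∧ O.EQ (∏ x ∈ S, x) c := by
  classical
  induction hne using Finset.Nonempty.cons_induction with
  | singleton a =>
    obtain ⟨h0, h1⟩ := hS a (Finset.mem_singleton_self a)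
    exact ⟨O.ord a, h1, by simpa using OrdData.eq_self h0⟩
  | cons a s ha hs ih =>
    obtain ⟨h0, h1⟩ := hS a (Finset.mem_cons_self a s)
    obtain ⟨c, hc, hE⟩ := ih fun x hx => hS x (Finset.mem_cons.2 (Or.inr hx))
    refine ⟨O.ord a + c, by linarith, ?_⟩
    rw [Finset.prod_cons]
    exact (OrdData.eq_self h0).mul hE

theorem exists_not_close {G : Type} [AddCommGroup G] {a₂ a₄ : Qbar}
    (M : XYModel Qbar G a₂ a₄) (ha₂ : ∃ n : ℤ, a₂ = n) (ha₄ : ∃ n : ℤ, a₄ = n)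
    (h4 : a₄ ≠ 0) (hd : a₂ ^ 2 - 4 * a₄ ≠ 0)
    (act : (Qbar ≃ₐ[ℚ] Qbar) → G → G)
    (hact : ∀ (σ : Qbar ≃ₐ[ℚ] Qbar) {P : G} {X Y : Qbar}, M.co P = some (X, Y) →
      M.co (act σ P) = some (σ X, σ Y))
    {p : ℕ} (hpp : p.Prime) (hodd : Odd p) (A : ValuationSubring Qbar) (hA : A.LiesOverPrime p)
    (N : AddSubgroup G) (hNp : ∀ x ∈ N, p • x = 0) (hNs : ∀ σ, ∀ x ∈ N, act σ x ∈ N) (hN0 : N ≠ ⊥)
    (x₀ : G) (hx₀ : p • x₀ = 0) (hx₀N : x₀ ∉ N) :
    ∃ x, p • x = 0 ∧ ¬ M.Close (qbarOrd A hpp hA) x := by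
  classical
  by_contra hcon
  push Not at hcon
  set O := qbarOrd A hpp hA with hO
  obtain ⟨k, hk⟩ := hodd
  obtain ⟨n₂, rfl⟩ := ha₂
  obtain ⟨n₄, rfl⟩ := ha₄
  have h2 : (2 : Qbar) ≠ 0 := two_ne_zero
  set f : Qbar[X] := divD (n₂ : Qbar) (n₄ : Qbar) k with hf
  have hfmap : f = (divD n₂ n₄ k).map (Int.castRingHom Qbar) := by
    rw [divD_map]; simp [hf]
  have hfint : ∀ i, O.GE (f.coeff i) 0 := by
    intro i
    rw [hfmap, coeff_map]
    exact qbarOrd_GE_zero hpp hA (intCast_mem A _)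
  have hcoeff : f.coeff (2 * k ^ 2 + 2 * k) = -(p : Qbar) := by
    rw [hf, divD_coeff, hk]; push_cast; ring
  have hp0 : (p : Qbar) ≠ 0 := by exact_mod_cast hpp.ne_zero
  have hf0 : f ≠ 0 := by
    intro h0
    rw [h0, coeff_zero] at hcoeff
    exact hp0 (neg_eq_zero.1 hcoeff.symm)
  have hlead : f.leadingCoeff = -(p : Qbar) := by
    have hdeg : f.natDegree = 2 * k ^ 2 + 2 * k :=
      le_antisymm (divD_natDegree_le _ _ _)
        (le_natDegree_of_ne_zero (by rw [hcoeff]; exact neg_ne_zero.2 hp0))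
    rw [leadingCoeff, hdeg, hcoeff]
  have hroot : ∀ {P : G} {X Y : Qbar}, M.co P = some (X, Y) → p • P = 0 → f.eval X = 0 := by
    intro P X Y hP hpP
    rw [hk] at hpP
    exact (nsmul_eq_zero_iff M h2 h4 hd hP k).1 hpP
  have hneg : ∀ {P : G} {X Y : Qbar}, M.co P = some (X, Y) → p • P = 0 → X ≠ 0 ∧ O.ord X < 0 := by
    intro P X Y hP hpP
    rcases hcon P hpP with h | ⟨X', Y', c, h, hX, hc⟩
    · exact absurd h (M.ne_zero_of_co hP)
    · rw [hP] at h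
      simp only [Option.some.injEq, Prod.mk.injEq] at h
      obtain ⟨rfl, rfl⟩ := h
      exact ⟨hX.1, hX.2 ▸ hc⟩
  -- the set of `X`-coordinates of `N`
  set S : Finset Qbar := f.roots.toFinset.filter (fun x => ∃ P ∈ N, ∃ Y, M.co P = some (x, Y))
    with hS
  have hmemS : ∀ x, x ∈ S ↔ ∃ P ∈ N, ∃ Y, M.co P = some (x, Y) := by
    intro x
    rw [hS, Finset.mem_filter, Multiset.mem_toFinset, mem_roots hf0]
    constructor
    · exact fun h => h.2
    · rintro ⟨P, hPN, Y, hP⟩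
      exact ⟨hroot hP (hNp P hPN), P, hPN, Y, hP⟩
  have hSne : S.Nonempty := by
    obtain ⟨P, hPN, hP0⟩ : ∃ P : G, P ∈ N ∧ P ≠ 0 := by
      by_contra hall
      push Not at hall
      exact hN0 ((AddSubgroup.eq_bot_iff_forall N).2 hall)
    obtain ⟨X, Y, hP⟩ := M.exists_co_of_ne_zero hP0
    exact ⟨X, (hmemS X).2 ⟨P, hPN, Y, hP⟩⟩
  have hSneg : ∀ x ∈ S, x ≠ 0 ∧ O.ord x < 0 := by
    intro x hx
    obtain ⟨P, hPN, Y, hP⟩ := (hmemS x).1 hx
    exact hneg hP (hNp P hPN)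
  -- the product is rational
  have hfix : ∀ σ : Qbar ≃ₐ[ℚ] Qbar, σ (∏ x ∈ S, x) = ∏ x ∈ S, x := by
    intro σ
    rw [map_prod]
    have himg : S.image σ = S := by
      apply Finset.eq_of_subset_of_card_le
      · intro y hy
        obtain ⟨x, hx, rfl⟩ := Finset.mem_image.1 hy
        obtain ⟨P, hPN, Y, hP⟩ := (hmemS x).1 hx
        exact (hmemS _).2 ⟨act σ P, hNs σ P hPN, σ Y, hact σ hP⟩
      · rw [Finset.card_image_of_injective _ σ.injective]
    conv_rhs => rw [← himg]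
    rw [Finset.prod_image fun a _ b _ h => σ.injective h]
  obtain ⟨r, hr⟩ := PL.rational_of_fixed _ hfix
  obtain ⟨c, hc, hcE⟩ := PL.ord_prod O S hSneg hSne
  have hr0 : r ≠ 0 := by
    intro h0
    rw [h0, map_zero] at hr
    exact hcE.1 hr.symm
  obtain ⟨m, hm⟩ := PL.ord_rat hpp hA r hr0
  rw [hr] at hm
  have hcm : c = m := hcE.unique hm
  have hm1 : (m : ℚ) ≤ -1 := by
    have : (m : ℚ) < 0 := hcm ▸ hc
    have : m < 0 := by exact_mod_cast this
    have : m ≤ -1 := by omega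
    exact_mod_cast this
  -- the extra point
  have hx₀0 : x₀ ≠ 0 := fun h => hx₀N (h ▸ N.zero_mem)
  obtain ⟨X₀, Y₀, hP₀⟩ := M.exists_co_of_ne_zero hx₀0
  have hX₀S : X₀ ∉ S := by
    intro h
    obtain ⟨P, hPN, Y, hP⟩ := (hmemS X₀).1 h
    rcases M.eq_or_eq_neg hP₀ hP with h | h
    · exact hx₀N (h ▸ hPN)
    · exact hx₀N (h ▸ N.neg_mem hPN)
  obtain ⟨hX₀0, hX₀neg⟩ := hneg hP₀ hx₀
  have hG := gauss_bound O f hf0 hfint (insert X₀ S) (by
    intro x hx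
    rcases Finset.mem_insert.1 hx with rfl | hx
    · exact ⟨hroot hP₀ hx₀, hX₀0, hX₀neg⟩
    · obtain ⟨P, hPN, Y, hP⟩ := (hmemS x).1 hx
      exact ⟨hroot hP (hNp P hPN), hSneg x hx⟩)
  rw [Finset.prod_insert hX₀S, hlead] at hG
  have hE : O.EQ (-(p : Qbar) * (X₀ * ∏ x ∈ S, x)) (1 + (O.ord X₀ + m)) :=
    (qbarOrd_q hpp hA).neg.mul ((OrdData.eq_self hX₀0).mul hm)
  have := hE.le_of_ge hG
  linarith

end Fermat.Agent.S13Lib
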