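import Fermat.Agent.S13.PClose
import Fermat.Agent.S13.PLine
import Fermat.Agent.S05.Final

/-!
# S13 library, leaf (FP): the Frey curve at `p`
-/

set_option autoImplicit false

namespace Fermat.Agent.S13Lib

open Fermat.Agent.S05Lib Polynomial WeierstrassCurve WeierstrassCurve.Affine OrdData

local notation "Qbar" => AlgebraicClosure ℚ

section Frey

variable [DecidableEq Qbar]

namespace FP

/-- the subgroup of points in the kernel of reduction -/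
def closeSubgroup {L : Type} [Field L] {G : Type} [AddCommGroup G] {a₂ a₄ : L}
    (M : XYModel L G a₂ a₄) (O : OrdData L) (h2 : O.EQ (2 : L) 0) (ha₂ : O.GE a₂ 0)
    (ha₄ : O.GE a₄ 0) : AddSubgroup G where
  carrier := {x | M.Close O x}
  add_mem' := fun hD hE => close_add h2 ha₂ ha₄ hD hE
  zero_mem' := Or.inl rfl
  neg_mem' := fun h => h.neg

/-- the common part of the four cases -/
theorem aux (P : FreyPackage) (A : ValuationSubring Qbar) (hA : A.LiesOverPrime P.p)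
    {a₂ a₄ : Qbar} (M : XYModel Qbar (P.freyCurve⁄Qbar).Point a₂ a₄)
    (h2 : (qbarOrd A P.pp hA).EQ (2 : Qbar) 0)
    (ha₂ : ∃ n : ℤ, a₂ = n) (ha₄ : ∃ n : ℤ, a₄ = n) (h4 : a₄ ≠ 0) (hd : a₂ ^ 2 - 4 * a₄ ≠ 0)
    (hact : ∀ (σ : Qbar ≃ₐ[ℚ] Qbar) {Q : (P.freyCurve⁄Qbar).Point} {X Y : Qbar},
      M.co Q = some (X, Y) →
      M.co (Point.map (W' := P.freyCurve) σ.toAlgHom Q) = some (σ X, σ Y))
    (hclose : ∀ σ ∈ A.inertiaSubgroupIn ℚ, ∀ x : (P.freyCurve⁄Qbar).Point, P.p • x = 0 →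
      M.Close (qbarOrd A P.pp hA) (Point.map (W' := P.freyCurve) σ.toAlgHom x - x)) :
    ∃ V₁ : AddSubgroup (P.freyCurve⁄Qbar).Point,
      (∀ σ ∈ A.inertiaSubgroupIn ℚ, ∀ x : (P.freyCurve⁄Qbar).Point, P.p • x = 0 →
        Point.map (W' := P.freyCurve) σ.toAlgHom x - x ∈ V₁) ∧
      (∀ N : AddSubgroup (P.freyCurve⁄Qbar).Point, (∀ x ∈ N, P.p • x = 0) →
        (∀ σ : Qbar ≃ₐ[ℚ] Qbar, ∀ x ∈ N, Point.map (W' := P.freyCurve) σ.toAlgHom x ∈ N) →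
        N ≠ ⊥ → (∃ x₀, P.p • x₀ = 0 ∧ x₀ ∉ N) → ∃ x, P.p • x = 0 ∧ x ∉ V₁) := by
  have hint : ∀ n : ℤ, (qbarOrd A P.pp hA).GE (n : Qbar) 0 := fun n =>
    qbarOrd_GE_zero P.pp hA (intCast_mem A n)
  have hg₂ : (qbarOrd A P.pp hA).GE a₂ 0 := by
    obtain ⟨n, rfl⟩ := ha₂
    exact hint n
  have hg₄ : (qbarOrd A P.pp hA).GE a₄ 0 := by
    obtain ⟨n, rfl⟩ := ha₄
    exact hint n
  refine ⟨closeSubgroup M (qbarOrd A P.pp hA) h2 hg₂ hg₄, hclose, ?_⟩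
  rintro N hNp hNs hN0 ⟨x₀, hx₀, hx₀N⟩
  exact exists_not_close M ha₂ ha₄ h4 hd
    (fun σ Q => Point.map (W' := P.freyCurve) σ.toAlgHom Q) hact P.pp P.hp_odd A hA N hNp hNs hN0
    x₀ hx₀ hx₀N

end FP

theorem frey_at_p (P : FreyPackage) (A : ValuationSubring Qbar) (hA : A.LiesOverPrime P.p) :
    ∃ V₁ : AddSubgroup (P.freyCurve⁄Qbar).Point,
      (∀ σ ∈ A.inertiaSubgroupIn ℚ, ∀ x : (P.freyCurve⁄Qbar).Point, P.p • x = 0 →
        Point.map (W' := P.freyCurve) σ.toAlgHom x - x ∈ V₁) ∧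
      (∀ N : AddSubgroup (P.freyCurve⁄Qbar).Point, (∀ x ∈ N, P.p • x = 0) →
        (∀ σ : Qbar ≃ₐ[ℚ] Qbar, ∀ x ∈ N, Point.map (W' := P.freyCurve) σ.toAlgHom x ∈ N) →
        N ≠ ⊥ → (∃ x₀, P.p • x₀ = 0 ∧ x₀ ∉ N) → ∃ x, P.p • x = 0 ∧ x ∉ V₁) := by
  have hq := P.pp
  set q := P.p with hqdef
  set O := qbarOrd A hq hA with hO
  set a : Qbar := (P.a : Qbar) ^ P.p with ha
  set b : Qbar := (P.b : Qbar) ^ P.p with hb
  set c : Qbar := (P.c : Qbar) ^ P.p with hc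
  have habc : a + b = c := by
    rw [ha, hb, hc]; exact_mod_cast congrArg (Int.cast : ℤ → Qbar) P.hFLT
  have hq2 : q ≠ 2 := by have := P.hp5; omega
  have h2 : O.EQ (2 : Qbar) 0 := by
    have : ¬ (q : ℤ) ∣ (2 : ℤ) := by
      intro h
      have h' : q ∣ 2 := by exact_mod_cast h
      exact hq2 ((Nat.prime_dvd_prime_iff_eq hq Nat.prime_two).mp h')
    simpa using qbarOrd_int hq hA this
  have h20 : (2 : Qbar) ≠ 0 := h2.1
  have h₁ : (P.freyCurve⁄Qbar).a₁ = 1 := by simp [FreyPackage.freyCurve]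
  have h₃ : (P.freyCurve⁄Qbar).a₃ = 0 := by simp [FreyPackage.freyCurve]
  have h₆ : (P.freyCurve⁄Qbar).a₆ = 0 := by simp [FreyPackage.freyCurve]
  have h₂ : (P.freyCurve⁄Qbar).a₂ = (b - 1 - a) / 4 := by simp [FreyPackage.freyCurve, ha, hb]
  have h₄ : (P.freyCurve⁄Qbar).a₄ = -a * b / 16 := by simp [FreyPackage.freyCurve, ha, hb]
  have ha0' : a ≠ 0 := pow_ne_zero _ (by exact_mod_cast P.ha0)
  have hb0' : b ≠ 0 := pow_ne_zero _ (by exact_mod_cast P.hb0)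
  have hc0' : c ≠ 0 := pow_ne_zero _ (by exact_mod_cast P.hc0)
  obtain ⟨wa, hwa, hwa'⟩ := qbarOrd_int_exists hq hA P.ha0
  obtain ⟨wb, hwb, hwb'⟩ := qbarOrd_int_exists hq hA P.hb0
  obtain ⟨wc, hwc, hwc'⟩ := qbarOrd_int_exists hq hA P.hc0
  have hEa : O.EQ a (P.p * wa) := hwa.pow P.p
  have hEb : O.EQ b (P.p * wb) := hwb.pow P.p
  have hEc : O.EQ c (P.p * wc) := hwc.pow P.p
  have hppos : (0 : ℚ) < P.p := by exact_mod_cast P.hppos
  have hq1 : ¬ (q : ℤ) ∣ 1 := by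
    intro h
    have h' : q ∣ 1 := by exact_mod_cast h
    exact hq.one_lt.ne' (Nat.dvd_one.mp h')
  have hab : (q : ℤ) ∣ P.a → (q : ℤ) ∣ P.b → False :=
    fun h1 h2 => hq1 (P.hgcdab ▸ dvd_gcd h1 h2)
  have hac : (q : ℤ) ∣ P.a → (q : ℤ) ∣ P.c → False :=
    fun h1 h2 => hq1 (P.hgcdac ▸ dvd_gcd h1 h2)
  have hunit : ∀ n : ℤ, ¬ (q : ℤ) ∣ n → O.EQ ((n : Qbar) ^ P.p) 0 :=
    fun n hn => ((qbarOrd_int hq hA hn).pow P.p).of_eq (by ring)
  -- the two models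
  have e0₂ : 3 * 0 + b - a = b - a := by ring
  have e0₄ : 3 * (0 : Qbar) ^ 2 + 2 * (b - a) * 0 - a * b = -(a * b) := by ring
  have ea₂ : 3 * a + b - a = a + c := by rw [← habc]; ring
  have ea₄ : 3 * a ^ 2 + 2 * (b - a) * a - a * b = a * c := by rw [← habc]; ring
  have hσa : ∀ σ : Qbar ≃ₐ[ℚ] Qbar, σ a = a := fun σ => by simp [ha]
  have hσq : ∀ σ : Qbar ≃ₐ[ℚ] Qbar, σ (q : Qbar) = q := fun σ => by simp
  -- reduction to the closeness statement, `r = 0`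
  have case0 : (∀ σ ∈ A.inertiaSubgroupIn ℚ, ∀ x : (P.freyCurve⁄Qbar).Point, P.p • x = 0 →
      (freyModel (P.freyCurve⁄Qbar) h20 a b 0 h₁ h₃ h₆ h₂ h₄ (by ring)).Close O
        (Point.map (W' := P.freyCurve) σ.toAlgHom x - x)) → _ := fun hclose =>
    FP.aux P A hA (freyModel (P.freyCurve⁄Qbar) h20 a b 0 h₁ h₃ h₆ h₂ h₄ (by ring)) h2
      ⟨P.b ^ P.p - P.a ^ P.p, by rw [e0₂, ha, hb]; push_cast; ring⟩
      ⟨-(P.a ^ P.p * P.b ^ P.p), by rw [e0₄, ha, hb]; push_cast; ring⟩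
      (by rw [e0₄]; exact neg_ne_zero.mpr (mul_ne_zero ha0' hb0'))
      (by
        have : (3 * 0 + b - a) ^ 2 - 4 * (3 * (0 : Qbar) ^ 2 + 2 * (b - a) * 0 - a * b) = c ^ 2 := by
          rw [← habc]; ring
        rw [this]; exact pow_ne_zero 2 hc0')
      (fun σ _ _ _ h => freyCo_map P.freyCurve σ 0 (map_zero σ) h) hclose
  have casea : (∀ σ ∈ A.inertiaSubgroupIn ℚ, ∀ x : (P.freyCurve⁄Qbar).Point, P.p • x = 0 →
      (freyModel (P.freyCurve⁄Qbar) h20 a b a h₁ h₃ h₆ h₂ h₄ (by ring)).Close O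
        (Point.map (W' := P.freyCurve) σ.toAlgHom x - x)) → _ := fun hclose =>
    FP.aux P A hA (freyModel (P.freyCurve⁄Qbar) h20 a b a h₁ h₃ h₆ h₂ h₄ (by ring)) h2
      ⟨P.a ^ P.p + P.c ^ P.p, by rw [ea₂, ha, hc]; push_cast; ring⟩
      ⟨P.a ^ P.p * P.c ^ P.p, by rw [ea₄, ha, hc]; push_cast; ring⟩
      (by rw [ea₄]; exact mul_ne_zero ha0' hc0')
      (by
        have : (3 * a + b - a) ^ 2 - 4 * (3 * a ^ 2 + 2 * (b - a) * a - a * b) = b ^ 2 := by ring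
        rw [this]; exact pow_ne_zero 2 hb0')
      (fun σ _ _ _ h => freyCo_map P.freyCurve σ a (hσa σ) h) hclose
  by_cases hqa : (q : ℤ) ∣ P.a
  · have hb0 : O.EQ b 0 := hunit _ (fun h => hab hqa h)
    have hwpos : (0 : ℚ) < wa := by exact_mod_cast hwa' hqa
    refine case0 fun σ hσ x hx => ?_
    refine close_of_mult h2 (σ : Qbar →+* Qbar) (Point.map (W' := P.freyCurve) σ.toAlgHom)
      (fun h => freyCo_map P.freyCurve σ 0 (map_zero σ) h) (qbarOrd_inertia hq hA hσ)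
      (h := P.p * wa) ?_ ?_ (mul_pos hppos hwpos) (qbarOrd_q hq hA) (hσq σ) P.hp_odd
      (w := (wa : ℤ)) (by push_cast; ring) hx
    · rw [e0₂]
      exact hb0.sub_gt (hEa.gt (mul_pos hppos hwpos))
    · rw [e0₄]
      exact ((hEa.mul hb0).of_eq (by ring)).neg
  by_cases hqb : (q : ℤ) ∣ P.b
  · have ha0 : O.EQ a 0 := hunit _ hqa
    have hwpos : (0 : ℚ) < wb := by exact_mod_cast hwb' hqb
    refine case0 fun σ hσ x hx => ?_
    refine close_of_mult h2 (σ : Qbar →+* Qbar) (Point.map (W' := P.freyCurve) σ.toAlgHom)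
      (fun h => freyCo_map P.freyCurve σ 0 (map_zero σ) h) (qbarOrd_inertia hq hA hσ)
      (h := P.p * wb) ?_ ?_ (mul_pos hppos hwpos) (qbarOrd_q hq hA) (hσq σ) P.hp_odd
      (w := (wb : ℤ)) (by push_cast; ring) hx
    · have : 3 * 0 + b - a = -a + b := by ring
      rw [this]
      exact ha0.neg.add_gt (hEb.gt (mul_pos hppos hwpos))
    · rw [e0₄]
      exact ((ha0.mul hEb).of_eq (by ring)).neg
  by_cases hqc : (q : ℤ) ∣ P.c
  · have ha0 : O.EQ a 0 := hunit _ hqa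
    have hwpos : (0 : ℚ) < wc := by exact_mod_cast hwc' hqc
    refine casea fun σ hσ x hx => ?_
    refine close_of_mult h2 (σ : Qbar →+* Qbar) (Point.map (W' := P.freyCurve) σ.toAlgHom)
      (fun h => freyCo_map P.freyCurve σ a (hσa σ) h) (qbarOrd_inertia hq hA hσ)
      (h := P.p * wc) ?_ ?_ (mul_pos hppos hwpos) (qbarOrd_q hq hA) (hσq σ) P.hp_odd
      (w := (wc : ℤ)) (by push_cast; ring) hx
    · rw [ea₂]
      exact ha0.add_gt (hEc.gt (mul_pos hppos hwpos))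
    · rw [ea₄]
      exact (ha0.mul hEc).of_eq (by ring)
  · have ha0 : O.EQ a 0 := hunit _ hqa
    have hb0 : O.EQ b 0 := hunit _ hqb
    have hc0 : O.EQ c 0 := hunit _ hqc
    refine case0 fun σ hσ x _ => ?_
    refine close_of_good h2 (σ : Qbar →+* Qbar) (Point.map (W' := P.freyCurve) σ.toAlgHom)
      (fun h => freyCo_map P.freyCurve σ 0 (map_zero σ) h) (qbarOrd_inertia hq hA hσ) ?_ ?_ ?_ x
    · rw [e0₂]
      exact hb0.ge'.sub ha0.ge'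
    · rw [e0₄]
      exact ((ha0.mul hb0).of_eq (by ring)).neg
    · have : (3 * 0 + b - a) ^ 2 - 4 * (3 * (0 : Qbar) ^ 2 + 2 * (b - a) * 0 - a * b) = c ^ 2 := by
        rw [← habc]; ring
      rw [this]
      exact hc0.sq.of_eq (by ring)

end Frey

end Fermat.Agent.S13Lib
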