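import Fermat.Agent.S13.BModel
import Fermat.Agent.S05.Mult

/-!
# Multiplicative reduction for a `BModel`: torsion points near the node

The analogue of `Fermat.Agent.S05.Tent` and `Fermat.Agent.S05.Mult` for x-only models in
`b₂`-form; here `2` is only assumed to be integral.
-/

set_option autoImplicit false

namespace Fermat.Agent.S13Lib

open Fermat.Agent.S05Lib
open Fermat.Agent.S05Lib.OrdData

variable {L : Type} [Field L] {G : Type} [AddCommGroup G] {b₂ β : L}

namespace BT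

lemma four_ge (O : OrdData L) : O.GE (4 : L) 0 := by
  simpa using O.natCast_ge 4

section Roots

variable {O : OrdData L} {h : ℚ} (hb₂ : O.EQ b₂ 0) (hβ : O.EQ β h)
include hb₂ hβ

lemma snum_eq {x₁ x₂ : L} {o₁ o₂ : ℚ} (hx₁ : O.EQ x₁ o₁) (hx₂ : O.EQ x₂ o₂)
    (h1 : 0 < o₁) (h1' : o₁ < h) (h2' : 0 < o₂) (h2'' : o₂ < h) :
    O.EQ (2 * (x₁ + x₂) * (x₁ * x₂ + β) + b₂ * (x₁ * x₂)) (o₁ + o₂) := by
  have h2 := two_ge O
  have hs : O.EQ (x₁ * x₂) (o₁ + o₂) := hx₁.mul hx₂
  have t2 : O.EQ (b₂ * (x₁ * x₂)) (o₁ + o₂) := (hb₂.mul hs).of_eq (by ring)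
  have t1 : O.GT (2 * (x₁ + x₂) * (x₁ * x₂ + β)) (o₁ + o₂) := by
    rcases le_total o₁ o₂ with hle | hle
    · have hsum : O.GE (x₁ + x₂) o₁ := hx₁.ge'.add (hx₂.ge hle)
      rcases le_total (o₁ + o₂) h with hh | hh
      · exact ((h2.mul hsum).mul (hs.ge'.add (hβ.ge hh))).gt (by linarith)
      · exact ((h2.mul hsum).mul ((hs.ge hh).add hβ.ge')).gt (by linarith)
    · have hsum : O.GE (x₁ + x₂) o₂ := (hx₁.ge hle).add hx₂.ge'
      rcases le_total (o₁ + o₂) h with hh | hh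
      · exact ((h2.mul hsum).mul (hs.ge'.add (hβ.ge hh))).gt (by linarith)
      · exact ((h2.mul hsum).mul ((hs.ge hh).add hβ.ge')).gt (by linarith)
  exact EQ.gt_add t1 t2

/-- Two points near the node, on different levels. -/
lemma roots_generic {u w T₁ T₂ : L} {lo hi : ℚ} (hu : O.EQ u lo) (hw : O.EQ w hi)
    (h0 : 0 < lo) (h1 : lo < hi) (h3 : hi < h)
    (hS : T₁ + T₂ = (2 * (u + w) * (u * w + β) + b₂ * (u * w)) / (u - w) ^ 2)
    (hP : T₁ * T₂ = (u * w - β) ^ 2 / (u - w) ^ 2) :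
    (O.clamp h T₁ = min (lo + hi) (2 * h - lo - hi) ∧ O.clamp h T₂ = hi - lo) ∨
    (O.clamp h T₂ = min (lo + hi) (2 * h - lo - hi) ∧ O.clamp h T₁ = hi - lo) := by
  have hD : O.EQ (u - w) lo := hu.sub_of_lt hw h1
  have hs : O.EQ (u * w) (lo + hi) := hu.mul hw
  have hSn := snum_eq hb₂ hβ hu hw h0 (h1.trans h3) (h0.trans h1) h3
  have hSE : O.EQ ((2 * (u + w) * (u * w + β) + b₂ * (u * w)) / (u - w) ^ 2) (hi - lo) :=
    (hSn.div hD.sq).of_eq (by ring)
  rcases lt_trichotomy (lo + hi) h with hlt | heq | hgt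
  · have hE : O.EQ (u * w - β) (lo + hi) := hs.sub_gt (hβ.gt hlt)
    have hPE : O.EQ ((u * w - β) ^ 2 / (u - w) ^ 2) (2 * hi) := (hE.sq.div hD.sq).of_eq (by ring)
    have hmin : min (lo + hi) (2 * h - lo - hi) = lo + hi := min_eq_left (by linarith)
    rw [hmin]
    rcases quad_distinct_eq hS hP hSE hPE (by linarith) with ⟨r1, r2⟩ | ⟨r1, r2⟩
    · exact Or.inr ⟨by rw [clamp_of_mem r2 (by linarith) (by linarith)]; ring,
        clamp_of_mem r1 (by linarith) (by linarith)⟩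
    · exact Or.inl ⟨by rw [clamp_of_mem r2 (by linarith) (by linarith)]; ring,
        clamp_of_mem r1 (by linarith) (by linarith)⟩
  · have hE : O.GE (u * w - β) h := (hs.ge heq.ge).sub hβ.ge'
    have hPE : O.GE ((u * w - β) ^ 2 / (u - w) ^ 2) (2 * h - 2 * lo) := hE.sq.div hD.sq
    have hmin : min (lo + hi) (2 * h - lo - hi) = h := by rw [min_eq_left (by linarith), heq]
    rw [hmin]
    rcases quad_distinct hS hP hSE hPE (by linarith) with ⟨r1, r2⟩ | ⟨r1, r2⟩
    · exact Or.inr ⟨clamp_of_ge (r2.mono (by linarith)) (by linarith),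
        clamp_of_mem r1 (by linarith) (by linarith)⟩
    · exact Or.inl ⟨clamp_of_ge (r2.mono (by linarith)) (by linarith),
        clamp_of_mem r1 (by linarith) (by linarith)⟩
  · have hE : O.EQ (u * w - β) h := EQ.gt_sub (hs.gt hgt) hβ
    have hPE : O.EQ ((u * w - β) ^ 2 / (u - w) ^ 2) (2 * h - 2 * lo) := hE.sq.div hD.sq
    have hmin : min (lo + hi) (2 * h - lo - hi) = 2 * h - lo - hi := min_eq_right (by linarith)
    rw [hmin]
    rcases quad_distinct_eq hS hP hSE hPE (by linarith) with ⟨r1, r2⟩ | ⟨r1, r2⟩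
    · exact Or.inr ⟨by rw [clamp_of_mem r2 (by linarith) (by linarith)]; ring,
        clamp_of_mem r1 (by linarith) (by linarith)⟩
    · exact Or.inl ⟨by rw [clamp_of_mem r2 (by linarith) (by linarith)]; ring,
        clamp_of_mem r1 (by linarith) (by linarith)⟩

/-- Two different points near the node, on the same level. -/
lemma roots_same {u w T₁ T₂ : L} {m : ℚ} (hu : O.EQ u m) (hw : O.EQ w m) (huw : u ≠ w)
    (h0 : 0 < m) (h3 : m < h)
    (hS : T₁ + T₂ = (2 * (u + w) * (u * w + β) + b₂ * (u * w)) / (u - w) ^ 2)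
    (hP : T₁ * T₂ = (u * w - β) ^ 2 / (u - w) ^ 2) :
    (O.clamp h T₁ = min (2 * m) (2 * h - 2 * m) ∧ O.clamp h T₂ = 0) ∨
    (O.clamp h T₂ = min (2 * m) (2 * h - 2 * m) ∧ O.clamp h T₁ = 0) := by
  have hD0 : u - w ≠ 0 := sub_ne_zero.mpr huw
  have hD := eq_self (O := O) hD0
  have hδ : m ≤ O.ord (u - w) := hD.le_of_ge (hu.ge'.sub hw.ge')
  set δ := O.ord (u - w) with hδdef
  have hs : O.EQ (u * w) (2 * m) := (hu.mul hw).of_eq (by ring)
  have hSn := snum_eq hb₂ hβ hu hw h0 h3 h0 h3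
  have hSE : O.EQ ((2 * (u + w) * (u * w + β) + b₂ * (u * w)) / (u - w) ^ 2)
      (2 * m - 2 * δ) := (hSn.div hD.sq).of_eq (by ring)
  rcases lt_trichotomy (2 * m) h with hlt | heq | hgt
  · have hE : O.EQ (u * w - β) (2 * m) := hs.sub_gt (hβ.gt hlt)
    have hPE : O.EQ ((u * w - β) ^ 2 / (u - w) ^ 2) (4 * m - 2 * δ) :=
      (hE.sq.div hD.sq).of_eq (by ring)
    have hmin : min (2 * m) (2 * h - 2 * m) = 2 * m := min_eq_left (by linarith)
    rw [hmin]
    rcases quad_distinct_eq hS hP hSE hPE (by linarith) with ⟨r1, r2⟩ | ⟨r1, r2⟩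
    · exact Or.inr ⟨by rw [clamp_of_mem r2 (by linarith) (by linarith)]; ring,
        clamp_of_le r1 (by linarith) (by linarith)⟩
    · exact Or.inl ⟨by rw [clamp_of_mem r2 (by linarith) (by linarith)]; ring,
        clamp_of_le r1 (by linarith) (by linarith)⟩
  · have hE : O.GE (u * w - β) h := (hs.ge heq.ge).sub hβ.ge'
    have hPE : O.GE ((u * w - β) ^ 2 / (u - w) ^ 2) (2 * h - 2 * δ) := hE.sq.div hD.sq
    have hmin : min (2 * m) (2 * h - 2 * m) = h := by rw [min_eq_left (by linarith), heq]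
    rw [hmin]
    rcases quad_distinct hS hP hSE hPE (by linarith) with ⟨r1, r2⟩ | ⟨r1, r2⟩
    · exact Or.inr ⟨clamp_of_ge (r2.mono (by linarith)) (by linarith),
        clamp_of_le r1 (by linarith) (by linarith)⟩
    · exact Or.inl ⟨clamp_of_ge (r2.mono (by linarith)) (by linarith),
        clamp_of_le r1 (by linarith) (by linarith)⟩
  · have hE : O.EQ (u * w - β) h := EQ.gt_sub (hs.gt hgt) hβ
    have hPE : O.EQ ((u * w - β) ^ 2 / (u - w) ^ 2) (2 * h - 2 * δ) := hE.sq.div hD.sq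
    have hmin : min (2 * m) (2 * h - 2 * m) = 2 * h - 2 * m := min_eq_right (by linarith)
    rw [hmin]
    rcases quad_distinct_eq hS hP hSE hPE (by linarith) with ⟨r1, r2⟩ | ⟨r1, r2⟩
    · exact Or.inr ⟨by rw [clamp_of_mem r2 (by linarith) (by linarith)]; ring,
        clamp_of_le r1 (by linarith) (by linarith)⟩
    · exact Or.inl ⟨by rw [clamp_of_mem r2 (by linarith) (by linarith)]; ring,
        clamp_of_le r1 (by linarith) (by linarith)⟩

/-- A point with nonsingular reduction and a point near the node. -/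
lemma roots_unit {u w T₁ T₂ : L} {o m : ℚ} (hu : O.EQ u o) (hw : O.EQ w m) (ho : o ≤ 0)
    (h0 : 0 < m) (h3 : m < h)
    (hS : T₁ + T₂ = (2 * (u + w) * (u * w + β) + b₂ * (u * w)) / (u - w) ^ 2)
    (hP : T₁ * T₂ = (u * w - β) ^ 2 / (u - w) ^ 2) :
    O.clamp h T₁ = m ∧ O.clamp h T₂ = m := by
  have h2 := two_ge O
  have hD : O.EQ (u - w) o := hu.sub_of_lt hw (by linarith)
  have hsum : O.EQ (u + w) o := hu.add_of_lt hw (by linarith)
  have hs : O.EQ (u * w) (o + m) := hu.mul hw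
  have hE : O.EQ (u * w - β) (o + m) := hs.sub_gt (hβ.gt (by linarith))
  have hE' : O.EQ (u * w + β) (o + m) := hs.add_gt (hβ.gt (by linarith))
  have hSn : O.GE (2 * (u + w) * (u * w + β) + b₂ * (u * w)) (2 * o + m) := by
    have t1 : O.GE (2 * (u + w) * (u * w + β)) (2 * o + m) :=
      ((h2.mul hsum.ge').mul hE'.ge').mono (by linarith)
    have t2 : O.GE (b₂ * (u * w)) (2 * o + m) := (hb₂.mul hs).ge (by linarith)
    exact t1.add t2
  have hSE : O.GE ((2 * (u + w) * (u * w + β) + b₂ * (u * w)) / (u - w) ^ 2) m :=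
    (hSn.div hD.sq).mono (by linarith)
  have hPE : O.EQ ((u * w - β) ^ 2 / (u - w) ^ 2) (2 * m) := (hE.sq.div hD.sq).of_eq (by ring)
  obtain ⟨r1, r2⟩ := quad_equal hS hP hSE hPE le_rfl
  exact ⟨by rw [clamp_of_mem r1 (by linarith) (by linarith)]; ring,
    by rw [clamp_of_mem r2 (by linarith) (by linarith)]; ring⟩

/-- A point on the middle component and a point near the node. -/
lemma roots_mid {u w T₁ T₂ : L} {m : ℚ} (hu : O.GE u h) (hw : O.EQ w m)
    (h0 : 0 < m) (h3 : m < h)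
    (hS : T₁ + T₂ = (2 * (u + w) * (u * w + β) + b₂ * (u * w)) / (u - w) ^ 2)
    (hP : T₁ * T₂ = (u * w - β) ^ 2 / (u - w) ^ 2) :
    O.clamp h T₁ = h - m ∧ O.clamp h T₂ = h - m := by
  have h2 := two_ge O
  have hD : O.EQ (u - w) m := EQ.gt_sub (hu.gt h3) hw
  have hsum : O.EQ (u + w) m := EQ.gt_add (hu.gt h3) hw
  have hs : O.GE (u * w) (h + m) := hu.mul hw.ge'
  have hE : O.EQ (u * w - β) h := EQ.gt_sub (hs.gt (by linarith)) hβ
  have hE' : O.EQ (u * w + β) h := EQ.gt_add (hs.gt (by linarith)) hβ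
  have hSn : O.GE (2 * (u + w) * (u * w + β) + b₂ * (u * w)) (h + m) := by
    have t1 : O.GE (2 * (u + w) * (u * w + β)) (h + m) :=
      ((h2.mul hsum.ge').mul hE'.ge').mono (by linarith)
    have t2 : O.GE (b₂ * (u * w)) (h + m) := (hb₂.ge'.mul hs).mono (by linarith)
    exact t1.add t2
  have hSE : O.GE ((2 * (u + w) * (u * w + β) + b₂ * (u * w)) / (u - w) ^ 2) (h - m) :=
    (hSn.div hD.sq).mono (by linarith)
  have hPE : O.EQ ((u * w - β) ^ 2 / (u - w) ^ 2) (2 * (h - m)) :=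
    (hE.sq.div hD.sq).of_eq (by ring)
  obtain ⟨r1, r2⟩ := quad_equal hS hP hSE hPE le_rfl
  exact ⟨by rw [clamp_of_mem r1 (by linarith) (by linarith)]; ring,
    by rw [clamp_of_mem r2 (by linarith) (by linarith)]; ring⟩

/-- Doubling a point near the node. -/
lemma dbl_node {X : L} {m : ℚ} (hX : O.EQ X m) (h0 : 0 < m) (h3 : m < h) :
    4 * X ^ 3 + b₂ * X ^ 2 + 4 * β * X ≠ 0 ∧
      O.clamp h ((X ^ 2 - β) ^ 2 / (4 * X ^ 3 + b₂ * X ^ 2 + 4 * β * X))
        = min (2 * m) (2 * h - 2 * m) := by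
  have h4 := four_ge O
  have hq : O.EQ (b₂ * X + 4 * X ^ 2 + 4 * β) m :=
    (((hb₂.mul hX).of_eq (by ring)).add_gt ((h4.mul hX.sq.ge').gt (by linarith))).add_gt
      ((h4.mul hβ.ge').gt (by linarith))
  have hden : O.EQ (4 * X ^ 3 + b₂ * X ^ 2 + 4 * β * X) (2 * m) := by
    have : 4 * X ^ 3 + b₂ * X ^ 2 + 4 * β * X = X * (b₂ * X + 4 * X ^ 2 + 4 * β) := by ring
    rw [this]; exact (hX.mul hq).of_eq (by ring)
  refine ⟨hden.1, ?_⟩
  rcases lt_trichotomy (2 * m) h with hlt | heq | hgt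
  · have hE : O.EQ (X ^ 2 - β) (2 * m) := hX.sq.sub_gt (hβ.gt hlt)
    rw [min_eq_left (by linarith), clamp_of_mem (hE.sq.div hden) (by linarith) (by linarith)]
    ring
  · have hE : O.GE (X ^ 2 - β) h := (hX.sq.ge heq.ge).sub hβ.ge'
    rw [min_eq_left (by linarith), clamp_of_ge ((hE.sq.div hden).mono (by linarith))
      (by linarith), heq]
  · have hE : O.EQ (X ^ 2 - β) h := EQ.gt_sub (hX.sq.gt hgt) hβ
    rw [min_eq_right (by linarith), clamp_of_mem (hE.sq.div hden) (by linarith) (by linarith)]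

end Roots

/-- The component function. -/
noncomputable def mu (B : BModel L G b₂ β) (O : OrdData L) (h : ℚ) (R : G) : ℚ :=
  match B.xc R with
  | none => 0
  | some x => O.clamp h x

variable (B : BModel L G b₂ β) (O : OrdData L) (h : ℚ)

lemma mu_zero : mu B O h 0 = 0 := by
  unfold mu; rw [B.xc_zero]

variable {O h}

lemma mu_of_xc {R : G} {x : L} (hR : B.xc R = some x) : mu B O h R = O.clamp h x := by
  unfold mu; rw [hR]

lemma mu_neg (R : G) : mu B O h (-R) = mu B O h R := by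
  unfold mu; rw [B.xc_neg]

variable {B}

section

variable (hb₂ : O.EQ b₂ 0) (hβ : O.EQ β h)
include hb₂ hβ

/-- The values of the component function at `Q + P` and `Q - P`. -/
lemma mu_add_sub {P : G} {X : L} {m : ℚ} (hP : B.xc P = some X) (hX : O.EQ X m)
    (h0 : 0 < m) (h3 : m < h) (Q : G) :
    (mu B O h (Q + P) = min (mu B O h Q + m) (2 * h - mu B O h Q - m) ∧
      mu B O h (Q - P) = |mu B O h Q - m|) ∨
    (mu B O h (Q - P) = min (mu B O h Q + m) (2 * h - mu B O h Q - m) ∧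
      mu B O h (Q + P) = |mu B O h Q - m|) := by
  have hμP : mu B O h P = m := by
    rw [mu_of_xc B hP]; exact clamp_of_mem hX h0.le h3.le
  rcases hQ : B.xc Q with _ | x₁
  · have hQ0 := B.eq_zero hQ
    subst hQ0
    left
    rw [zero_add, zero_sub, mu_neg, hμP, mu_zero, zero_add, zero_sub, abs_neg,
      abs_of_pos h0, min_eq_left (by linarith)]
    exact ⟨rfl, rfl⟩
  by_cases hxx : x₁ = X
  · subst hxx
    obtain ⟨hC0, hd⟩ := dbl_node hb₂ hβ hX h0 h3
    have hd3 := B.dbl hP hC0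
    have hμ2 : mu B O h (P + P) = min (m + m) (2 * h - m - m) := by
      rw [mu_of_xc B hd3, hd]
      congr 1 <;> ring
    rcases B.eq_or_eq_neg hQ hP with hh | hh
    · subst hh
      left
      rw [hμP, sub_self, sub_self, mu_zero, abs_zero]
      exact ⟨hμ2, rfl⟩
    · subst hh
      right
      have e1 : -P + P = 0 := neg_add_cancel P
      have e2 : -P - P = -(P + P) := by abel
      rw [e1, e2, mu_neg, mu_neg, hμP, sub_self, mu_zero, abs_zero]
      exact ⟨hμ2, rfl⟩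
  · obtain ⟨T₁, T₂, c1, c2, hS, hPr⟩ := B.add_sub hQ hP hxx
    rw [mu_of_xc B c1, mu_of_xc B c2, mu_of_xc B hQ]
    rcases GE_or_lt O x₁ h with hge | ⟨hx0, hlt⟩
    · obtain ⟨r1, r2⟩ := roots_mid hb₂ hβ hge hX h0 h3 hS hPr
      left
      rw [clamp_of_ge hge (by linarith), r1, r2, min_eq_right (by linarith),
        abs_of_pos (by linarith)]
      exact ⟨by ring, rfl⟩
    · have hx₁ := eq_self (O := O) hx0
      rcases le_or_gt (O.ord x₁) 0 with hle | hpos
      · obtain ⟨r1, r2⟩ := roots_unit hb₂ hβ hx₁ hX hle h0 h3 hS hPr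
        left
        rw [clamp_of_le hx₁ hle (by linarith), r1, r2, zero_add, zero_sub, abs_neg,
          abs_of_pos h0, min_eq_left (by linarith)]
        exact ⟨rfl, rfl⟩
      · rw [clamp_of_mem hx₁ hpos.le hlt.le]
        rcases lt_trichotomy (O.ord x₁) m with hlt' | heq | hgt'
        · rw [abs_of_neg (by linarith), neg_sub]
          exact roots_generic hb₂ hβ hx₁ hX hpos hlt' h3 hS hPr
        · rw [heq, sub_self, abs_zero]
          have := roots_same hb₂ hβ (hx₁.of_eq heq) hX hxx h0 h3 hS hPr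
          have e1 : m + m = 2 * m := by ring
          have e2 : 2 * h - m - m = 2 * h - 2 * m := by ring
          rw [e1, e2]
          exact this
        · rw [abs_of_pos (by linarith)]
          have hS' : T₁ + T₂ = (2 * (X + x₁) * (X * x₁ + β) + b₂ * (X * x₁)) / (X - x₁) ^ 2 := by
            rw [hS]; congr 1 <;> ring
          have hP' : T₁ * T₂ = (X * x₁ - β) ^ 2 / (X - x₁) ^ 2 := by
            rw [hPr]; congr 1 <;> ring
          have := roots_generic hb₂ hβ hX hx₁ h0 hgt' hlt hS' hP'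
          have e1 : O.ord x₁ + m = m + O.ord x₁ := by ring
          have e2 : 2 * h - O.ord x₁ - m = 2 * h - m - O.ord x₁ := by ring
          rw [e1, e2]
          exact this

/-- The component function on the multiples of a point near the node. -/
lemma lev_nsmul {P : G} {X : L} {m : ℚ} (hP : B.xc P = some X) (hX : O.EQ X m)
    (h0 : 0 < m) (h3 : m < h) (n : ℕ) :
    Lev h (mu B O h (n • P)) (n * m) ∧ Lev h (mu B O h ((n + 1) • P)) ((n + 1 : ℕ) * m) := by
  have hμP : mu B O h P = m := by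
    rw [mu_of_xc B hP]; exact clamp_of_mem hX h0.le h3.le
  induction n with
  | zero =>
    constructor
    · rw [zero_smul, mu_zero]; exact ⟨0, Or.inl (by simp)⟩
    · rw [zero_add, one_smul, hμP]; exact ⟨0, Or.inl (by simp)⟩
  | succ n ih =>
    obtain ⟨i0, i1⟩ := ih
    refine ⟨i1, ?_⟩
    have e1 : (n + 1) • P + P = (n + 1 + 1) • P := (succ_nsmul P (n + 1)).symm
    have e2 : (n + 1) • P - P = n • P := by rw [add_smul, one_smul, add_sub_cancel_right]
    have c1 : ((n + 1 : ℕ) : ℚ) * m + m = ((n + 1 + 1 : ℕ) : ℚ) * m := by push_cast; ring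
    have c2 : ((n + 1 : ℕ) : ℚ) * m - m = (n : ℚ) * m := by push_cast; ring
    have key := mu_add_sub hb₂ hβ hP hX h0 h3 ((n + 1) • P)
    rw [e1, e2] at key
    rcases key with ⟨kA, kB⟩ | ⟨kA, kB⟩
    · rcases Lev.step i1 kA kB with ⟨s1, -⟩ | ⟨s1, s2⟩
      · rwa [c1] at s1
      · rw [c1] at s2; rw [c2] at s1
        exact Lev.trans' i0 s2 s1
    · rcases Lev.step i1 kA kB with ⟨s1, s2⟩ | ⟨-, s2⟩
      · rw [c1] at s1; rw [c2] at s2
        exact Lev.trans' i0 s1 s2
      · rwa [c1] at s2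

end

end BT

/-- A torsion point near the node lies on a component of order dividing `p`. -/
theorem BModel.ord_of_torsion (B : BModel L G b₂ β) (O : OrdData L) {h : ℚ}
    (hb₂ : O.EQ b₂ 0) (hβ : O.EQ β h) {P : G} {x : L} {m : ℚ} (hP : B.xc P = some x)
    (hx : O.EQ x m) (h0 : 0 < m) (h3 : m < h) {p : ℕ} (hpP : p • P = 0) :
    ∃ k : ℤ, (p : ℚ) * m = 2 * h * k := by
  obtain ⟨⟨k, hk⟩, -⟩ := BT.lev_nsmul hb₂ hβ hP hx h0 h3 p
  rw [hpP, BT.mu_zero] at hk
  rcases hk with hk | hk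
  · exact ⟨-k, by push_cast; linarith⟩
  · exact ⟨k, by linarith⟩

end Fermat.Agent.S13Lib
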