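import Fermat.Agent.S13.BKernel
import Fermat.Agent.S13.BTent

/-!
# No rational `p`-torsion point: the `2`-adic argument
-/

set_option autoImplicit false

namespace Fermat.Agent.S13Lib

open Fermat.Agent.S05Lib OrdData

namespace T2R

variable {L : Type} [Field L] {G : Type} [AddCommGroup G] {b₂ β : L} {O : OrdData L}

lemma four (h2 : O.EQ (2 : L) 1) : O.EQ (4 : L) 2 := by
  have : (4 : L) = 2 * 2 := by norm_num
  rw [this]; exact (h2.mul h2).of_eq (by norm_num)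

lemma eq_zero_of_coprime {P : G} {m n : ℕ} (hm : m • P = 0) (hn : n • P = 0)
    (hmn : Nat.Coprime m n) : P = 0 := by
  have h1 := addOrderOf_dvd_iff_nsmul_eq_zero.mpr hm
  have h2 := addOrderOf_dvd_iff_nsmul_eq_zero.mpr hn
  have h3 : addOrderOf P ∣ 1 := hmn ▸ Nat.dvd_gcd h1 h2
  exact AddMonoid.addOrderOf_eq_one_iff.mp (Nat.dvd_one.mp h3)

lemma ne_zero_of_xc (B : BModel L G b₂ β) {P : G} {x : L} (hP : B.xc P = some x) : P ≠ 0 := by
  intro h0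
  rw [h0, B.xc_zero] at hP
  exact absurd hP (by simp)

/-- the case `ord x ≤ 0` -/
lemma nonpos (B : BModel L G b₂ β) (h2 : O.EQ (2 : L) 1) (hb₂ : O.EQ b₂ 0) {h : ℚ}
    (hβ : O.EQ β h) (hh : 0 < h) (K : Subfield L) (hb₂K : b₂ ∈ K) (hβK : β ∈ K)
    (hK2 : ∀ x ∈ K, ∀ y ∈ K, O.EQ x 0 → O.EQ y 0 → O.GT (x - y) 0)
    {p : ℕ} (hp : O.EQ (p : L) 0) (hpp : p.Prime) (hp5 : 5 ≤ p)
    {P : G} {x : L} {m : ℚ} (hP : B.xc P = some x) (hxK : x ∈ K) (hx : O.EQ x m) (hm : m ≤ 0) :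
    p • P ≠ 0 := by
  rcases hm.lt_or_eq with hm | rfl
  · exact B.nsmul_ne_zero_of_neg O hb₂.ge' (hβ.ge hh.le) hP hx hm hp
  intro hpP
  have h4 := four h2
  have hP0 := ne_zero_of_xc B hP
  have h4K : (4 : L) ∈ K := by exact_mod_cast natCast_mem K 4
  have hden : O.EQ (4 * x ^ 3 + b₂ * x ^ 2 + 4 * β * x) 0 := by
    have e1 : O.EQ (b₂ * x ^ 2) 0 := (hb₂.mul hx.sq).of_eq (by norm_num)
    have e2 : O.GT (4 * x ^ 3) 0 := (h4.mul (hx.pow 3)).gt (by norm_num)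
    have e3 : O.GT (4 * β * x) 0 := ((h4.mul hβ).mul hx).gt (by linarith)
    exact (EQ.gt_add e2 e1).add_gt e3
  have hnum : O.EQ ((x ^ 2 - β) ^ 2) 0 := by
    have e1 : O.EQ (x ^ 2) 0 := hx.sq.of_eq (by norm_num)
    exact (e1.sub_gt (hβ.gt hh)).sq.of_eq (by norm_num)
  set x2 := (x ^ 2 - β) ^ 2 / (4 * x ^ 3 + b₂ * x ^ 2 + 4 * β * x) with hx2
  have hx2E : O.EQ x2 0 := (hnum.div hden).of_eq (by norm_num)
  have hx2K : x2 ∈ K := by
    refine K.div_mem (K.pow_mem (K.sub_mem (K.pow_mem hxK 2) hβK) 2) ?_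
    exact K.add_mem (K.add_mem (K.mul_mem h4K (K.pow_mem hxK 3)) (K.mul_mem hb₂K (K.pow_mem hxK 2)))
      (K.mul_mem (K.mul_mem h4K hβK) hxK)
  have h2P : B.xc (P + P) = some x2 := B.dbl hP hden.1
  have hcop : Nat.Coprime 3 p := by
    rw [Nat.coprime_primes Nat.prime_three hpp]; omega
  by_cases hxx : x2 = x
  · rw [hxx] at h2P
    rcases B.eq_or_eq_neg h2P hP with h | h
    · exact hP0 (by simpa using h)
    · apply hP0
      refine eq_zero_of_coprime (m := 3) (n := p) ?_ hpP hcop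
      have : P + P + P = 0 := by rw [h]; simp
      rw [← this]; abel
  · obtain ⟨t₁, t₂, c1, c2, hS, -⟩ := B.add_sub h2P hP hxx
    have ht₂ : t₂ = x := by
      rw [add_sub_cancel_right, hP] at c2
      exact (Option.some.inj c2).symm
    have hd0 : x2 - x ≠ 0 := sub_ne_zero.mpr hxx
    have hdgt : O.GT (x2 - x) 0 := hK2 x2 hx2K x hxK hx2E hx
    have hdE := eq_self (O := O) hd0
    have hdpos : 0 < O.ord (x2 - x) := hdE.lt_of_gt hdgt
    have hN : O.EQ (2 * (x2 + x) * (x2 * x + β) + b₂ * (x2 * x)) 0 := by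
      have e1 : O.EQ (b₂ * (x2 * x)) 0 := (hb₂.mul (hx2E.mul hx)).of_eq (by norm_num)
      have e2 : O.GE (x2 + x) 0 := hx2E.ge'.add hx.ge'
      have e3 : O.GE (x2 * x + β) 0 :=
        ((hx2E.mul hx).ge (by norm_num)).add (hβ.ge hh.le)
      have e4 : O.GT (2 * (x2 + x) * (x2 * x + β)) 0 :=
        (((h2.gt one_pos).mul_ge e2).mul_ge e3).mono (by norm_num)
      exact EQ.gt_add e4 e1
    have hSE : O.EQ (t₁ + t₂) (0 - 2 * O.ord (x2 - x)) := hS ▸ hN.div hdE.sq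
    have ht₁ : O.EQ t₁ (0 - 2 * O.ord (x2 - x)) := by
      have : t₁ = (t₁ + t₂) - t₂ := by ring
      rw [this, ht₂]
      rw [ht₂] at hSE
      exact hSE.sub_gt (hx.gt (by linarith))
    refine B.nsmul_ne_zero_of_neg O hb₂.ge' (hβ.ge hh.le) c1 ht₁ (by linarith) hp ?_
    rw [nsmul_add, nsmul_add, hpP]; simp

/-- the main statement for a `BModel` -/
theorem core (B : BModel L G b₂ β) (h2 : O.EQ (2 : L) 1) (hb₂ : O.EQ b₂ 0) {h : ℚ}
    (hβ : O.EQ β h) (hh : 0 < h) (K : Subfield L) (hb₂K : b₂ ∈ K) (hβK : β ∈ K)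
    (hK1 : ∀ x ∈ K, x ≠ 0 → ∃ k : ℤ, O.EQ x k)
    (hK2 : ∀ x ∈ K, ∀ y ∈ K, O.EQ x 0 → O.EQ y 0 → O.GT (x - y) 0)
    {p : ℕ} (hp : O.EQ (p : L) 0) (hpp : p.Prime) (hp5 : 5 ≤ p) {w : ℤ} (hw : h = p * w - 4)
    {P : G} {x : L} (hP : B.xc P = some x) (hxK : x ∈ K) : p • P ≠ 0 := by
  intro hpP
  have h4 := four h2
  have hP0 := ne_zero_of_xc B hP
  have h4K : (4 : L) ∈ K := by exact_mod_cast natCast_mem K 4
  have hcop2 : Nat.Coprime 2 p := by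
    rw [Nat.coprime_primes Nat.prime_two hpp]; omega
  -- the case where `ord x ≥ h`
  have big : O.GE x h → False := by
    intro hxh
    by_cases hden : 4 * x ^ 3 + b₂ * x ^ 2 + 4 * β * x = 0
    · have := B.dbl_zero hP hden
      exact hP0 (eq_zero_of_coprime (m := 2) (n := p) (by rw [two_nsmul]; exact this) hpP hcop2)
    · have h2P := B.dbl hP hden
      have hnum : O.EQ ((x ^ 2 - β) ^ 2) (2 * h) := by
        have e1 : O.GT (x ^ 2) h := hxh.sq.gt (by linarith)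
        exact (EQ.gt_sub e1 hβ).sq
      have hdenGE : O.GE (4 * x ^ 3 + b₂ * x ^ 2 + 4 * β * x) (2 * h) := by
        have e1 : O.GE (4 * x ^ 3) (2 * h) := (h4.ge'.mul (hxh.pow 3)).mono (by push_cast; linarith)
        have e2 : O.GE (b₂ * x ^ 2) (2 * h) := (hb₂.ge'.mul hxh.sq).mono (by linarith)
        have e3 : O.GE (4 * β * x) (2 * h) := ((h4.mul hβ).ge'.mul hxh).mono (by linarith)
        exact (e1.add e2).add e3
      have hdenE := eq_self (O := O) hden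
      have hle : 2 * h ≤ O.ord (4 * x ^ 3 + b₂ * x ^ 2 + 4 * β * x) := hdenE.le_of_ge hdenGE
      have hx2K : (x ^ 2 - β) ^ 2 / (4 * x ^ 3 + b₂ * x ^ 2 + 4 * β * x) ∈ K := by
        refine K.div_mem (K.pow_mem (K.sub_mem (K.pow_mem hxK 2) hβK) 2) ?_
        exact K.add_mem (K.add_mem (K.mul_mem h4K (K.pow_mem hxK 3))
          (K.mul_mem hb₂K (K.pow_mem hxK 2))) (K.mul_mem (K.mul_mem h4K hβK) hxK)
      refine nonpos B h2 hb₂ hβ hh K hb₂K hβK hK2 hp hpp hp5 h2P hx2K (hnum.div hdenE)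
        (by linarith) ?_
      rw [nsmul_add, hpP]; simp
  by_cases hx0 : x = 0
  · exact big (Or.inl hx0)
  obtain ⟨m, hm⟩ := hK1 x hxK hx0
  rcases le_or_gt (m : ℚ) 0 with hm0 | hm0
  · exact nonpos B h2 hb₂ hβ hh K hb₂K hβK hK2 hp hpp hp5 hP hxK hm hm0 hpP
  rcases le_or_gt h (m : ℚ) with hmh | hmh
  · exact big (hm.ge hmh)
  obtain ⟨k, hk⟩ := B.ord_of_torsion O hb₂ hβ hP hm hm0 hmh hpP
  -- `p m = 2 (p w - 4) k`
  rw [hw] at hk hmh hh
  have hkZ : (p : ℤ) * m = 2 * (p * w - 4) * k := by exact_mod_cast hk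
  have hdvd : (p : ℤ) ∣ 8 * k := ⟨2 * w * k - m, by linear_combination hkZ⟩
  have hpZ : Prime (p : ℤ) := Nat.prime_iff_prime_int.mp hpp
  have hdvd' : (p : ℤ) ∣ k := by
    rcases hpZ.dvd_or_dvd hdvd with h8 | h8
    · exfalso
      have : p ∣ 8 := by exact_mod_cast h8
      have h88 : p ∣ 2 := hpp.dvd_of_dvd_pow (n := 3) (by norm_num; exact this)
      have := Nat.le_of_dvd (by norm_num) h88
      omega
    · exact h8
  obtain ⟨k', rfl⟩ := hdvd'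
  have hp0 : (p : ℤ) ≠ 0 := hpZ.ne_zero
  have hmk : m = 2 * (p * w - 4) * k' := by
    apply mul_left_cancel₀ hp0
    rw [hkZ]; ring
  have hm0' : 0 < m := by exact_mod_cast hm0
  have hmh' : m < p * w - 4 := by exact_mod_cast hmh
  have hh' : (0 : ℤ) < p * w - 4 := by exact_mod_cast hh
  rw [hmk] at hm0' hmh'
  have hk1 : 0 < k' := by
    by_contra hneg
    have : k' ≤ 0 := not_lt.mp hneg
    nlinarith
  nlinarith

end T2R

variable {L : Type} [Field L] {G : Type} [AddCommGroup G] {a₂ a₄ : L} {M : XYModel L G a₂ a₄}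
  {O : OrdData L}

theorem two_no_rational (h2 : O.EQ (2 : L) 1) (ha₂ : O.EQ a₂ 0)
    {h : ℚ} (ha₄ : O.EQ a₄ (h + 4)) (hh : 0 < h)
    (K : Subfield L) (ha₂K : a₂ ∈ K) (ha₄K : a₄ ∈ K)
    (hK1 : ∀ x ∈ K, x ≠ 0 → ∃ k : ℤ, O.EQ x k)
    (hK2 : ∀ x ∈ K, ∀ y ∈ K, O.EQ x 0 → O.EQ y 0 → O.GT (x - y) 0)
    {p : ℕ} (hp : O.EQ (p : L) 0) (hpp : p.Prime) (hp5 : 5 ≤ p) {w : ℤ} (hw : h = p * w - 4)
    {P : G} {X Y : L} (hP : M.co P = some (X, Y)) (hX : X ∈ K) : p • P ≠ 0 := by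
  have h4 := T2R.four h2
  have h4K : (4 : L) ∈ K := by exact_mod_cast natCast_mem K 4
  refine T2R.core (M.toBModel 4 h4.1 h2.1) h2 (h := h) ?_ ?_ hh K ?_ ?_ hK1 hK2 hp hpp hp5 hw
    (M.toBModel_xc 4 h4.1 h2.1 hP) (K.div_mem hX h4K)
  · exact ((h4.mul ha₂).div h4).of_eq (by norm_num)
  · exact (ha₄.div h4.sq).of_eq (by ring)
  · exact K.div_mem (K.mul_mem h4K ha₂K) h4K
  · exact K.div_mem ha₄K (K.pow_mem h4K 2)

end Fermat.Agent.S13Lib
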