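import Fermat.Agent.S13.TwoInertia
import Fermat.Agent.S13.TwoRational
import Fermat.Agent.S05.Final
import Fermat.Agent.Lib.FrobeniusExists

/-!
# The Frey curve at the prime `2`
-/

set_option autoImplicit false
set_option linter.style.haveILetI false
set_option linter.unnecessarySimpa false

namespace Fermat.Agent.S13Lib

open Fermat.Agent.S05Lib WeierstrassCurve WeierstrassCurve.Affine OrdData

local notation "Qbar" => AlgebraicClosure ℚ

namespace F2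

section Rat

variable {A : ValuationSubring Qbar} {q : ℕ} (hq : q.Prime) (hA : A.LiesOverPrime q)

lemma int_GE (n : ℤ) : (qbarOrd A hq hA).GE (n : Qbar) 0 :=
  qbarOrd_GE_zero hq hA (intCast_mem A n)

lemma rat_eq (c : ℚ) : algebraMap ℚ Qbar c = (c.num : Qbar) / (c.den : Qbar) := by
  conv_lhs => rw [← Rat.num_div_den c]
  simp

/-- nonzero rational numbers have integral valuation -/
lemma rat_ord {c : ℚ} (hc : c ≠ 0) : ∃ k : ℤ, (qbarOrd A hq hA).EQ (algebraMap ℚ Qbar c) k := by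
  obtain ⟨w₁, h1, -⟩ := qbarOrd_int_exists hq hA (Rat.num_ne_zero.mpr hc)
  obtain ⟨w₂, h2, -⟩ := qbarOrd_int_exists hq hA (n := (c.den : ℤ)) (by exact_mod_cast c.den_ne_zero)
  refine ⟨(w₁ : ℤ) - w₂, ?_⟩
  rw [rat_eq]
  have h2' : (qbarOrd A hq hA).EQ ((c.den : ℕ) : Qbar) w₂ := by exact_mod_cast h2
  exact (h1.div h2').of_eq (by push_cast; ring)

/-- numerator and denominator of a rational unit are prime to `q` -/
lemma rat_unit {c : ℚ} (h : (qbarOrd A hq hA).EQ (algebraMap ℚ Qbar c) 0) :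
    ¬ (q : ℤ) ∣ c.num ∧ ¬ (q : ℤ) ∣ (c.den : ℤ) := by
  have hc : c ≠ 0 := by
    intro h0; apply h.1; rw [h0, map_zero]
  obtain ⟨w₁, h1, h1'⟩ := qbarOrd_int_exists hq hA (Rat.num_ne_zero.mpr hc)
  obtain ⟨w₂, h2, h2'⟩ := qbarOrd_int_exists hq hA (n := (c.den : ℤ))
    (by exact_mod_cast c.den_ne_zero)
  have h2'' : (qbarOrd A hq hA).EQ ((c.den : ℕ) : Qbar) w₂ := by exact_mod_cast h2
  rw [rat_eq] at h
  have hw : (w₁ : ℚ) - w₂ = 0 := (h1.div h2'').unique h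
  have hw' : w₁ = w₂ := by
    have : (w₁ : ℚ) = w₂ := by linarith
    exact_mod_cast this
  have hcop : ¬ ((q : ℤ) ∣ c.num ∧ (q : ℤ) ∣ (c.den : ℤ)) := by
    rintro ⟨d1, d2⟩
    have d1' : q ∣ c.num.natAbs := Int.natCast_dvd.mp d1
    have d2' : q ∣ c.den := by exact_mod_cast d2
    have := Nat.dvd_gcd d1' d2'
    rw [c.reduced] at this
    exact hq.one_lt.ne' (Nat.dvd_one.mp this)
  constructor
  · intro d1
    have : 0 < w₂ := hw' ▸ h1' d1
    apply hcop ⟨d1, ?_⟩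
    by_contra d2
    have := (qbarOrd_int hq hA d2).unique h2
    have : (w₂ : ℚ) = 0 := this.symm
    have : w₂ = 0 := by exact_mod_cast this
    omega
  · intro d2
    have : 0 < w₁ := hw' ▸ h2' d2
    apply hcop ⟨?_, d2⟩
    by_contra d1
    have := (qbarOrd_int hq hA d1).unique h1
    have : (w₁ : ℚ) = 0 := this.symm
    have : w₁ = 0 := by exact_mod_cast this
    omega

end Rat

variable {A : ValuationSubring Qbar} (hA : A.LiesOverPrime 2)

lemma two_EQ : (qbarOrd A Nat.prime_two hA).EQ (2 : Qbar) 1 := by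
  have := qbarOrd_q Nat.prime_two hA
  exact_mod_cast this

/-- a rational `2`-adic unit is congruent to `1` -/
lemma rat_sub_one {c : ℚ} (h : (qbarOrd A Nat.prime_two hA).EQ (algebraMap ℚ Qbar c) 0) :
    (qbarOrd A Nat.prime_two hA).GT (algebraMap ℚ Qbar c - 1) 0 := by
  obtain ⟨h1, h2⟩ := rat_unit Nat.prime_two hA h
  have hden : (qbarOrd A Nat.prime_two hA).EQ (((c.den : ℤ)) : Qbar) 0 :=
    qbarOrd_int Nat.prime_two hA h2
  have h1' : c.num % 2 = 1 := by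
    have : ¬ (2 : ℤ) ∣ c.num := by exact_mod_cast h1
    omega
  have h2' : (c.den : ℤ) % 2 = 1 := by
    have : ¬ (2 : ℤ) ∣ (c.den : ℤ) := by exact_mod_cast h2
    omega
  obtain ⟨k, hk⟩ : ∃ k : ℤ, c.num - c.den = 2 * k := ⟨(c.num - c.den) / 2, by omega⟩
  have e : algebraMap ℚ Qbar c - 1 = 2 * (k : Qbar) / ((c.den : ℤ) : Qbar) := by
    rw [rat_eq]
    have hd0 := hden.1
    have hk' : (c.num : Qbar) - ((c.den : ℤ) : Qbar) = 2 * (k : Qbar) := by
      have := congrArg (Int.cast : ℤ → Qbar) hk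
      push_cast at this ⊢
      exact this
    have : ((c.den : ℕ) : Qbar) = ((c.den : ℤ) : Qbar) := by push_cast; rfl
    rw [this]
    field_simp
    linear_combination hk'
  rw [e]
  exact (((two_EQ hA).ge'.mul (int_GE Nat.prime_two hA k)).div hden).gt (by norm_num)

end F2

open F2

section Main

/-- arithmetic of the Frey package at `2` -/
lemma F2.arith (P : FreyPackage) :
    ¬ (2 : ℤ) ∣ P.a ∧ (2 : ℤ) ∣ P.b ∧ ¬ (2 : ℤ) ∣ (P.b ^ P.p - P.a ^ P.p) ∧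
      (4 : ℤ) ∣ (P.b ^ P.p - P.a ^ P.p - 1) := by
  have hb : (2 : ℤ) ∣ P.b := (ZMod.intCast_zmod_eq_zero_iff_dvd P.b 2).1 P.hb2
  have ha : ¬ (2 : ℤ) ∣ P.a := by
    intro h
    obtain ⟨k, hk⟩ := h
    have h4 := P.ha4
    rw [hk] at h4
    push_cast at h4
    have : ∀ x : ZMod 4, (2 : ZMod 4) * x ≠ 3 := by decide
    exact this _ h4
  have hp2 : 2 ≤ P.p := by have := P.hp5; omega
  have hb4 : (4 : ℤ) ∣ P.b ^ P.p := by
    have : (2 : ℤ) ^ 2 ∣ P.b ^ P.p := (pow_dvd_pow_of_dvd hb 2).trans (pow_dvd_pow _ hp2)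
    simpa using this
  have h4 : (4 : ℤ) ∣ (P.b ^ P.p - P.a ^ P.p - 1) := by
    apply (ZMod.intCast_zmod_eq_zero_iff_dvd _ 4).1
    have hb4' : ((P.b : ZMod 4)) ^ P.p = 0 := by
      have := (ZMod.intCast_zmod_eq_zero_iff_dvd _ 4).2 hb4
      push_cast at this
      exact this
    push_cast
    rw [hb4', P.ha4]
    have h3 : (3 : ZMod 4) = -1 := by decide
    rw [h3, P.hp_odd.neg_one_pow]
    decide
  refine ⟨ha, hb, ?_, h4⟩
  intro h
  obtain ⟨k, hk⟩ := h4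
  obtain ⟨l, hl⟩ := h
  omega

/-- the valuations of the coefficients of the Frey model at `2` -/
lemma F2.setup (P : FreyPackage) {A : ValuationSubring Qbar} (hA : A.LiesOverPrime 2) :
    ∃ w : ℤ, (0 : ℚ) < P.p * w - 4 ∧
      (qbarOrd A Nat.prime_two hA).EQ
        (3 * 0 + (P.b : Qbar) ^ P.p - (P.a : Qbar) ^ P.p) 0 ∧
      (qbarOrd A Nat.prime_two hA).GE
        ((3 * 0 + (P.b : Qbar) ^ P.p - (P.a : Qbar) ^ P.p - 1) / 4) 0 ∧
      (qbarOrd A Nat.prime_two hA).EQ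
        (3 * (0 : Qbar) ^ 2 + 2 * ((P.b : Qbar) ^ P.p - (P.a : Qbar) ^ P.p) * 0
          - (P.a : Qbar) ^ P.p * (P.b : Qbar) ^ P.p) ((P.p * w - 4 : ℚ) + 4) ∧
      (qbarOrd A Nat.prime_two hA).EQ (P.p : Qbar) 0 := by
  obtain ⟨ha2, hb2, hodd, h4⟩ := F2.arith P
  obtain ⟨wb, hwb, hwb'⟩ := qbarOrd_int_exists Nat.prime_two hA P.hb0
  have hwpos : 0 < wb := hwb' (by exact_mod_cast hb2)
  have hEa : (qbarOrd A Nat.prime_two hA).EQ ((P.a : Qbar) ^ P.p) 0 :=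
    ((qbarOrd_int Nat.prime_two hA (by exact_mod_cast ha2)).pow P.p).of_eq (by ring)
  have hEb : (qbarOrd A Nat.prime_two hA).EQ ((P.b : Qbar) ^ P.p) (P.p * wb) := hwb.pow P.p
  refine ⟨wb, ?_, ?_, ?_, ?_, ?_⟩
  · have h5 : (5 : ℚ) ≤ P.p := by exact_mod_cast P.hp5
    have h1 : (1 : ℚ) ≤ ((wb : ℤ) : ℚ) := by exact_mod_cast hwpos
    nlinarith
  · have : 3 * 0 + (P.b : Qbar) ^ P.p - (P.a : Qbar) ^ P.p
        = ((P.b ^ P.p - P.a ^ P.p : ℤ) : Qbar) := by push_cast; ring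
    rw [this]
    exact qbarOrd_int Nat.prime_two hA (by exact_mod_cast hodd)
  · obtain ⟨k, hk⟩ := h4
    have hk' : (P.b : Qbar) ^ P.p - (P.a : Qbar) ^ P.p - 1 = 4 * (k : Qbar) := by
      have := congrArg (Int.cast : ℤ → Qbar) hk
      push_cast at this
      exact this
    have : (3 * 0 + (P.b : Qbar) ^ P.p - (P.a : Qbar) ^ P.p - 1) / 4 = (k : Qbar) := by
      rw [eq_comm, eq_div_iff (by norm_num)]
      linear_combination -hk'
    rw [this]
    exact int_GE Nat.prime_two hA k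
  · have : 3 * (0 : Qbar) ^ 2 + 2 * ((P.b : Qbar) ^ P.p - (P.a : Qbar) ^ P.p) * 0
          - (P.a : Qbar) ^ P.p * (P.b : Qbar) ^ P.p
        = -((P.a : Qbar) ^ P.p * (P.b : Qbar) ^ P.p) := by ring
    rw [this]
    exact ((hEa.mul hEb).of_eq (by push_cast; ring)).neg
  · have : ¬ ((2 : ℕ) : ℤ) ∣ (P.p : ℤ) := by
      intro h
      have h' : 2 ∣ P.p := by exact_mod_cast h
      have := (Nat.prime_dvd_prime_iff_eq Nat.prime_two P.pp).mp h'
      have := P.hp5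
      omega
    simpa using qbarOrd_int Nat.prime_two hA this

variable [DecidableEq Qbar]

theorem frey_two_inertia (P : FreyPackage) (A : ValuationSubring Qbar) (hA : A.LiesOverPrime 2)
    (σ : Qbar ≃ₐ[ℚ] Qbar) (hσ : σ ∈ A.inertiaSubgroupIn ℚ) (x : (P.freyCurve⁄Qbar).Point)
    (hx : P.p • x = 0) :
    Point.map (W' := P.freyCurve) σ.toAlgHom (Point.map (W' := P.freyCurve) σ.toAlgHom x - x)
      = Point.map (W' := P.freyCurve) σ.toAlgHom x - x := by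
  obtain ⟨w, hh, hA2, hα, hA4, hp⟩ := F2.setup P hA
  have h20 : (2 : Qbar) ≠ 0 := two_ne_zero
  have h₁ : (P.freyCurve⁄Qbar).a₁ = 1 := by simp [FreyPackage.freyCurve]
  have h₃ : (P.freyCurve⁄Qbar).a₃ = 0 := by simp [FreyPackage.freyCurve]
  have h₆ : (P.freyCurve⁄Qbar).a₆ = 0 := by simp [FreyPackage.freyCurve]
  have h₂ : (P.freyCurve⁄Qbar).a₂ = ((P.b : Qbar) ^ P.p - 1 - (P.a : Qbar) ^ P.p) / 4 := by
    simp [FreyPackage.freyCurve]
  have h₄ : (P.freyCurve⁄Qbar).a₄ = -(P.a : Qbar) ^ P.p * (P.b : Qbar) ^ P.p / 16 := by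
    simp [FreyPackage.freyCurve]
  exact two_inertia_sq
    (M := freyModel (P.freyCurve⁄Qbar) h20 ((P.a : Qbar) ^ P.p) ((P.b : Qbar) ^ P.p) 0
      h₁ h₃ h₆ h₂ h₄ (by ring))
    (two_EQ hA) hA2 hα hA4 hh (σ : Qbar →+* Qbar) (Point.map (W' := P.freyCurve) σ.toAlgHom)
    (fun h => freyCo_map P.freyCurve σ 0 (map_zero σ) h)
    (qbarOrd_inertia Nat.prime_two hA hσ) hp P.hp_odd hx

theorem frey_no_rational_torsion (P : FreyPackage) (x : (P.freyCurve⁄Qbar).Point)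
    (hx : P.p • x = 0)
    (hfix : ∀ σ : Qbar ≃ₐ[ℚ] Qbar, Point.map (W' := P.freyCurve) σ.toAlgHom x = x) : x = 0 := by
  obtain ⟨A, hA⟩ := Fermat.Agent.FrobLib.exists_liesOverPrime Nat.prime_two
  obtain ⟨w, hh, hA2, hα, hA4, hp⟩ := F2.setup P hA
  have h20 : (2 : Qbar) ≠ 0 := two_ne_zero
  have h₁ : (P.freyCurve⁄Qbar).a₁ = 1 := by simp [FreyPackage.freyCurve]
  have h₃ : (P.freyCurve⁄Qbar).a₃ = 0 := by simp [FreyPackage.freyCurve]
  have h₆ : (P.freyCurve⁄Qbar).a₆ = 0 := by simp [FreyPackage.freyCurve]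
  have h₂ : (P.freyCurve⁄Qbar).a₂ = ((P.b : Qbar) ^ P.p - 1 - (P.a : Qbar) ^ P.p) / 4 := by
    simp [FreyPackage.freyCurve]
  have h₄ : (P.freyCurve⁄Qbar).a₄ = -(P.a : Qbar) ^ P.p * (P.b : Qbar) ^ P.p / 16 := by
    simp [FreyPackage.freyCurve]
  rcases x with _ | ⟨x₀, y₀, hn⟩
  · rfl
  exfalso
  let K : Subfield Qbar := (algebraMap ℚ Qbar).fieldRange
  have hint : ∀ n : ℤ, (n : Qbar) ∈ K := fun n => ⟨(n : ℚ), by simp⟩
  have hx₀ : x₀ ∈ K := by
    have : x₀ ∈ Set.range (algebraMap ℚ Qbar) := by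
      haveI := Fermat.Agent.FrobLib.isAlgebraic_Qbar
      haveI := Fermat.Agent.FrobLib.isAlgClosure_Qbar
      rw [InfiniteGalois.mem_range_algebraMap_iff_fixed]
      intro σ
      have := hfix σ
      rw [Point.map_some] at this
      simp only [Point.some.injEq] at this
      exact this.1
    exact this
  refine two_no_rational
    (M := freyModel (P.freyCurve⁄Qbar) h20 ((P.a : Qbar) ^ P.p) ((P.b : Qbar) ^ P.p) 0
      h₁ h₃ h₆ h₂ h₄ (by ring))
    (two_EQ hA) hA2 hA4 hh K ?_ ?_ ?_ ?_ hp P.pp P.hp5 (w := w) rfl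
    (P := Point.some x₀ y₀ hn) (X := 4 * x₀ - 0) (Y := 8 * y₀ + 4 * x₀) rfl ?_ hx
  · have : 3 * 0 + (P.b : Qbar) ^ P.p - (P.a : Qbar) ^ P.p
        = ((P.b ^ P.p - P.a ^ P.p : ℤ) : Qbar) := by push_cast; ring
    rw [this]; exact hint _
  · have : 3 * (0 : Qbar) ^ 2 + 2 * ((P.b : Qbar) ^ P.p - (P.a : Qbar) ^ P.p) * 0
          - (P.a : Qbar) ^ P.p * (P.b : Qbar) ^ P.p
        = ((-(P.a ^ P.p * P.b ^ P.p) : ℤ) : Qbar) := by push_cast; ring
    rw [this]; exact hint _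
  · rintro _ ⟨c, rfl⟩ hc
    exact rat_ord Nat.prime_two hA (fun h0 => hc (by rw [h0, map_zero]))
  · rintro _ ⟨c, rfl⟩ _ ⟨d, rfl⟩ hc hd
    have := (rat_sub_one hA hc).sub (rat_sub_one hA hd)
    have e : (algebraMap ℚ Qbar c - 1) - (algebraMap ℚ Qbar d - 1)
        = algebraMap ℚ Qbar c - algebraMap ℚ Qbar d := by ring
    rwa [e] at this
  · exact K.sub_mem (K.mul_mem (by simpa using hint 4) hx₀) K.zero_mem

end Main

end Fermat.Agent.S13Lib
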