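import Fermat.Agent.Lib.FrobeniusExists
import Fermat.Prelude.Def_FLTPrelim_Ramification

/-!
# S13 library, leaf (MK): a normal open subgroup of `G_ℚ` containing an inertia group at every
prime is everything (Minkowski).
-/

set_option autoImplicit false
set_option linter.style.haveILetI false
set_option linter.unusedSectionVars false

namespace Fermat.Agent.S13Lib

open scoped Pointwise

namespace MK

section Lift

variable {B : Type*} [CommRing B] {G : Type*} [Group G] [MulSemiringAction G B]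
  [TopologicalSpace G] [CompactSpace G] [TotallyDisconnectedSpace G] [IsTopologicalGroup G]
  [TopologicalSpace B] [DiscreteTopology B] [ContinuousSMul G B]

theorem isInvariant_fixedPoints (N : Subgroup G) :
    Algebra.IsInvariant (FixedPoints.subalgebra ℤ B N) B N :=
  ⟨fun b hb => ⟨⟨b, hb⟩, rfl⟩⟩

/-- Lifting inertia: if `g` acts trivially modulo `Q` on the `N`-invariants, then some element of
the coset `N g` acts trivially modulo `Q` on all of `B`. -/
theorem exists_mul_mem_inertia (N : Subgroup G) [hNn : N.Normal] (hN : IsClosed (N : Set G))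
    (Q : Ideal B) [Q.IsPrime] (g : G)
    (hg : ∀ x : B, (∀ n ∈ N, n • x = x) → g • x - x ∈ Q) :
    ∃ n ∈ N, ∀ x : B, (n * g) • x - x ∈ Q := by
  haveI : CompactSpace N := isCompact_iff_compactSpace.mp hN.isCompact
  haveI := isInvariant_fixedPoints (B := B) N
  set A' := FixedPoints.subalgebra ℤ B N with hA'
  have hfix : ∀ x : A', ∀ n ∈ N, n • (x : B) = x := fun x n hn => x.2 ⟨n, hn⟩
  -- invariants are stable under `G`
  have hstab : ∀ (h : G) (x : B), (∀ n ∈ N, n • x = x) → ∀ n ∈ N, n • (h • x) = h • x := by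
    intro h x hx n hn
    have h1 : h⁻¹ * n * h ∈ N := by
      have := hNn.conj_mem n hn h⁻¹
      simpa using this
    have h2 := hx _ h1
    calc n • (h • x) = h • ((h⁻¹ * n * h) • x) := by simp [mul_smul]
      _ = h • x := by rw [h2]
  -- step 1 : `g • Q` and `Q` agree on the invariants
  have hunder : (g • Q).under A' = Q.under A' := by
    ext x
    simp only [Ideal.under, Ideal.mem_comap]
    have hx : algebraMap A' B x = (x : B) := rfl
    rw [hx, Ideal.mem_pointwise_smul_iff_inv_smul_mem]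
    have h1 := hg (g⁻¹ • (x : B)) (hstab g⁻¹ x (hfix x))
    rw [smul_inv_smul] at h1
    constructor
    · intro h
      have := Q.add_mem h1 h
      simpa using this
    · intro h
      have := Q.sub_mem h h1
      simpa using this
  obtain ⟨n₁, hn₁⟩ := Algebra.IsInvariant.exists_smul_of_under_eq_of_profinite (A := A') (G := N)
    (g • Q) Q hunder
  set g₁ : G := (n₁ : G) * g with hg₁
  have hg₁Q : g₁ • Q = Q := by
    rw [hg₁, mul_smul]
    exact hn₁.symm
  have hg₁fix : ∀ x : A', g₁ • (x : B) - x ∈ Q := by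
    intro x
    rw [hg₁, mul_smul, hstab g x (hfix x) n₁ n₁.2]
    exact hg x (hfix x)
  -- step 2 : the automorphism of `B ⧸ Q` induced by `g₁` is `A' ⧸ P`-linear
  set P : Ideal A' := Q.under A' with hP
  haveI : Q.LiesOver P := ⟨rfl⟩
  let σ₀ := Ideal.Quotient.stabilizerHom Q (Q.under ℤ) G ⟨g₁, hg₁Q⟩
  have hσ₀ : ∀ b : B, σ₀ (Ideal.Quotient.mk Q b) = Ideal.Quotient.mk Q (g₁ • b) := fun b =>
    Ideal.Quotient.stabilizerHom_apply Q (Q.under ℤ) G ⟨g₁, hg₁Q⟩ b
  let σ : (B ⧸ Q) ≃ₐ[A' ⧸ P] (B ⧸ Q) := AlgEquiv.ofRingEquiv (f := σ₀.toRingEquiv) (by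
    intro r
    obtain ⟨x, rfl⟩ := Ideal.Quotient.mk_surjective r
    have h1 : algebraMap (A' ⧸ P) (B ⧸ Q) (Ideal.Quotient.mk P x) = Ideal.Quotient.mk Q (x : B) := rfl
    rw [h1]
    show σ₀ (Ideal.Quotient.mk Q (x : B)) = _
    rw [hσ₀, Ideal.Quotient.eq]
    exact hg₁fix x)
  obtain ⟨⟨n₂, hn₂⟩, hσ⟩ := Ideal.Quotient.stabilizerHom_surjective_of_profinite (G := N) P Q σ
  have hcmp : ∀ b : B, (n₂ : G) • b - g₁ • b ∈ Q := by
    intro b
    have h1 := DFunLike.congr_fun hσ (Ideal.Quotient.mk Q b)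
    rw [Ideal.Quotient.stabilizerHom_apply] at h1
    have h2 : σ (Ideal.Quotient.mk Q b) = Ideal.Quotient.mk Q (g₁ • b) := hσ₀ b
    rw [h2, Ideal.Quotient.eq] at h1
    exact h1
  have hn₂Q : (n₂ : G) • Q = Q := hn₂
  refine ⟨(n₂ : G)⁻¹ * n₁, N.mul_mem (N.inv_mem n₂.2) n₁.2, fun x => ?_⟩
  rw [← Ideal.smul_mem_pointwise_smul_iff (a := (n₂ : G)), hn₂Q, smul_sub, mul_assoc, ← hg₁,
    mul_smul, smul_inv_smul]
  have := Q.neg_mem (hcmp x)
  simpa using this

end Lift

section Main

open Fermat.Agent.FrobLib NumberField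

local notation "Qbar" => AlgebraicClosure ℚ
local notation "GQ" => (AlgebraicClosure ℚ ≃ₐ[ℚ] AlgebraicClosure ℚ)
local notation "Zbar" => integralClosure ℤ (AlgebraicClosure ℚ)

attribute [local instance] isAlgebraic_Qbar isAlgClosure_Qbar

/-- an element of `G_ℚ` acting trivially on `ℤ̄` modulo the center of `A` is in the inertia group
of `A`. -/
theorem mem_inertiaSubgroupIn (A : ValuationSubring Qbar) {ℓ : ℕ} (hℓ : ℓ.Prime)
    (hA : A.LiesOverPrime ℓ) (σ : GQ) (hσI : ∀ b : Zbar, σ • b - b ∈ center A) :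
    σ ∈ A.inertiaSubgroupIn ℚ := by
  have hσQ : σ • center A = center A := Ideal.inertia_le_stabilizer (M := GQ) (center A) hσI
  have hσQ' : σ⁻¹ • center A = center A := by
    conv_lhs => rw [← hσQ]
    rw [inv_smul_smul]
  have hσ : σ ∈ A.decompositionSubgroup ℚ := by
    rw [MulAction.mem_stabilizer_iff]
    ext x
    rw [ValuationSubring.mem_pointwise_smul_iff_inv_smul_mem]
    constructor
    · intro h
      have := map_mem_of_smul_center_eq A hℓ hA σ hσQ h
      rwa [← AlgEquiv.smul_def, smul_inv_smul] at this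
    · intro h
      exact map_mem_of_smul_center_eq A hℓ hA σ⁻¹ hσQ' h
  refine ⟨⟨σ, hσ⟩, ?_, rfl⟩
  rw [SetLike.mem_coe, ValuationSubring.inertiaSubgroup, MonoidHom.mem_ker]
  ext x
  obtain ⟨a, rfl⟩ := IsLocalRing.residue_surjective x
  obtain ⟨b, hb, hbx, hbn⟩ := exists_integral_mul A hℓ hA a.2 (isAlgebraic_int_Qbar a)
  set g : A.decompositionSubgroup ℚ := ⟨σ, hσ⟩ with hg
  set b' : A := incl A ⟨b, hb⟩ with hb'
  set c' : A := incl A ⟨b * a, hbx⟩ with hc'
  have hmul : b' * a = c' := Subtype.ext rfl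
  have htriv : ∀ z : Zbar, IsLocalRing.residue A (g • incl A z) = IsLocalRing.residue A (incl A z) := by
    intro z
    rw [← sub_eq_zero, ← map_sub, IsLocalRing.residue_eq_zero_iff]
    have h1 := hσI z
    rw [center, Ideal.mem_comap] at h1
    exact h1
  have hb0 : IsLocalRing.residue A b' ≠ 0 := by
    rw [Ne, IsLocalRing.residue_eq_zero_iff]
    intro h
    exact hbn ((mem_center_iff A ⟨b, hb⟩).mp h)
  have h2 : IsLocalRing.residue A (g • b') * IsLocalRing.residue A (g • a) =
      IsLocalRing.residue A (g • c') := by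
    rw [← map_mul, ← smul_mul', hmul]
  rw [htriv, htriv, ← hb', ← hc', ← hmul, map_mul] at h2
  show g • IsLocalRing.residue A a = IsLocalRing.residue A a
  rw [← IsLocalRing.ResidueField.residue_smul]
  exact mul_left_cancel₀ hb0 h2

/-- nontrivial inertia at a ramified prime of a Galois number field -/
theorem exists_inertia_ne_one (N : Type) [Field N] [NumberField N] [IsGalois ℚ N]
    (w : Ideal (𝓞 N)) [w.IsPrime] (hw : ¬ Algebra.IsUnramifiedAt ℤ w) :
    ∃ s : N ≃ₐ[ℚ] N, s ≠ 1 ∧ ∀ x : 𝓞 N, s • x - x ∈ w := by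
  by_contra hcon
  push Not at hcon
  apply hw
  rw [← Ideal.ramificationIdx_eq_one_iff,
    ← Ideal.ramificationIdxIn_eq_ramificationIdx (w.under ℤ) w (N ≃ₐ[ℚ] N),
    ← Ideal.card_inertia_eq_ramificationIdxIn (G := N ≃ₐ[ℚ] N) (w.under ℤ) w]
  have : Ideal.inertia (N ≃ₐ[ℚ] N) w = ⊥ := by
    rw [eq_bot_iff]
    intro s hs
    by_contra hs1
    obtain ⟨x, hx⟩ := hcon s hs1
    exact hx (hs x)
  rw [this]
  simp

/-- the inclusion `𝓞 N → ℤ̄` -/
noncomputable def toZbar (N : IntermediateField ℚ Qbar) : 𝓞 N →+* Zbar where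
  toFun x := ⟨((x : N) : Qbar), by
    have h := x.2
    exact h.map (IsScalarTower.toAlgHom ℤ N Qbar)⟩
  map_one' := rfl
  map_zero' := rfl
  map_add' _ _ := rfl
  map_mul' _ _ := rfl

theorem coe_toZbar (N : IntermediateField ℚ Qbar) (x : 𝓞 N) :
    ((toZbar N x : Zbar) : Qbar) = ((x : N) : Qbar) := rfl

end Main

end MK

open Fermat.Agent.FrobLib NumberField MK

local notation "Qbar" => AlgebraicClosure ℚ

attribute [local instance] isAlgebraic_Qbar isAlgClosure_Qbar

theorem eq_top_of_inertia_le (H : Subgroup (Qbar ≃ₐ[ℚ] Qbar)) (hn : H.Normal)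
    (K : IntermediateField ℚ Qbar) [FiniteDimensional ℚ K] (hK : K.fixingSubgroup ≤ H)
    (hI : ∀ q : ℕ, q.Prime → ∃ A : ValuationSubring Qbar, A.LiesOverPrime q ∧
      A.inertiaSubgroupIn ℚ ≤ H) : H = ⊤ := by
  haveI : IsGalois ℚ Qbar := IsAlgClosure.isGalois ℚ Qbar
  have hopen : IsOpen (H : Set (Qbar ≃ₐ[ℚ] Qbar)) :=
    Subgroup.isOpen_mono hK K.fixingSubgroup_isOpen
  have hclosed : IsClosed (H : Set (Qbar ≃ₐ[ℚ] Qbar)) := Subgroup.isClosed_of_isOpen H hopen
  set N := IntermediateField.fixedField H with hN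
  have hHN : N.fixingSubgroup = H := InfiniteGalois.fixingSubgroup_fixedField ⟨H, hclosed⟩
  have hNK : N ≤ K := by
    have h1 := InfiniteGalois.fixedField_fixingSubgroup K
    rw [← h1]
    exact IntermediateField.fixedField_antitone hK
  haveI : FiniteDimensional ℚ N :=
    Submodule.finiteDimensional_of_le (show N.toSubalgebra.toSubmodule ≤ K.toSubalgebra.toSubmodule
      from hNK)
  haveI : IsGalois ℚ N := (InfiniteGalois.normal_iff_isGalois N).mp (hHN.symm ▸ hn)
  haveI : NumberField N := ⟨⟩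
  by_cases h1 : Module.finrank ℚ N = 1
  · have h2 : N = ⊥ := IntermediateField.finrank_eq_one_iff.mp h1
    rw [← hHN, h2]
    exact IntermediateField.fixingSubgroup_bot
  · exfalso
    have h2 : 1 < Module.finrank ℚ N := by
      have := Module.finrank_pos (R := ℚ) (M := N)
      omega
    obtain ⟨q, hq, hram⟩ :=
      NumberField.exists_not_isUnramifiedAt_int_of_isGalois (K := N) (𝒪 := 𝓞 N) h2
    obtain ⟨A, hA, hIA⟩ := hI q hq
    set w : Ideal (𝓞 N) := (center A).comap (toZbar N) with hw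
    haveI : w.IsPrime := Ideal.comap_isPrime _ _
    have hqw : ((q : ℕ) : 𝓞 N) ∈ w := by
      rw [hw, Ideal.mem_comap, mem_center_iff, coe_toZbar]
      have hA' : ((q : ℕ) : Qbar) ∈ A.nonunits := hA
      simpa using hA'
    obtain ⟨s, hs1, hs⟩ := exists_inertia_ne_one N w (hram w inferInstance hqw)
    obtain ⟨g, rfl⟩ := AlgEquiv.restrictNormalHom_surjective Qbar s
    letI : TopologicalSpace (integralClosure ℤ Qbar) := ⊥
    haveI : DiscreteTopology (integralClosure ℤ Qbar) := ⟨rfl⟩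
    haveI := continuousSMul_Zbar
    obtain ⟨n, hnH, hng⟩ := exists_mul_mem_inertia H hclosed (center A) g (by
      intro x hx
      have hxN : (x : Qbar) ∈ N := by
        rw [hN, IntermediateField.mem_fixedField_iff]
        intro f hf
        exact congrArg Subtype.val (hx f hf)
      have hxint : IsIntegral ℤ (⟨(x : Qbar), hxN⟩ : N) := by
        have h3 : IsIntegral ℤ (algebraMap N Qbar ⟨(x : Qbar), hxN⟩) := x.2
        exact (isIntegral_algebraMap_iff (algebraMap N Qbar).injective).mp h3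
      set x' : 𝓞 N := ⟨⟨(x : Qbar), hxN⟩, hxint⟩ with hx'
      have h4 := hs x'
      rw [hw, Ideal.mem_comap] at h4
      have h5 : toZbar N (AlgEquiv.restrictNormalHom N g • x' - x') = g • x - x := by
        apply Subtype.ext
        rw [map_sub]
        show (((AlgEquiv.restrictNormalHom N g) ⟨(x : Qbar), hxN⟩ : N) : Qbar) - (x : Qbar) =
          g (x : Qbar) - (x : Qbar)
        exact congrArg (· - (x : Qbar)) (AlgEquiv.restrictNormal_commutes g N ⟨(x : Qbar), hxN⟩)
      rw [h5] at h4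
      exact h4)
    have h3 : n * g ∈ H := hIA (mem_inertiaSubgroupIn A hq hA _ hng)
    have hgH : g ∈ H := by
      have := H.mul_mem (H.inv_mem hnH) h3
      simpa using this
    apply hs1
    ext x
    rw [← hHN, IntermediateField.mem_fixingSubgroup_iff] at hgH
    exact (AlgEquiv.restrictNormal_commutes g N x).trans (hgH _ x.2)

end Fermat.Agent.S13Lib
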