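import Fermat.Agent.S13.Endgame
import Fermat.Agent.S13.Minkowski
import Fermat.Agent.S13.Count
import Fermat.Agent.S13.FreyTwo
import Fermat.Agent.S13.FreyP
import Fermat.Prelude.Def_FLTPrelim_CofixedLine

/-!
# S13: final assembly
-/

set_option autoImplicit false
set_option linter.style.haveILetI false

namespace Fermat.Agent.S13Lib

open Fermat.Agent.S05Lib WeierstrassCurve WeierstrassCurve.Affine WeierstrassCurve.Affine.Point

local notation "Qbar" => AlgebraicClosure ℚ
local notation "GQ" => (Qbar ≃ₐ[ℚ] Qbar)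

namespace FN

/-- the coordinates of a point -/
def coords {W : Affine Qbar} : W.Point → Set Qbar
  | .zero => ∅
  | .some x y _ => {x, y}

lemma coords_finite {W : Affine Qbar} (x : W.Point) : (coords x).Finite := by
  rcases x with _ | ⟨x, y, h⟩
  · exact Set.finite_empty
  · exact (Set.finite_singleton y).insert x

lemma map_eq_self [DecidableEq Qbar] (E : WeierstrassCurve ℚ) (σ : GQ) (x : (E⁄Qbar).Point)
    (h : ∀ c ∈ coords x, σ c = c) : Point.map (W' := E) σ.toAlgHom x = x := by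
  rcases x with _ | ⟨x, y, hn⟩
  · rfl
  · rw [Point.map_some]
    have h1 : σ x = x := h x (by simp [coords])
    have h2 : σ y = y := h y (by simp [coords])
    simp [h1, h2]

end FN

open FN

theorem frey_cofixed (P : FreyPackage)
    (hred : ¬ GaloisRepIsIrreducible (K := AlgebraicClosure ℚ) ℚ P.freyCurve P.p) :
    HasGaloisStableCofixedLine (K := AlgebraicClosure ℚ) ℚ P.freyCurve P.p := by
  classical
  haveI : Fact P.p.Prime := ⟨P.pp⟩
  set V := Submodule.torsionBy ℤ (P.freyCurve⁄Qbar).Point P.p with hV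
  have htor : ∀ x : (P.freyCurve⁄Qbar).Point, x ∈ V ↔ P.p • x = 0 := by
    intro x
    rw [hV, Submodule.mem_torsionBy_iff, natCast_zsmul]
  -- nontriviality
  have hnt : Nontrivial V := by
    obtain ⟨x, hx0, hx⟩ := frey_exists_torsion P
    exact ⟨⟨⟨x, (htor x).mpr hx⟩, 0, fun h => hx0 (congrArg Subtype.val h)⟩⟩
  -- the stable submodule
  have hN : ∃ N : Submodule (ZMod P.p) V, IsGaloisStable ℚ N ∧ N ≠ ⊥ ∧ N ≠ ⊤ := by
    by_contra hcon
    apply hred
    refine ⟨hnt, fun N hN => ?_⟩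
    by_contra h
    push Not at h
    exact hcon ⟨N, hN, h.1, h.2⟩
  obtain ⟨N, hNs, hN0, hN1⟩ := hN
  refine ⟨N, hNs, hN0, hN1, ?_⟩
  -- finiteness and dimension
  obtain ⟨hfin, hcard⟩ := frey_torsion_card P
  have hset : {x : (P.freyCurve⁄Qbar).Point | P.p • x = 0} = (V : Set (P.freyCurve⁄Qbar).Point) := by
    ext x; exact (htor x).symm
  rw [hset] at hfin hcard
  haveI : Finite V := hfin
  haveI : Module.Finite (ZMod P.p) V := Module.Finite.of_finite
  have hdim : Module.finrank (ZMod P.p) V ≤ 2 := by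
    have h1 : Nat.card V = P.p ^ Module.finrank (ZMod P.p) V := by
      rw [Module.natCard_eq_pow_finrank (K := ZMod P.p), Nat.card_zmod]
    have h2 : Nat.card V ≤ P.p ^ 2 := by
      have := Nat.card_coe_set_eq (V : Set (P.freyCurve⁄Qbar).Point)
      exact this ▸ hcard
    rw [h1] at h2
    exact (Nat.pow_le_pow_iff_right P.pp.one_lt).mp h2
  -- the places
  let ι := {q : ℕ // q.Prime}
  let A : ι → ValuationSubring Qbar := fun q => (Fermat.Agent.FrobLib.exists_liesOverPrime q.2).choose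
  have hA : ∀ q : ι, (A q).LiesOverPrime q.1 :=
    fun q => (Fermat.Agent.FrobLib.exists_liesOverPrime q.2).choose_spec
  let I : ι → Subgroup GQ := fun q => (A q).inertiaSubgroupIn ℚ
  let i₀ : ι := ⟨P.p, P.pp⟩
  obtain ⟨W₁, hW₁, hW₁'⟩ := frey_at_p P (A i₀) (hA i₀)
  let V₁ : Submodule (ZMod P.p) V :=
    AddSubgroup.toZModSubmodule P.p (W₁.comap (V.subtype : V →ₗ[ℤ] _).toAddMonoidHom)
  have hmemV₁ : ∀ x : V, x ∈ V₁ ↔ x.1 ∈ W₁ := fun x => Iff.rfl
  have hsmul : ∀ (σ : GQ) (x : V), (σ • x).1 = Point.map (W' := P.freyCurve) σ.toAlgHom x.1 :=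
    fun σ x => rfl
  refine EG.endgame hdim N hNs hN0 hN1 I i₀ ?_ ?_ V₁ ?_ ?_ ?_
  · -- Minkowski
    intro H hHn hH hI
    let S : Set Qbar := ⋃ x ∈ (V : Set (P.freyCurve⁄Qbar).Point), coords x
    have hS : S.Finite := hfin.biUnion (fun x _ => coords_finite x)
    haveI : Finite S := hS
    haveI : FiniteDimensional ℚ (IntermediateField.adjoin ℚ S) :=
      IntermediateField.finiteDimensional_adjoin
        (fun x _ => (AlgebraicClosure.isAlgebraic ℚ).isIntegral.isIntegral x)
    refine eq_top_of_inertia_le H hHn (IntermediateField.adjoin ℚ S) ?_ ?_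
    · intro σ hσ
      apply hH
      intro x
      apply Subtype.ext
      rw [hsmul]
      apply map_eq_self
      intro c hc
      have hcS : c ∈ S := Set.mem_biUnion x.2 hc
      exact hσ ⟨c, IntermediateField.subset_adjoin ℚ S hcS⟩
    · intro q hq
      exact ⟨A ⟨q, hq⟩, hA ⟨q, hq⟩, hI ⟨q, hq⟩⟩
  · -- the primes different from `p`
    intro q hq σ hσ x
    have hqp : q.1 ≠ P.p := fun h => hq (Subtype.ext h)
    by_cases hq2 : q.1 = 2
    · apply Subtype.ext
      have := frey_two_inertia P (A q) (hq2 ▸ hA q) σ hσ x.1 ((htor _).mp x.2)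
      exact this
    · have h1 : σ • x = x := by
        apply Subtype.ext
        exact frey_unramified P q.2 hq2 hqp (A q) (hA q) σ hσ x.1 ((htor _).mp x.2)
      rw [h1, sub_self, smul_zero]
  · -- `V₁ ≠ ⊤`
    intro htop
    let N' : AddSubgroup (P.freyCurve⁄Qbar).Point :=
      N.toAddSubgroup.map (V.subtype : V →ₗ[ℤ] _).toAddMonoidHom
    have hmemN' : ∀ x : V, x.1 ∈ N' ↔ x ∈ N := by
      intro x
      constructor
      · rintro ⟨y, hy, hyx⟩
        have : y = x := Subtype.ext hyx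
        exact this ▸ hy
      · intro hx
        exact ⟨x, hx, rfl⟩
    have hN'V : ∀ x ∈ N', P.p • x = 0 := by
      rintro _ ⟨y, -, rfl⟩
      exact (htor _).mp y.2
    have g1 : ∀ σ : GQ, ∀ x ∈ N', Point.map (W' := P.freyCurve) σ.toAlgHom x ∈ N' := by
      rintro σ _ ⟨y, hy, rfl⟩
      exact (hmemN' (σ • y)).mpr (hNs σ y hy)
    have g2 : N' ≠ ⊥ := by
      intro hbot
      apply hN0
      rw [Submodule.eq_bot_iff]
      intro x hx
      have : x.1 ∈ N' := (hmemN' x).mpr hx
      rw [hbot, AddSubgroup.mem_bot] at this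
      exact Subtype.ext this
    have g3 : ∃ x₀, P.p • x₀ = 0 ∧ x₀ ∉ N' := by
      by_contra hcon
      push Not at hcon
      apply hN1
      rw [Submodule.eq_top_iff']
      intro x
      exact (hmemN' x).mp (hcon x.1 ((htor _).mp x.2))
    obtain ⟨x, hx, hxW⟩ := hW₁' N' hN'V g1 g2 g3
    have : (⟨x, (htor x).mpr hx⟩ : V) ∈ V₁ := by rw [htop]; trivial
    exact hxW ((hmemV₁ _).mp this)
  · -- inertia at `p`
    intro σ hσ x
    exact (hmemV₁ _).mpr (hW₁ σ hσ x.1 ((htor _).mp x.2))
  · -- no rational torsion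
    intro x hx
    apply Subtype.ext
    exact frey_no_rational_torsion P x.1 ((htor _).mp x.2) (fun σ => congrArg Subtype.val (hx σ))

end Fermat.Agent.S13Lib
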