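import Fermat.Agent.S13.BModel
import Fermat.Agent.S05.Kernel

/-!
# The kernel of reduction of a `BModel` has no torsion prime to the residue characteristic

This is the analogue of `Fermat.Agent.S05.Kernel` for x-only models in `b₂`-form; here `2` is only
assumed to be integral.
-/

set_option autoImplicit false

namespace Fermat.Agent.S13Lib

open Fermat.Agent.S05Lib
open Fermat.Agent.S05Lib.OrdData

variable {L : Type} [Field L] {G : Type} [AddCommGroup G] {b₂ β : L}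

namespace BK

lemma four_ge (O : OrdData L) : O.GE (4 : L) 0 := by
  simpa using O.natCast_ge 4

lemma twelve_ge (O : OrdData L) : O.GE (12 : L) 0 := by
  simpa using O.natCast_ge 12

/-- The function `1 / x`, vanishing at the origin. -/
def xi (B : BModel L G b₂ β) (R : G) : L :=
  match B.xc R with
  | none => 0
  | some x => x⁻¹

/-- The points which are `ρ`-close to the origin. -/
def InE1 (B : BModel L G b₂ β) (O : OrdData L) (ρ : ℚ) (R : G) : Prop :=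
  R = 0 ∨ ∃ (x : L) (c : ℚ), B.xc R = some x ∧ O.EQ x c ∧ c ≤ -ρ

variable (B : BModel L G b₂ β)

lemma xi_zero : xi B 0 = 0 := by
  unfold xi; rw [B.xc_zero]

lemma xi_of_xc {R : G} {x : L} (h : B.xc R = some x) : xi B R = x⁻¹ := by
  unfold xi; rw [h]

lemma xi_neg (R : G) : xi B (-R) = xi B R := by
  unfold xi; rw [B.xc_neg]

variable {B} {O : OrdData L} {ρ : ℚ}

lemma InE1.neg {R : G} (h : InE1 B O ρ R) : InE1 B O ρ (-R) := by
  rcases h with h | ⟨x, c, h, hX, hc⟩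
  · exact Or.inl (by rw [h, neg_zero])
  · exact Or.inr ⟨x, c, by rw [B.xc_neg]; exact h, hX, hc⟩

section

variable (hb₂ : O.GE b₂ 0) (hβ : O.GE β 0) (hρ : 0 < ρ)
include hb₂ hβ hρ

/-- Doubling a point close to the origin. -/
lemma dbl_close {D : G} {X : L} (hD : B.xc D = some X) (hX : O.EQ X (-ρ)) :
    InE1 B O ρ (D + D) ∧ O.GT (xi B (D + D) - 4 * xi B D) ρ := by
  have hX0 := hX.1
  have h4 := four_ge O
  by_cases hC : 4 * X ^ 3 + b₂ * X ^ 2 + 4 * β * X = 0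
  · have h0 := B.dbl_zero hD hC
    refine ⟨Or.inl h0, ?_⟩
    rw [h0, xi_zero, xi_of_xc B hD]
    have key : 0 - 4 * X⁻¹ = (b₂ * X ^ 2 + 4 * β * X) / X ^ 4 := by
      have hC' : 4 * X ^ 2 + b₂ * X + 4 * β = 0 := by
        have : X * (4 * X ^ 2 + b₂ * X + 4 * β) = 0 := by rw [← hC]; ring
        exact (mul_eq_zero.mp this).resolve_left hX0
      field_simp
      linear_combination (-1 : L) * hC'
    rw [key]
    have n1 : O.GE (b₂ * X ^ 2) (-2 * ρ) := (hb₂.mul hX.sq.ge').mono (by linarith)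
    have n2 : O.GE (4 * β * X) (-2 * ρ) := ((h4.mul hβ).mul hX.ge').mono (by linarith)
    have hd : O.EQ (X ^ 4) (-4 * ρ) := (hX.pow 4).of_eq (by push_cast; ring)
    exact ((n1.add n2).div hd).gt (by linarith)
  · have h3 := B.dbl hD hC
    have hE : O.EQ (X ^ 2 - β) (-2 * ρ) :=
      (hX.sq.of_eq (by ring)).sub_gt (hβ.gt (by linarith))
    have hCge : O.GE (4 * X ^ 3 + b₂ * X ^ 2 + 4 * β * X) (-3 * ρ) := by
      have t1 : O.GE (4 * X ^ 3) (-3 * ρ) := (h4.mul (hX.pow 3).ge').mono (by push_cast; linarith)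
      have t2 : O.GE (b₂ * X ^ 2) (-3 * ρ) := (hb₂.mul hX.sq.ge').mono (by linarith)
      have t3 : O.GE (4 * β * X) (-3 * ρ) := ((h4.mul hβ).mul hX.ge').mono (by linarith)
      exact (t1.add t2).add t3
    have hCE := eq_self (O := O) hC
    have hCle := hCE.le_of_ge hCge
    have hT := hE.sq.div hCE
    refine ⟨Or.inr ⟨_, _, h3, hT, by linarith⟩, ?_⟩
    rw [xi_of_xc B h3, xi_of_xc B hD]
    have hE0 := hE.1
    have key : ((X ^ 2 - β) ^ 2 / (4 * X ^ 3 + b₂ * X ^ 2 + 4 * β * X))⁻¹ - 4 * X⁻¹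
        = (b₂ * X ^ 3 + 12 * β * X ^ 2 - 4 * β ^ 2) / ((X ^ 2 - β) ^ 2 * X) := by
      rw [inv_div]
      field_simp
      ring
    rw [key]
    have n1 : O.GE (b₂ * X ^ 3) (-3 * ρ) :=
      (hb₂.mul (hX.pow 3).ge').mono (by push_cast; linarith)
    have n2 : O.GE (12 * β * X ^ 2) (-3 * ρ) :=
      (((twelve_ge O).mul hβ).mul hX.sq.ge').mono (by linarith)
    have n3 : O.GE (4 * β ^ 2) (-3 * ρ) := (h4.mul hβ.sq).mono (by linarith)
    have hd : O.EQ ((X ^ 2 - β) ^ 2 * X) (-5 * ρ) := (hE.sq.mul hX).of_eq (by ring)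
    exact (((n1.add n2).sub n3).div hd).gt (by linarith)

/-- The parallelogram congruence for the function `1 / x` near the origin. -/
lemma parallelogram {D Q : G} {X : L} (hD : B.xc D = some X) (hX : O.EQ X (-ρ))
    (hQ : InE1 B O ρ Q) :
    InE1 B O ρ (Q + D) ∧ InE1 B O ρ (Q - D) ∧
      O.GT (xi B (Q + D) + xi B (Q - D) - 2 * xi B Q - 2 * xi B D) ρ := by
  have h2 := two_ge O
  have hDE : InE1 B O ρ D := Or.inr ⟨X, -ρ, hD, hX, le_rfl⟩
  rcases hQ with hQ | ⟨x₁, c₁, hQ, hx₁, hc₁⟩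
  · subst hQ
    refine ⟨by rwa [zero_add], by rw [zero_sub]; exact hDE.neg, ?_⟩
    rw [zero_add, zero_sub, xi_neg, xi_zero]
    have : xi B D + xi B D - 2 * 0 - 2 * xi B D = 0 := by ring
    rw [this]; exact GT.zero
  by_cases hxx : x₁ = X
  · subst hxx
    obtain ⟨hd1, hd2⟩ := dbl_close hb₂ hβ hρ hD hX
    rcases B.eq_or_eq_neg hQ hD with h | h
    · subst h
      refine ⟨hd1, by rw [sub_self]; exact Or.inl rfl, ?_⟩
      rw [sub_self, xi_zero]
      have : xi B (Q + Q) + 0 - 2 * xi B Q - 2 * xi B Q = xi B (Q + Q) - 4 * xi B Q := by ring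
      rw [this]; exact hd2
    · subst h
      have e1 : -D + D = 0 := neg_add_cancel D
      have e2 : -D - D = -(D + D) := by abel
      refine ⟨by rw [e1]; exact Or.inl rfl, by rw [e2]; exact hd1.neg, ?_⟩
      rw [e1, e2, xi_neg, xi_neg, xi_zero]
      have : 0 + xi B (D + D) - 2 * xi B D - 2 * xi B D = xi B (D + D) - 4 * xi B D := by ring
      rw [this]; exact hd2
  · obtain ⟨T₁, T₂, h1, h2', hS, hP⟩ := B.add_sub hQ hD hxx
    have hs : O.EQ (x₁ * X) (c₁ - ρ) := (hx₁.mul hX).of_eq (by ring)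
    have hE : O.EQ (x₁ * X - β) (c₁ - ρ) := hs.sub_gt (hβ.gt (by linarith))
    have hd0 : x₁ - X ≠ 0 := sub_ne_zero.mpr hxx
    have hdge : O.GE (x₁ - X) c₁ := hx₁.ge'.sub (hX.ge hc₁)
    have hsum : O.GE (x₁ + X) c₁ := hx₁.ge'.add (hX.ge hc₁)
    have hx₁0 := hx₁.1
    have hX0 := hX.1
    have hE0 := hE.1
    have hP0 : T₁ * T₂ ≠ 0 := by
      rw [hP]; exact div_ne_zero (pow_ne_zero 2 hE0) (pow_ne_zero 2 hd0)
    have hT₁ : T₁ ≠ 0 := left_ne_zero_of_mul hP0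
    have hT₂ : T₂ ≠ 0 := right_ne_zero_of_mul hP0
    -- the sum of the inverses
    have hsumxi : T₁⁻¹ + T₂⁻¹ = (T₁ + T₂) / (T₁ * T₂) := by field_simp; ring
    have key : T₁⁻¹ + T₂⁻¹ - 2 * x₁⁻¹ - 2 * X⁻¹
        = (2 * ((x₁ + X) * (3 * β * (x₁ * X) - β ^ 2)) + b₂ * (x₁ * X) ^ 2)
          / ((x₁ * X - β) ^ 2 * (x₁ * X)) := by
      rw [hsumxi, hS, hP]
      field_simp
      ring
    have hprodxi : T₁⁻¹ * T₂⁻¹ = (x₁ - X) ^ 2 / (x₁ * X - β) ^ 2 := by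
      rw [← mul_inv, hP, inv_div]
    have hgt : O.GT (T₁⁻¹ + T₂⁻¹ - 2 * x₁⁻¹ - 2 * X⁻¹) ρ := by
      rw [key]
      have n1 : O.GE (3 * β * (x₁ * X) - β ^ 2) (c₁ - ρ) :=
        ((((three_ge O).mul hβ).mul hs.ge').mono (by linarith)).sub (hβ.sq.mono (by linarith))
      have n2 : O.GE (2 * ((x₁ + X) * (3 * β * (x₁ * X) - β ^ 2))) (2 * (c₁ - ρ)) :=
        (h2.mul (hsum.mul n1)).mono (by linarith)
      have n3 : O.GE (b₂ * (x₁ * X) ^ 2) (2 * (c₁ - ρ)) :=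
        (hb₂.mul hs.sq.ge').mono (by linarith)
      have hden : O.EQ ((x₁ * X - β) ^ 2 * (x₁ * X)) (3 * (c₁ - ρ)) :=
        (hE.sq.mul hs).of_eq (by ring)
      exact ((n2.add n3).div hden).gt (by linarith)
    have hxi1 : O.GE (x₁⁻¹) ρ := hx₁.inv.ge (by linarith)
    have hxi2 : O.GE (X⁻¹) ρ := hX.inv.ge (by linarith)
    have hsge : O.GE (T₁⁻¹ + T₂⁻¹) ρ := by
      have : T₁⁻¹ + T₂⁻¹ = (T₁⁻¹ + T₂⁻¹ - 2 * x₁⁻¹ - 2 * X⁻¹) + (2 * x₁⁻¹ + 2 * X⁻¹) := by ring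
      rw [this]
      exact hgt.ge.add (((h2.mul hxi1).mono (by linarith)).add
        ((h2.mul hxi2).mono (by linarith)))
    have hpge : O.GE (T₁⁻¹ * T₂⁻¹) (2 * ρ) := by
      rw [hprodxi]
      exact (hdge.sq.div hE.sq).mono (by linarith)
    obtain ⟨g1, g2⟩ := quad_ge rfl rfl hsge hpge
    have c1 : InE1 B O ρ (Q + D) := by
      refine Or.inr ⟨T₁, O.ord T₁, h1, eq_self hT₁, ?_⟩
      have := (eq_self (O := O) hT₁).inv.le_of_ge g1
      linarith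
    have c2 : InE1 B O ρ (Q - D) := by
      refine Or.inr ⟨T₂, O.ord T₂, h2', eq_self hT₂, ?_⟩
      have := (eq_self (O := O) hT₂).inv.le_of_ge g2
      linarith
    refine ⟨c1, c2, ?_⟩
    rw [xi_of_xc B h1, xi_of_xc B h2', xi_of_xc B hQ, xi_of_xc B hD]
    exact hgt

/-- Multiples of a point close to the origin: `1 / x (n D) ≡ n² / x (D)`. -/
lemma nsmul_close {D : G} {X : L} (hD : B.xc D = some X) (hX : O.EQ X (-ρ)) (n : ℕ) :
    (InE1 B O ρ (n • D) ∧ O.GT (xi B (n • D) - (n : L) ^ 2 * X⁻¹) ρ) ∧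
    (InE1 B O ρ ((n + 1) • D) ∧ O.GT (xi B ((n + 1) • D) - ((n + 1 : ℕ) : L) ^ 2 * X⁻¹) ρ) := by
  induction n with
  | zero =>
    refine ⟨⟨Or.inl (zero_smul _ _), ?_⟩, ⟨?_, ?_⟩⟩
    · rw [zero_smul, xi_zero]; simpa using (GT.zero (O := O) (c := ρ))
    · rw [zero_add, one_smul]; exact Or.inr ⟨X, -ρ, hD, hX, le_rfl⟩
    · rw [zero_add, one_smul, xi_of_xc B hD]; simpa using (GT.zero (O := O) (c := ρ))
  | succ n ih =>
    obtain ⟨⟨i0, g0⟩, ⟨i1, g1⟩⟩ := ih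
    refine ⟨⟨i1, g1⟩, ?_⟩
    obtain ⟨p1, -, p3⟩ := parallelogram hb₂ hβ hρ hD hX i1
    have e1 : (n + 1) • D + D = (n + 1 + 1) • D := (succ_nsmul D (n + 1)).symm
    have e2 : (n + 1) • D - D = n • D := by rw [add_smul, one_smul, add_sub_cancel_right]
    rw [e1] at p1
    rw [e1, e2, xi_of_xc B hD] at p3
    refine ⟨p1, ?_⟩
    have : xi B ((n + 1 + 1) • D) - ((n + 1 + 1 : ℕ) : L) ^ 2 * X⁻¹
        = (xi B ((n + 1 + 1) • D) + xi B (n • D) - 2 * xi B ((n + 1) • D) - 2 * X⁻¹)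
          - (xi B (n • D) - (n : L) ^ 2 * X⁻¹)
          + 2 * (xi B ((n + 1) • D) - ((n + 1 : ℕ) : L) ^ 2 * X⁻¹) := by
      push_cast; ring
    rw [this]
    exact (p3.sub g0).add (((two_ge O).mul_gt g1).mono (by linarith))

end

end BK

/-- **The kernel of reduction has no `p`-torsion** when `p` is a unit. -/
theorem BModel.nsmul_ne_zero_of_neg (B : BModel L G b₂ β) (O : OrdData L)
    (hb₂ : O.GE b₂ 0) (hβ : O.GE β 0) {D : G} {x : L} {c : ℚ} (hD : B.xc D = some x)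
    (hx : O.EQ x c) (hc : c < 0) {p : ℕ} (hp : O.EQ (p : L) 0) : p • D ≠ 0 := by
  intro h0
  have hX' : O.EQ x (-(-c)) := hx.of_eq (by ring)
  obtain ⟨⟨-, g⟩, -⟩ := BK.nsmul_close hb₂ hβ (ρ := -c) (by linarith) hD hX' p
  rw [h0, BK.xi_zero, zero_sub] at g
  have : O.EQ (-((p : L) ^ 2 * x⁻¹)) (-c) := ((hp.sq.mul hx.inv).of_eq (by ring)).neg
  exact this.not_gt g le_rfl

end Fermat.Agent.S13Lib
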