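import Fermat.Agent.S05.Model

/-!
# x-only models in `b₂`-form

An abstract x-only model of the group of points of `y² + a₁xy = x³ + a₂x² + βx`, in terms of
`b₂ = a₁² + 4a₂` and `β`.  The formulas have integral coefficients in every residue characteristic.
-/

set_option autoImplicit false

namespace Fermat.Agent.S13Lib

open Fermat.Agent.S05Lib

/-- x-only model of `y² + a₁xy = x³ + a₂x² + βx` with `b₂ = a₁² + 4a₂` (works in residue char 2). -/
structure BModel (L : Type) [Field L] (G : Type) [AddCommGroup G] (b₂ β : L) : Type where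
  xc : G → Option L
  xc_zero : xc 0 = none
  eq_zero : ∀ {P : G}, xc P = none → P = 0
  xc_neg : ∀ P : G, xc (-P) = xc P
  eq_or_eq_neg : ∀ {P Q : G} {x : L}, xc P = some x → xc Q = some x → P = Q ∨ P = -Q
  add_sub : ∀ {P Q : G} {x₁ x₂ : L}, xc P = some x₁ → xc Q = some x₂ → x₁ ≠ x₂ →
    ∃ t₁ t₂ : L, xc (P + Q) = some t₁ ∧ xc (P - Q) = some t₂ ∧
      t₁ + t₂ = (2 * (x₁ + x₂) * (x₁ * x₂ + β) + b₂ * (x₁ * x₂)) / (x₁ - x₂) ^ 2 ∧
      t₁ * t₂ = (x₁ * x₂ - β) ^ 2 / (x₁ - x₂) ^ 2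
  dbl : ∀ {P : G} {x : L}, xc P = some x → 4 * x ^ 3 + b₂ * x ^ 2 + 4 * β * x ≠ 0 →
    xc (P + P) = some ((x ^ 2 - β) ^ 2 / (4 * x ^ 3 + b₂ * x ^ 2 + 4 * β * x))
  dbl_zero : ∀ {P : G} {x : L}, xc P = some x → 4 * x ^ 3 + b₂ * x ^ 2 + 4 * β * x = 0 → P + P = 0

section

variable {L : Type} [Field L] {G : Type} [AddCommGroup G] {a₂ a₄ : L}

lemma BM.xc_some {M : XYModel L G a₂ a₄} {u : L} {P : G} {x : L}
    (h : (M.co P).map (fun c => c.1 / u) = some x) : ∃ X Y : L, M.co P = some (X, Y) ∧ x = X / u := by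
  rcases hc : M.co P with _ | ⟨X, Y⟩
  · rw [hc] at h; simp at h
  · rw [hc] at h
    simp only [Option.map_some, Option.some.injEq] at h
    exact ⟨X, Y, rfl, h.symm⟩

/-- rescaling `x = X / u` of an `XYModel` -/
def _root_.Fermat.Agent.S05Lib.XYModel.toBModel (M : XYModel L G a₂ a₄) (u : L) (hu : u ≠ 0)
    (h2 : (2 : L) ≠ 0) : BModel L G (4 * a₂ / u) (a₄ / u ^ 2) where
  xc P := (M.co P).map (fun c => c.1 / u)
  xc_zero := by rw [M.co_zero]; rfl
  eq_zero := by
    intro P h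
    rcases hc : M.co P with _ | ⟨X, Y⟩
    · exact M.co_eq_none.mp hc
    · rw [hc] at h; simp at h
  xc_neg := by
    intro P
    rcases hc : M.co P with _ | ⟨X, Y⟩
    · rw [M.co_eq_none.mp hc, neg_zero, M.co_zero]
    · rw [M.co_neg hc]; rfl
  eq_or_eq_neg := by
    intro P Q x hP hQ
    obtain ⟨X₁, Y₁, h1, e1⟩ := BM.xc_some hP
    obtain ⟨X₂, Y₂, h2', e2⟩ := BM.xc_some hQ
    have : X₁ = X₂ := by
      have := e1.symm.trans e2
      field_simp at this
      exact this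
    subst this
    exact M.eq_or_eq_neg h1 h2'
  add_sub := by
    intro P Q x₁ x₂ hP hQ hx
    obtain ⟨X₁, Y₁, h1, rfl⟩ := BM.xc_some hP
    obtain ⟨X₂, Y₂, h2', rfl⟩ := BM.xc_some hQ
    have hX : X₁ ≠ X₂ := fun h => hx (by rw [h])
    obtain ⟨T₁, T₂, Z₁, Z₂, c1, c2, hS, hPr⟩ := M.co_add_sub h1 h2' hX
    have hd : X₁ - X₂ ≠ 0 := sub_ne_zero.mpr hX
    refine ⟨T₁ / u, T₂ / u, by rw [c1]; rfl, by rw [c2]; rfl, ?_, ?_⟩
    · rw [← add_div, hS]
      have : X₁ / u - X₂ / u = (X₁ - X₂) / u := by ring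
      rw [this]
      field_simp
      ring
    · rw [div_mul_div_comm, hPr]
      have : X₁ / u - X₂ / u = (X₁ - X₂) / u := by ring
      rw [this]
      field_simp
  dbl := by
    intro P x hP hne
    obtain ⟨X, Y, h1, rfl⟩ := BM.xc_some hP
    have e := M.eqn h1
    have key : 4 * (X / u) ^ 3 + 4 * a₂ / u * (X / u) ^ 2 + 4 * (a₄ / u ^ 2) * (X / u)
        = 4 * Y ^ 2 / u ^ 3 := by
      rw [e]; field_simp
    rw [key] at hne ⊢
    have hY : Y ≠ 0 := by
      intro h0; apply hne; rw [h0]; simp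
    obtain ⟨Y₃, h3⟩ := M.co_dbl h1 hY
    rw [h3]
    simp only [Option.map_some, Option.some.injEq]
    have h4 : (4 : L) ≠ 0 := by
      have : (4 : L) = 2 * 2 := by norm_num
      rw [this]; exact mul_ne_zero h2 h2
    field_simp
  dbl_zero := by
    intro P x hP h0
    obtain ⟨X, Y, h1, rfl⟩ := BM.xc_some hP
    have e := M.eqn h1
    have key : 4 * (X / u) ^ 3 + 4 * a₂ / u * (X / u) ^ 2 + 4 * (a₄ / u ^ 2) * (X / u)
        = 4 * Y ^ 2 / u ^ 3 := by
      rw [e]; field_simp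
    rw [key] at h0
    have h4 : (4 : L) ≠ 0 := by
      have : (4 : L) = 2 * 2 := by norm_num
      rw [this]; exact mul_ne_zero h2 h2
    have hY : Y = 0 := by
      rcases div_eq_zero_iff.mp h0 with h | h
      · rcases mul_eq_zero.mp h with h | h
        · exact absurd h h4
        · exact pow_eq_zero_iff (two_ne_zero) |>.mp h
      · exact absurd (pow_eq_zero_iff (three_ne_zero) |>.mp h) hu
    subst hY
    exact M.add_self_eq_zero h1

lemma _root_.Fermat.Agent.S05Lib.XYModel.toBModel_xc (M : XYModel L G a₂ a₄) (u : L) (hu : u ≠ 0)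
    (h2 : (2 : L) ≠ 0) {P : G} {X Y : L} (h : M.co P = some (X, Y)) :
    (M.toBModel u hu h2).xc P = some (X / u) := by
  show (M.co P).map (fun c => c.1 / u) = some (X / u)
  rw [h]; rfl

end

end Fermat.Agent.S13Lib
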