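import Mathlib

/-!
# The abstract endgame for S13
-/

set_option autoImplicit false

namespace Fermat.Agent.S13Lib

namespace EG

variable {p : ℕ} [Fact p.Prime] {V : Type*} [AddCommGroup V] [Module (ZMod p) V]
  {Γ : Type*} [Group Γ] [DistribMulAction Γ V]

lemma smul_zmod_smul (σ : Γ) (a : ZMod p) (x : V) : σ • (a • x) = a • (σ • x) := by
  have h : ∀ y : V, a • y = a.val • y := by
    intro y
    rw [← Nat.cast_smul_eq_nsmul (ZMod p), ZMod.natCast_zmod_val]
  rw [h, h]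
  exact (DistribSMul.toAddMonoidHom V σ).map_nsmul a.val x

/-- the subgroup acting trivially on `N` -/
def H₁ (N : Submodule (ZMod p) V) (_hNs : ∀ σ : Γ, ∀ x ∈ N, σ • x ∈ N) : Subgroup Γ where
  carrier := {σ | ∀ x ∈ N, σ • x = x}
  one_mem' := fun x _ => one_smul _ x
  mul_mem' := by
    intro a b ha hb x hx
    rw [mul_smul, hb x hx, ha x hx]
  inv_mem' := by
    intro a ha x hx
    rw [inv_smul_eq_iff, ha x hx]

/-- the subgroup acting trivially on `V / N` -/
def H₂ (N : Submodule (ZMod p) V) (hNs : ∀ σ : Γ, ∀ x ∈ N, σ • x ∈ N) : Subgroup Γ where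
  carrier := {σ | ∀ x : V, σ • x - x ∈ N}
  one_mem' := fun x => by rw [one_smul, sub_self]; exact N.zero_mem
  mul_mem' := by
    intro a b ha hb x
    have : (a * b) • x - x = a • (b • x - x) + (a • x - x) := by
      rw [mul_smul, smul_sub]; abel
    rw [this]
    exact N.add_mem (hNs a _ (hb x)) (ha x)
  inv_mem' := by
    intro a ha x
    have : a⁻¹ • x - x = -(a⁻¹ • (a • x - x)) := by
      rw [smul_sub, inv_smul_smul]; abel
    rw [this]
    exact N.neg_mem (hNs _ _ (ha x))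

lemma H₁_normal (N : Submodule (ZMod p) V) (hNs : ∀ σ : Γ, ∀ x ∈ N, σ • x ∈ N) :
    (H₁ N hNs).Normal := by
  constructor
  intro a ha g x hx
  show (g * a * g⁻¹) • x = x
  rw [mul_smul, mul_smul, ha _ (hNs g⁻¹ x hx), smul_inv_smul]

lemma H₂_normal (N : Submodule (ZMod p) V) (hNs : ∀ σ : Γ, ∀ x ∈ N, σ • x ∈ N) :
    (H₂ N hNs).Normal := by
  constructor
  intro a ha g x
  show (g * a * g⁻¹) • x - x ∈ N
  have : (g * a * g⁻¹) • x - x = g • (a • (g⁻¹ • x) - g⁻¹ • x) := by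
    rw [mul_smul, mul_smul, smul_sub, smul_inv_smul]
  rw [this]
  exact hNs g _ (ha _)

section dim

variable [Module.Finite (ZMod p) V] (hdim : Module.finrank (ZMod p) V ≤ 2)
  (N : Submodule (ZMod p) V) (hN0 : N ≠ ⊥) (hN1 : N ≠ ⊤)
include hdim hN0 hN1

lemma finrank_N : Module.finrank (ZMod p) N = 1 := by
  have h1 : 0 < Module.finrank (ZMod p) N := by
    rw [Module.finrank_pos_iff]
    exact (Submodule.nontrivial_iff_ne_bot).mpr hN0
  have h2 : Module.finrank (ZMod p) N < Module.finrank (ZMod p) V :=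
    Submodule.finrank_lt hN1
  omega

lemma finrank_V : Module.finrank (ZMod p) V = 2 := by
  have h1 := finrank_N hdim N hN0 hN1
  have h2 : Module.finrank (ZMod p) N < Module.finrank (ZMod p) V :=
    Submodule.finrank_lt hN1
  omega

/-- `N` is spanned by any of its nonzero elements -/
lemma exists_smul_of_mem {x y : V} (hx : x ∈ N) (hx0 : x ≠ 0) (hy : y ∈ N) :
    ∃ c : ZMod p, y = c • x := by
  have h1 := finrank_N hdim N hN0 hN1
  have hx' : (⟨x, hx⟩ : N) ≠ 0 := fun h => hx0 (congrArg Subtype.val h)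
  obtain ⟨c, hc⟩ := (finrank_eq_one_iff_of_nonzero' (⟨x, hx⟩ : N) hx').mp h1 ⟨y, hy⟩
  exact ⟨c, (congrArg Subtype.val hc).symm⟩

/-- `V = N + span x` for `x ∉ N` -/
lemma exists_decomp {x : V} (hx : x ∉ N) (y : V) : ∃ (a : ZMod p) (n : V), n ∈ N ∧ y = a • x + n := by
  have h1 := finrank_N hdim N hN0 hN1
  have h2 := finrank_V hdim N hN0 hN1
  have hlt : N < N ⊔ Submodule.span (ZMod p) {x} := by
    refine lt_of_le_of_ne le_sup_left ?_
    intro h
    apply hx
    rw [h]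
    exact Submodule.mem_sup_right (Submodule.mem_span_singleton_self x)
  have h3 : Module.finrank (ZMod p) N <
      Module.finrank (ZMod p) (N ⊔ Submodule.span (ZMod p) {x} : Submodule (ZMod p) V) :=
    Submodule.finrank_lt_finrank_of_lt hlt
  have h4 : Module.finrank (ZMod p) (N ⊔ Submodule.span (ZMod p) {x} : Submodule (ZMod p) V) ≤
      Module.finrank (ZMod p) V := Submodule.finrank_le _
  have htop : N ⊔ Submodule.span (ZMod p) {x} = ⊤ := by
    apply Submodule.eq_top_of_finrank_eq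
    omega
  have hy : y ∈ N ⊔ Submodule.span (ZMod p) {x} := by rw [htop]; trivial
  obtain ⟨n, hn, z, hz, rfl⟩ := Submodule.mem_sup.mp hy
  obtain ⟨a, rfl⟩ := Submodule.mem_span_singleton.mp hz
  exact ⟨a, n, hn, add_comm _ _⟩

/-- a proper submodule meets `N` trivially or equals `N` -/
lemma inf_eq_bot_or_eq (V₁ : Submodule (ZMod p) V) (hV₁ : V₁ ≠ ⊤) : N ⊓ V₁ = ⊥ ∨ V₁ = N := by
  by_cases h : N ⊓ V₁ = ⊥
  · exact Or.inl h
  right
  have h1 := finrank_N hdim N hN0 hN1
  have h2 := finrank_V hdim N hN0 hN1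
  obtain ⟨x, hx, hx0⟩ := (Submodule.ne_bot_iff _).mp h
  have hNle : N ≤ V₁ := by
    intro y hy
    obtain ⟨c, rfl⟩ := exists_smul_of_mem hdim N hN0 hN1 hx.1 hx0 hy
    exact V₁.smul_mem c hx.2
  have h3 : Module.finrank (ZMod p) V₁ < Module.finrank (ZMod p) V := Submodule.finrank_lt hV₁
  have h4 : Module.finrank (ZMod p) N ≤ Module.finrank (ZMod p) V₁ :=
    Submodule.finrank_mono hNle
  exact (Submodule.eq_of_le_of_finrank_eq hNle (by omega)).symm

variable (hNs : ∀ σ : Γ, ∀ x ∈ N, σ • x ∈ N)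
include hNs

/-- a unipotent element acts trivially on `N` -/
lemma mem_H₁_of_sq {σ : Γ} (hσ : ∀ x : V, σ • (σ • x - x) = σ • x - x) : σ ∈ H₁ N hNs := by
  intro x hx
  by_cases hx0 : x = 0
  · rw [hx0, smul_zero]
  obtain ⟨c, hc⟩ := exists_smul_of_mem hdim N hN0 hN1 hx hx0 (hNs σ x hx)
  have h := hσ x
  rw [hc, smul_sub, smul_zmod_smul, hc] at h
  have h' : ((c - 1) * (c - 1)) • x = 0 := by
    have : ((c - 1) * (c - 1)) • x = (c • c • x - c • x) - (c • x - x) := by
      rw [mul_smul, sub_smul, sub_smul, one_smul, one_smul, smul_sub]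
    rw [this, h, sub_self]
  rcases smul_eq_zero.mp h' with h0 | h0
  · have : c = 1 := by
      rcases mul_eq_zero.mp h0 with h1 | h1 <;> exact sub_eq_zero.mp h1
    rw [hc, this, one_smul]
  · exact absurd h0 hx0

/-- a unipotent element acts trivially on `V / N` -/
lemma mem_H₂_of_sq {σ : Γ} (hσ : ∀ x : V, σ • (σ • x - x) = σ • x - x) : σ ∈ H₂ N hNs := by
  intro x
  by_cases hx : x ∈ N
  · exact N.sub_mem (hNs σ x hx) hx
  obtain ⟨a, n, hn, hy⟩ := exists_decomp hdim N hN0 hN1 hx (σ • x - x)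
  have h1 := mem_H₁_of_sq hdim N hN0 hN1 hNs hσ n hn
  have h := hσ x
  have h2 : a • (σ • x - x) = 0 := by
    have e : σ • (σ • x - x) = a • (σ • x) + n := by
      conv_lhs => rw [hy]
      rw [smul_add, smul_zmod_smul, h1]
    have e2 : a • (σ • x - x) = (a • (σ • x) + n) - (a • x + n) := by
      rw [smul_sub]; abel
    rw [e2, ← e, ← hy, h, sub_self]
  rcases smul_eq_zero.mp h2 with h0 | h0
  · rw [hy, h0, zero_smul, zero_add]; exact hn
  · rw [h0]; exact N.zero_mem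

end dim

/-- **The abstract endgame.** -/
theorem endgame [Module.Finite (ZMod p) V] (hdim : Module.finrank (ZMod p) V ≤ 2)
    (N : Submodule (ZMod p) V) (hNs : ∀ σ : Γ, ∀ x ∈ N, σ • x ∈ N) (hN0 : N ≠ ⊥) (hN1 : N ≠ ⊤)
    {ι : Type*} (I : ι → Subgroup Γ) (i₀ : ι)
    (mink : ∀ H : Subgroup Γ, H.Normal → (∀ σ : Γ, (∀ x : V, σ • x = x) → σ ∈ H) →
      (∀ i : ι, I i ≤ H) → H = ⊤)
    (hI : ∀ i, i ≠ i₀ → ∀ σ ∈ I i, ∀ x : V, σ • (σ • x - x) = σ • x - x)
    (V₁ : Submodule (ZMod p) V) (hV₁ : V₁ ≠ ⊤) (hI₀ : ∀ σ ∈ I i₀, ∀ x : V, σ • x - x ∈ V₁)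
    (hfix : ∀ x : V, (∀ σ : Γ, σ • x = x) → x = 0) :
    ∀ σ : Γ, ∀ x : V, σ • x - x ∈ N := by
  rcases inf_eq_bot_or_eq hdim N hN0 hN1 V₁ hV₁ with hbot | heq
  · exfalso
    have htop : H₁ N hNs = ⊤ := by
      apply mink _ (H₁_normal N hNs)
      · intro σ hσ x _
        exact hσ x
      · intro i σ hσ
        by_cases hi : i = i₀
        · subst hi
          intro x hx
          have h1 : σ • x - x ∈ N ⊓ V₁ := ⟨N.sub_mem (hNs σ x hx) hx, hI₀ σ hσ x⟩
          rw [hbot, Submodule.mem_bot] at h1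
          exact sub_eq_zero.mp h1
        · exact mem_H₁_of_sq hdim N hN0 hN1 hNs (hI i hi σ hσ)
    obtain ⟨x, hx, hx0⟩ := (Submodule.ne_bot_iff _).mp hN0
    apply hx0
    apply hfix
    intro σ
    have : σ ∈ H₁ N hNs := by rw [htop]; trivial
    exact this x hx
  · have htop : H₂ N hNs = ⊤ := by
      apply mink _ (H₂_normal N hNs)
      · intro σ hσ x
        rw [hσ x, sub_self]; exact N.zero_mem
      · intro i σ hσ
        by_cases hi : i = i₀
        · subst hi
          intro x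
          rw [← heq]
          exact hI₀ σ hσ x
        · exact mem_H₂_of_sq hdim N hN0 hN1 hNs (hI i hi σ hσ)
    intro σ x
    have : σ ∈ H₂ N hNs := by rw [htop]; trivial
    exact this x

end EG

end Fermat.Agent.S13Lib
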