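import Fermat.Agent.S05.Model

/-!
# The `x`-only ladder for `Y² = X³ + a₂ X² + a₄ X` and the odd division polynomials
-/

set_option autoImplicit false

namespace Fermat.Agent.S13Lib

open Fermat.Agent.S05Lib Polynomial

namespace Lad

/-- `x`-only projective doubling. -/
def dbl {A : Type*} [CommRing A] (a₂ a₄ : A) (p : A × A) : A × A :=
  ((p.1 ^ 2 - a₄ * p.2 ^ 2) ^ 2,
    4 * (p.1 * p.2 * (p.1 ^ 2 + a₂ * (p.1 * p.2) + a₄ * p.2 ^ 2)))

/-- `x`-only projective differential addition (the difference has affine coordinate `x`). -/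
def dadd {A : Type*} [CommRing A] (a₂ a₄ x : A) (p q : A × A) : A × A :=
  (2 * ((p.1 * q.2 + q.1 * p.2) * (p.1 * q.1 + a₄ * (p.2 * q.2))
      + 2 * (a₂ * ((p.1 * q.2) * (q.1 * p.2)))) - x * (p.1 * q.2 - q.1 * p.2) ^ 2,
    (p.1 * q.2 - q.1 * p.2) ^ 2)

/-- projective `x`-coordinate of `n • P`. -/
def xz {A : Type*} [CommRing A] (a₂ a₄ x : A) : ℕ → A × A
  | 0 => (1, 0)
  | 1 => (x, 1)
  | (m + 2) =>
    if h : m % 2 = 0 then dbl a₂ a₄ (xz a₂ a₄ x (m / 2 + 1))
    else dadd a₂ a₄ x (xz a₂ a₄ x (m / 2 + 2)) (xz a₂ a₄ x (m / 2 + 1))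
  termination_by n => n
  decreasing_by
    all_goals omega

section basic

variable {A : Type*} [CommRing A] (a₂ a₄ x : A)

lemma xz_zero : xz a₂ a₄ x 0 = (1, 0) := by rw [xz]

lemma xz_one : xz a₂ a₄ x 1 = (x, 1) := by rw [xz]

lemma xz_two_mul (n : ℕ) : xz a₂ a₄ x (2 * n) = dbl a₂ a₄ (xz a₂ a₄ x n) := by
  rcases n with _ | n
  · simp [xz_zero, dbl]
  · have h : 2 * (n + 1) = 2 * n + 2 := by ring
    rw [h, xz, dif_pos (by omega)]
    congr 2
    omega

lemma xz_two_mul_add_one (n : ℕ) :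
    xz a₂ a₄ x (2 * n + 1) = dadd a₂ a₄ x (xz a₂ a₄ x (n + 1)) (xz a₂ a₄ x n) := by
  rcases n with _ | n
  · simp only [Nat.mul_zero, Nat.zero_add, xz_zero, xz_one, dadd]
    ext
    · simp; ring
    · simp
  · have h : 2 * (n + 1) + 1 = (2 * n + 1) + 2 := by ring
    rw [h, xz, dif_neg (by omega)]
    have h1 : (2 * n + 1) / 2 = n := by omega
    rw [h1]

end basic

/-- The induction principle adapted to the ladder. -/
theorem ind {P : ℕ → Prop} (h0 : P 0) (h1 : P 1) (he : ∀ n, 1 ≤ n → P n → P (2 * n))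
    (ho : ∀ n, 1 ≤ n → P n → P (n + 1) → P (2 * n + 1)) : ∀ n, P n := by
  intro n
  induction n using Nat.strong_induction_on with
  | _ n ih =>
    rcases Nat.even_or_odd' n with ⟨m, rfl | rfl⟩
    · rcases m with _ | m
      · exact h0
      · exact he _ (by omega) (ih _ (by omega))
    · rcases m with _ | m
      · exact h1
      · exact ho _ (by omega) (ih _ (by omega)) (ih _ (by omega))

lemma xz_map {A B : Type*} [CommRing A] [CommRing B] (φ : A →+* B) (a₂ a₄ x : A) (n : ℕ) :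
    xz (φ a₂) (φ a₄) (φ x) n = (φ (xz a₂ a₄ x n).1, φ (xz a₂ a₄ x n).2) := by
  induction n using ind with
  | h0 => simp [xz_zero]
  | h1 => simp [xz_one]
  | he n _ ih => rw [xz_two_mul, xz_two_mul, ih]; simp [dbl, map_ofNat]
  | ho n _ ih ih' => rw [xz_two_mul_add_one, xz_two_mul_add_one, ih, ih']; simp [dadd, map_ofNat]

/-! ### Degrees and leading coefficients -/

section degree

variable {R : Type*} [CommRing R]

/-- `p = c X ^ d + lower terms`. -/
def LC (p : R[X]) (d : ℕ) (c : R) : Prop := p.natDegree ≤ d ∧ p.coeff d = c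

lemma LC.mul {p q : R[X]} {d e : ℕ} {c c' : R} (hp : LC p d c) (hq : LC q e c') :
    LC (p * q) (d + e) (c * c') :=
  ⟨natDegree_mul_le_of_le hp.1 hq.1, by
    rw [coeff_mul_add_eq_of_natDegree_le hp.1 hq.1, hp.2, hq.2]⟩

lemma LC.add {p q : R[X]} {d : ℕ} {c c' : R} (hp : LC p d c) (hq : LC q d c') :
    LC (p + q) d (c + c') :=
  ⟨natDegree_add_le_of_degree_le hp.1 hq.1, by rw [coeff_add, hp.2, hq.2]⟩

lemma LC.sub {p q : R[X]} {d : ℕ} {c c' : R} (hp : LC p d c) (hq : LC q d c') :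
    LC (p - q) d (c - c') :=
  ⟨(natDegree_sub_le_of_le hp.1 hq.1).trans (by simp), by rw [coeff_sub, hp.2, hq.2]⟩

lemma LC.mono {p : R[X]} {d e : ℕ} {c : R} (hp : LC p d c) (h : d < e) : LC p e 0 :=
  ⟨hp.1.trans h.le, coeff_eq_zero_of_natDegree_lt (lt_of_le_of_lt hp.1 h)⟩

lemma LC.congr {p : R[X]} {d e : ℕ} {c c' : R} (hp : LC p d c) (h : d = e) (h' : c = c') :
    LC p e c' := by
  subst h; subst h'; exact hp

lemma LC.const (a : R) : LC (C a) 0 a := ⟨by simp, by simp⟩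

lemma LC.var : LC (X : R[X]) 1 1 := ⟨natDegree_X_le, by simp⟩

lemma LC.two : LC (2 : R[X]) 0 2 := by
  have := LC.const (2 : R)
  rwa [map_ofNat] at this

lemma LC.four : LC (4 : R[X]) 0 4 := by
  have := LC.const (4 : R)
  rwa [map_ofNat] at this

lemma LC.sq {p : R[X]} {d : ℕ} {c : R} (hp : LC p d c) : LC (p ^ 2) (d + d) (c * c) := by
  rw [pow_two]; exact hp.mul hp

lemma dbl_LC (a₂ a₄ : R) {p : R[X] × R[X]} {e : ℕ} {c : R} (h1 : LC p.1 (e + 1) 1)
    (h2 : LC p.2 e c) :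
    LC (dbl (C a₂) (C a₄) p).1 (4 * e + 4) 1 ∧ LC (dbl (C a₂) (C a₄) p).2 (4 * e + 3) (4 * c) := by
  have hA : LC (C a₄ * p.2 ^ 2) (e + 1 + (e + 1)) 0 :=
    ((LC.const a₄).mul h2.sq).mono (by omega)
  have hB : LC (C a₂ * (p.1 * p.2)) (e + 1 + (e + 1)) 0 :=
    ((LC.const a₂).mul (h1.mul h2)).mono (by omega)
  constructor
  · exact ((h1.sq.sub hA).sq).congr (by omega) (by ring)
  · exact (LC.four.mul ((h1.mul h2).mul ((h1.sq.add hB).add hA))).congr (by omega) (by ring)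

lemma dadd_LC (a₂ a₄ : R) {p q : R[X] × R[X]} {e f : ℕ} {c c' : R} (h1 : LC p.1 (e + 1) 1)
    (h2 : LC p.2 e c) (h3 : LC q.1 (f + 1) 1) (h4 : LC q.2 f c') :
    LC (p.1 * q.2 - q.1 * p.2) (e + f + 1) (c' - c) ∧
    LC (dadd (C a₂) (C a₄) X p q).1 (2 * e + 2 * f + 3) (2 * (c + c') - (c' - c) ^ 2) ∧
    LC (dadd (C a₂) (C a₄) X p q).2 (2 * e + 2 * f + 2) ((c' - c) ^ 2) := by
  have hpq : LC (p.1 * q.2) (e + f + 1) c' := (h1.mul h4).congr (by omega) (by ring)
  have hqp : LC (q.1 * p.2) (e + f + 1) c := (h3.mul h2).congr (by omega) (by ring)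
  have hD := hpq.sub hqp
  have hS := hpq.add hqp
  have hA : LC (C a₄ * (p.2 * q.2)) (e + 1 + (f + 1)) 0 :=
    ((LC.const a₄).mul (h2.mul h4)).mono (by omega)
  have hB : LC (2 * (C a₂ * ((p.1 * q.2) * (q.1 * p.2)))) (e + f + 1 + (e + 1 + (f + 1))) 0 :=
    (LC.two.mul ((LC.const a₂).mul (hpq.mul hqp))).mono (by omega)
  refine ⟨hD, ?_, ?_⟩
  · have hU := (LC.two.mul ((hS.mul ((h1.mul h3).add hA)).add hB))
    have hV := LC.var.mul hD.sq
    exact ((hU.congr (e := 2 * e + 2 * f + 3) (by omega) rfl).sub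
      (hV.congr (e := 2 * e + 2 * f + 3) (by omega) rfl)).congr rfl (by ring)
  · exact hD.sq.congr (by omega) (by ring)

lemma xz_LC (a₂ a₄ : R) (n : ℕ) : 1 ≤ n →
    LC (xz (C a₂) (C a₄) X n).1 (n ^ 2) 1 ∧ LC (xz (C a₂) (C a₄) X n).2 (n ^ 2 - 1) ((n : R) ^ 2) := by
  induction n using ind with
  | h0 => intro h; omega
  | h1 =>
    intro _
    rw [xz_one]
    exact ⟨LC.var.congr (by norm_num) rfl, (LC.const (1 : R)).congr (by norm_num) (by simp)⟩
  | he n hn ih =>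
    intro _
    obtain ⟨e, he⟩ : ∃ e, n ^ 2 = e + 1 := ⟨n ^ 2 - 1, (Nat.sub_add_cancel (Nat.pow_pos hn)).symm⟩
    obtain ⟨i1, i2⟩ := ih hn
    rw [he] at i1 i2
    obtain ⟨j1, j2⟩ := dbl_LC a₂ a₄ i1 i2
    rw [xz_two_mul]
    have h4 : (2 * n) ^ 2 = 4 * e + 4 := by rw [mul_pow, he]; ring
    rw [h4]
    exact ⟨j1, j2.congr (by omega) (by push_cast; ring)⟩
  | ho n hn ih ih' =>
    intro _
    obtain ⟨f, hf⟩ : ∃ f, n ^ 2 = f + 1 := ⟨n ^ 2 - 1, (Nat.sub_add_cancel (Nat.pow_pos hn)).symm⟩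
    obtain ⟨e, he⟩ : ∃ e, (n + 1) ^ 2 = e + 1 := ⟨n ^ 2 + 2 * n, by ring⟩
    obtain ⟨i1, i2⟩ := ih hn
    obtain ⟨i3, i4⟩ := ih' (by omega)
    rw [hf] at i1 i2
    rw [he] at i3 i4
    obtain ⟨-, j1, j2⟩ := dadd_LC a₂ a₄ i3 i4 i1 i2
    rw [xz_two_mul_add_one]
    have h4 : (2 * n + 1) ^ 2 = 2 * e + 2 * f + 3 := by
      have : (2 * n + 1) ^ 2 + 1 = 2 * (n + 1) ^ 2 + 2 * n ^ 2 := by ring
      omega
    rw [h4]
    exact ⟨j1.congr rfl (by push_cast; ring), j2.congr (by omega) (by push_cast; ring)⟩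

end degree

/-! ### The link with the group law -/

section link

variable {L : Type} [Field L] {G : Type} [AddCommGroup G] {a₂ a₄ : L}

/-- `(U : V)` is the projective `x`-coordinate of `Q`. -/
def Rep (M : XYModel L G a₂ a₄) (Q : G) (p : L × L) : Prop :=
  (Q = 0 ∧ p.2 = 0 ∧ p.1 ≠ 0) ∨ ∃ x y : L, M.co Q = some (x, y) ∧ p.2 ≠ 0 ∧ p.1 = x * p.2

lemma Rep.eq_zero_iff {M : XYModel L G a₂ a₄} {Q : G} {p : L × L} (h : Rep M Q p) :
    Q = 0 ↔ p.2 = 0 := by
  rcases h with ⟨h1, h2, -⟩ | ⟨x, y, h1, h2, -⟩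
  · exact ⟨fun _ => h2, fun _ => h1⟩
  · exact ⟨fun h => absurd h (M.ne_zero_of_co h1), fun h => absurd h h2⟩

lemma Rep.of_co {M : XYModel L G a₂ a₄} {Q : G} {p : L × L} (h : Rep M Q p) {x y : L}
    (hQ : M.co Q = some (x, y)) : p.2 ≠ 0 ∧ p.1 = x * p.2 := by
  rcases h with ⟨h1, -, -⟩ | ⟨x', y', h1, h2, h3⟩
  · exact absurd h1 (M.ne_zero_of_co hQ)
  · rw [hQ] at h1
    simp only [Option.some.injEq, Prod.mk.injEq] at h1
    rw [h1.1]
    exact ⟨h2, h3⟩

lemma dbl_rep (M : XYModel L G a₂ a₄) (h2 : (2 : L) ≠ 0) (h4 : a₄ ≠ 0)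
    (hd : a₂ ^ 2 - 4 * a₄ ≠ 0) {Q : G} {p : L × L} (h : Rep M Q p) :
    Rep M (Q + Q) (dbl a₂ a₄ p) := by
  obtain ⟨U, V⟩ := p
  rcases h with ⟨h1, hV, hU⟩ | ⟨x, y, hQ, hV, hU⟩
  · left
    simp only at hV hU
    subst hV
    refine ⟨by rw [h1, add_zero], by simp [dbl], ?_⟩
    simp only [dbl]
    simpa using hU
  · simp only at hV hU
    subst hU
    have e := M.eqn hQ
    have h4' : (4 : L) ≠ 0 := by
      have : (4 : L) = 2 * 2 := by norm_num
      rw [this]; exact mul_ne_zero h2 h2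
    by_cases hy : y = 0
    · left
      subst hy
      refine ⟨M.add_self_eq_zero hQ, ?_, ?_⟩
      · simp only [dbl]
        linear_combination (-4 * V ^ 4) * e
      · simp only [dbl]
        have hx : x ^ 2 - a₄ ≠ 0 := by
          intro hx
          have e1 : x * (a₂ * x + 2 * a₄) = 0 := by linear_combination (-1 : L) * e - x * hx
          rcases mul_eq_zero.mp e1 with h0 | h0
          · apply h4
            rw [h0] at hx
            linear_combination (-1 : L) * hx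
          · apply hd
            have : a₄ * (a₂ ^ 2 - 4 * a₄) = 0 := by
              linear_combination (a₂ * x - 2 * a₄) * h0 - a₂ ^ 2 * hx
            exact (mul_eq_zero.mp this).resolve_left h4
        have : ((x * V) ^ 2 - a₄ * V ^ 2) ^ 2 = (V ^ 2 * (x ^ 2 - a₄)) ^ 2 := by ring
        rw [this]
        exact pow_ne_zero 2 (mul_ne_zero (pow_ne_zero 2 hV) hx)
    · right
      obtain ⟨y₃, h3⟩ := M.co_dbl hQ hy
      refine ⟨_, y₃, h3, ?_, ?_⟩
      · simp only [dbl]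
        have : 4 * (x * V * V * ((x * V) ^ 2 + a₂ * (x * V * V) + a₄ * V ^ 2)) = 4 * (V ^ 4 * y ^ 2) := by
          linear_combination (-4 * V ^ 4) * e
        rw [this]
        exact mul_ne_zero h4' (mul_ne_zero (pow_ne_zero 4 hV) (pow_ne_zero 2 hy))
      · simp only [dbl]
        have : 4 * (x * V * V * ((x * V) ^ 2 + a₂ * (x * V * V) + a₄ * V ^ 2)) = 4 * y ^ 2 * V ^ 4 := by
          linear_combination (-4 * V ^ 4) * e
        rw [this]
        field_simp

lemma dadd_rep (M : XYModel L G a₂ a₄) (h2 : (2 : L) ≠ 0) {P A B : G} {x y : L}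
    (hP : M.co P = some (x, y)) (hAB : A - B = P) {p q : L × L} (hA : Rep M A p)
    (hB : Rep M B q) : Rep M (A + B) (dadd a₂ a₄ x p q) := by
  obtain ⟨U, V⟩ := p
  obtain ⟨U', V'⟩ := q
  have hP0 := M.ne_zero_of_co hP
  rcases hA with ⟨h1, hV, hU⟩ | ⟨xA, yA, hA, hV, hU⟩
  · -- `A = 0`, `B = -P`
    simp only at hV hU
    subst hV
    subst h1
    have hB' : B = -P := by rw [← hAB]; abel
    have hcB : M.co B = some (x, -y) := by rw [hB']; exact M.co_neg hP
    obtain ⟨hV', hU'⟩ := hB.of_co hcB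
    simp only at hV' hU'
    subst hU'
    right
    refine ⟨x, -y, by rw [zero_add]; exact hcB, ?_, ?_⟩
    · simp only [dadd]
      have : (U * V' - x * V' * 0) ^ 2 = (U * V') ^ 2 := by ring
      rw [this]
      exact pow_ne_zero 2 (mul_ne_zero hU hV')
    · simp only [dadd]
      ring
  · simp only at hV hU
    subst hU
    rcases hB with ⟨h1, hV', hU'⟩ | ⟨xB, yB, hB, hV', hU'⟩
    · -- `B = 0`, `A = P`
      simp only at hV' hU'
      subst hV'
      subst h1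
      have hA' : A = P := by rw [← hAB]; abel
      rw [hA', hP] at hA
      simp only [Option.some.injEq, Prod.mk.injEq] at hA
      obtain ⟨rfl, rfl⟩ := hA
      right
      refine ⟨x, y, by rw [add_zero, hA']; exact hP, ?_, ?_⟩
      · simp only [dadd]
        have : (x * V * 0 - U' * V) ^ 2 = (U' * V) ^ 2 := by ring
        rw [this]
        exact pow_ne_zero 2 (mul_ne_zero hU' hV)
      · simp only [dadd]
        ring
    · simp only at hV' hU'
      subst hU'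
      by_cases hx : xA = xB
      · subst hx
        left
        have hne : A ≠ B := by
          intro h
          apply hP0
          rw [← hAB, h, sub_self]
        have hAB' : A = -B := (M.eq_or_eq_neg hA hB).resolve_left hne
        have hy : yA ≠ 0 := by
          intro hy
          subst hy
          apply hne
          have := M.add_self_eq_zero hA
          rw [eq_neg_iff_add_eq_zero] at hAB'
          exact add_left_cancel (this.trans hAB'.symm)
        have e := M.eqn hA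
        refine ⟨by rw [hAB']; abel, ?_, ?_⟩
        · simp only [dadd]
          ring
        · simp only [dadd]
          have : 2 * ((xA * V * V' + xA * V' * V) * (xA * V * (xA * V') + a₄ * (V * V')) +
              2 * (a₂ * (xA * V * V' * (xA * V' * V)))) - x * (xA * V * V' - xA * V' * V) ^ 2
              = (2 * (V * V' * yA)) ^ 2 := by
            linear_combination (-4 * V ^ 2 * V' ^ 2) * e
          rw [this]
          exact pow_ne_zero 2 (mul_ne_zero h2 (mul_ne_zero (mul_ne_zero hV hV') hy))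
      · obtain ⟨T₁, T₂, Z₁, Z₂, c1, c2, e1, -⟩ := M.co_add_sub hA hB hx
        rw [hAB, hP] at c2
        simp only [Option.some.injEq, Prod.mk.injEq] at c2
        obtain ⟨rfl, rfl⟩ := c2
        have hd : xA - xB ≠ 0 := sub_ne_zero.mpr hx
        right
        refine ⟨T₁, Z₁, c1, ?_, ?_⟩
        · simp only [dadd]
          have : (xA * V * V' - xB * V' * V) ^ 2 = (V * V' * (xA - xB)) ^ 2 := by ring
          rw [this]
          exact pow_ne_zero 2 (mul_ne_zero (mul_ne_zero hV hV') hd)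
        · simp only [dadd]
          have e2 : (T₁ + x) * (xA - xB) ^ 2
              = 2 * ((xA + xB) * (xA * xB + a₄) + 2 * a₂ * (xA * xB)) := by
            rw [e1]; field_simp
          linear_combination (-(V ^ 2 * V' ^ 2)) * e2

lemma xz_rep (M : XYModel L G a₂ a₄) (h2 : (2 : L) ≠ 0) (h4 : a₄ ≠ 0)
    (hd : a₂ ^ 2 - 4 * a₄ ≠ 0) {P : G} {x y : L} (hP : M.co P = some (x, y)) (n : ℕ) :
    Rep M (n • P) (xz a₂ a₄ x n) := by
  induction n using ind with
  | h0 => left; simp [xz_zero]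
  | h1 => right; exact ⟨x, y, by rw [one_smul]; exact hP, by simp [xz_one], by simp [xz_one]⟩
  | he n _ ih =>
    rw [xz_two_mul, two_mul, add_smul]
    exact dbl_rep M h2 h4 hd ih
  | ho n _ ih ih' =>
    have : (2 * n + 1) • P = (n + 1) • P + n • P := by rw [← add_smul]; congr 1; ring
    rw [xz_two_mul_add_one, this]
    exact dadd_rep M h2 hP (by rw [add_smul, one_smul]; abel) ih' ih

end link

end Lad

/-- the `(2k+1)`-division polynomial (up to sign) of `Y² = X³ + a₂X² + a₄X` -/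
noncomputable def divD {R : Type*} [CommRing R] (a₂ a₄ : R) (k : ℕ) : R[X] :=
  (Lad.xz (C a₂) (C a₄) X (k + 1)).1 * (Lad.xz (C a₂) (C a₄) X k).2
    - (Lad.xz (C a₂) (C a₄) X k).1 * (Lad.xz (C a₂) (C a₄) X (k + 1)).2

theorem divD_map {R S : Type*} [CommRing R] [CommRing S] (f : R →+* S) (a₂ a₄ : R) (k : ℕ) :
    (divD a₂ a₄ k).map f = divD (f a₂) (f a₄) k := by
  have h := fun n => Lad.xz_map (mapRingHom f) (C a₂) (C a₄) X n
  simp only [coe_mapRingHom, map_C, map_X] at h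
  simp only [divD, h, Polynomial.map_sub, Polynomial.map_mul]

theorem Lad.divD_LC {R : Type*} [CommRing R] (a₂ a₄ : R) (k : ℕ) :
    Lad.LC (divD a₂ a₄ k) (2 * k ^ 2 + 2 * k) (-(2 * k + 1 : R)) := by
  rcases Nat.eq_zero_or_pos k with rfl | hk
  · simp only [divD, Lad.xz_zero, Lad.xz_one, Nat.zero_add]
    refine ⟨?_, ?_⟩
    · simp
    · simp
  · obtain ⟨f, hf⟩ : ∃ f, k ^ 2 = f + 1 := ⟨k ^ 2 - 1, (Nat.sub_add_cancel (Nat.pow_pos hk)).symm⟩
    obtain ⟨e, he⟩ : ∃ e, (k + 1) ^ 2 = e + 1 := ⟨k ^ 2 + 2 * k, by ring⟩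
    obtain ⟨i1, i2⟩ := Lad.xz_LC a₂ a₄ k hk
    obtain ⟨i3, i4⟩ := Lad.xz_LC a₂ a₄ (k + 1) (by omega)
    rw [hf] at i1 i2
    rw [he] at i3 i4
    obtain ⟨j, -, -⟩ := Lad.dadd_LC a₂ a₄ i3 i4 i1 i2
    refine j.congr ?_ (by push_cast; ring)
    have : (k + 1) ^ 2 = k ^ 2 + 2 * k + 1 := by ring
    omega

theorem divD_natDegree_le {R : Type*} [CommRing R] (a₂ a₄ : R) (k : ℕ) :
    (divD a₂ a₄ k).natDegree ≤ 2 * k ^ 2 + 2 * k := (Lad.divD_LC a₂ a₄ k).1

theorem divD_coeff {R : Type*} [CommRing R] (a₂ a₄ : R) (k : ℕ) :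
    (divD a₂ a₄ k).coeff (2 * k ^ 2 + 2 * k) = -(2 * k + 1 : R) := (Lad.divD_LC a₂ a₄ k).2

theorem nsmul_eq_zero_iff {L : Type} [Field L] {G : Type} [AddCommGroup G] {a₂ a₄ : L}
    (M : XYModel L G a₂ a₄) (h2 : (2 : L) ≠ 0) (h4 : a₄ ≠ 0) (hd : a₂ ^ 2 - 4 * a₄ ≠ 0)
    {P : G} {X Y : L} (hP : M.co P = some (X, Y)) (k : ℕ) :
    (2 * k + 1) • P = 0 ↔ (divD a₂ a₄ k).eval X = 0 := by
  have h := fun n => Lad.xz_map (evalRingHom X) (C a₂) (C a₄) Polynomial.X n
  simp only [coe_evalRingHom, eval_C, eval_X] at h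
  rw [(Lad.xz_rep M h2 h4 hd hP (2 * k + 1)).eq_zero_iff, Lad.xz_two_mul_add_one]
  simp only [Lad.dadd, divD, eval_sub, eval_mul, h]
  exact pow_eq_zero_iff (by norm_num)

end Fermat.Agent.S13Lib
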