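import Fermat.Agent.S05.Ord

/-!
# Inertia-like endomorphisms preserve the valuation
-/

set_option autoImplicit false

namespace Fermat.Agent.S13Lib

open Fermat.Agent.S05Lib OrdData

/-- a ring endomorphism that moves integral elements by elements of the maximal ideal and fixes an
element of valuation `1` preserves the valuation -/
theorem ord_map_eq {L : Type} [Field L] {O : OrdData L} (σ : L →+* L)
    (hσ : ∀ x : L, O.GE x 0 → O.GT (σ x - x) 0) {ϖ : L} (hϖ : O.EQ ϖ 1) (hσϖ : σ ϖ = ϖ)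
    {x : L} {c : ℚ} (hx : O.EQ x c) : O.EQ (σ x) c := by
  have hden : (c.den : ℚ) ≠ 0 := by exact_mod_cast c.den_nz
  have hc : (c.den : ℚ) * c = c.num := by
    rw [mul_comm]; exact Rat.mul_den_eq_num c
  have hϖk : O.EQ (ϖ ^ c.num) c.num := (hϖ.zpow c.num).of_eq (by ring)
  have hu : O.EQ (x ^ c.den / ϖ ^ c.num) 0 :=
    ((hx.pow c.den).div hϖk).of_eq (by rw [hc]; ring)
  have hσu : O.EQ (σ (x ^ c.den / ϖ ^ c.num)) 0 := by
    have : σ (x ^ c.den / ϖ ^ c.num)
        = x ^ c.den / ϖ ^ c.num + (σ (x ^ c.den / ϖ ^ c.num) - x ^ c.den / ϖ ^ c.num) := by ring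
    rw [this]
    exact hu.add_gt (hσ _ hu.ge')
  have hσx0 : σ x ≠ 0 := by
    intro h0
    exact hx.1 ((map_eq_zero σ).mp h0)
  have hE := eq_self (O := O) hσx0
  have h1 : O.EQ (σ (x ^ c.den / ϖ ^ c.num)) (c.den * O.ord (σ x) - c.num) := by
    rw [map_div₀, map_pow, map_zpow₀, hσϖ]
    exact (hE.pow c.den).div hϖk
  have h2 := h1.unique hσu
  refine ⟨hσx0, ?_⟩
  have h3 : (c.den : ℚ) * O.ord (σ x) = c.den * c := by rw [hc]; linarith
  exact mul_left_cancel₀ hden h3

end Fermat.Agent.S13Lib
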