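import Fermat.Agent.S05.Abstract

set_option autoImplicit false

namespace Fermat.Agent.S13Lib

open Fermat.Agent.S05Lib Polynomial OrdData

section Abstract

variable {L : Type} [Field L] {G : Type} [AddCommGroup G] {a₂ a₄ : L} {M : XYModel L G a₂ a₄}
  {O : OrdData L}

theorem PC.close_of_inE1 {ρ : ℚ} (hρ : 0 < ρ) {R : G} (h : M.InE1 O ρ R) : M.Close O R := by
  rcases h with h | ⟨X, Y, c, h, hX, hc⟩
  · exact Or.inl h
  · exact Or.inr ⟨X, Y, c, h, hX, by linarith⟩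

theorem close_add (h2 : O.EQ (2 : L) 0) (ha₂ : O.GE a₂ 0) (ha₄ : O.GE a₄ 0) {D E : G}
    (hD : M.Close O D) (hE : M.Close O E) : M.Close O (D + E) := by
  rcases hD with hD | ⟨X₁, Y₁, c₁, hD, hX₁, hc₁⟩
  · rw [hD, zero_add]; exact hE
  rcases hE with hE | ⟨X₂, Y₂, c₂, hE, hX₂, hc₂⟩
  · rw [hE, add_zero]; exact Or.inr ⟨X₁, Y₁, c₁, hD, hX₁, hc₁⟩
  rcases le_total c₁ c₂ with hle | hle
  · -- `E` is the farther point
    have := (XYModel.parallelogram h2 ha₂ ha₄ (ρ := -c₂) (by linarith) hE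
      (hX₂.of_eq (by ring)) (Q := D) (Or.inr ⟨X₁, Y₁, c₁, hD, hX₁, by linarith⟩)).1
    exact PC.close_of_inE1 (by linarith) this
  · have := (XYModel.parallelogram h2 ha₂ ha₄ (ρ := -c₁) (by linarith) hD
      (hX₁.of_eq (by ring)) (Q := E) (Or.inr ⟨X₂, Y₂, c₂, hE, hX₂, by linarith⟩)).1
    rw [add_comm]
    exact PC.close_of_inE1 (by linarith) this

theorem PC.close_nsmul (h2 : O.EQ (2 : L) 0) (ha₂ : O.GE a₂ 0) (ha₄ : O.GE a₄ 0) {D : G}
    (hD : M.Close O D) (n : ℕ) : M.Close O (n • D) := by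
  induction n with
  | zero => exact Or.inl (zero_smul _ _)
  | succ n ih => rw [succ_nsmul]; exact close_add h2 ha₂ ha₄ ih hD

section

variable (h2 : O.EQ (2 : L) 0)
  (σ : L →+* L) (τ : G →+ G)
  (hτ : ∀ {P : G} {X Y : L}, M.co P = some (X, Y) → M.co (τ P) = some (σ X, σ Y))
  (hσ : ∀ x : L, O.GE x 0 → O.GT (σ x - x) 0)
include h2 hτ hσ

/-- points in the kernel of reduction -/
theorem PC.close_of_neg (ha₂ : O.GE a₂ 0) (ha₄ : O.GE a₄ 0) {P : G} {X Y : L}
    (hc : M.co P = some (X, Y)) {c : ℚ} (hX : O.EQ X c) (hlt : c < 0) :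
    M.Close O (τ P - P) := by
  have hP : M.Close O P := Or.inr ⟨X, Y, c, hc, hX, hlt⟩
  have hi : O.GT X⁻¹ 0 := hX.inv.gt (by linarith)
  have hd := hσ _ hi.ge
  have hσi : O.GT (σ X⁻¹) 0 := by
    have : σ X⁻¹ = X⁻¹ + (σ X⁻¹ - X⁻¹) := by ring
    rw [this]; exact hi.add hd
  have hσX0 : σ X ≠ 0 := (map_ne_zero σ).2 hX.1
  have hτP : M.Close O (τ P) := by
    refine Or.inr ⟨σ X, σ Y, O.ord (σ X), hτ hc, eq_self hσX0, ?_⟩
    rw [map_inv₀] at hσi
    have := (eq_self (O := O) hσX0).inv.lt_of_gt hσi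
    linarith
  rw [sub_eq_add_neg]
  exact close_add h2 ha₂ ha₄ hτP hP.neg

theorem close_of_good
    (ha₂ : O.GE a₂ 0) (ha₄ : O.EQ a₄ 0) (hdisc : O.EQ (a₂ ^ 2 - 4 * a₄) 0) (P : G) :
    M.Close O (τ P - P) := by
  rcases hc : M.co P with _ | ⟨X, Y⟩
  · rw [M.co_eq_none.mp hc, map_zero, sub_zero]; exact Or.inl rfl
  rcases GE_or_lt O X 0 with hX | ⟨hX0, hlt⟩
  · refine XYModel.close_of_nonsingular h2 ha₂ ha₄.ge' σ τ hτ hσ hc hX ?_
    have e := M.eqn hc
    have hY : O.GE Y 0 := by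
      apply GE.of_sq
      rw [e]
      have t1 : O.GE (X ^ 3) 0 := (hX.pow 3).mono (by norm_num)
      have t2 : O.GE (a₂ * X ^ 2) 0 := (ha₂.mul hX.sq).mono (by norm_num)
      have t3 : O.GE (a₄ * X) 0 := (ha₄.ge'.mul hX).mono (by norm_num)
      exact ((t1.add t2).add t3).mono (by norm_num)
    rcases hY.eq_or_gt with hYE | hYgt
    · exact Or.inl hYE
    right
    have hf'ge : O.GE (3 * X ^ 2 + 2 * a₂ * X + a₄) 0 :=
      ((((three_ge O).mul hX.sq).mono (by norm_num)).add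
        (((h2.ge'.mul ha₂).mul hX).mono (by norm_num))).add ha₄.ge'
    rcases hf'ge.eq_or_gt with hE | hgt
    · exact hE
    exfalso
    have hXE : O.EQ X 0 := by
      rcases hX.eq_or_gt with h | h
      · exact h
      · exfalso
        have : O.EQ (3 * X ^ 2 + 2 * a₂ * X + a₄) 0 := by
          apply EQ.gt_add _ ha₄
          exact (((three_ge O).mul_gt h.sq).mono (by norm_num)).add
            (((h2.ge'.mul ha₂).mul_gt h).mono (by norm_num))
        exact this.not_gt hgt le_rfl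
    have hg : O.GT (X ^ 2 + a₂ * X + a₄) 0 := by
      have : X ^ 2 + a₂ * X + a₄ = Y ^ 2 / X := by
        rw [e]; have := hXE.1; field_simp
      rw [this]
      exact (hYgt.sq.div hXE).mono (by norm_num)
    have hl : O.GT (2 * X + a₂) 0 := by
      have : 2 * X + a₂ = ((3 * X ^ 2 + 2 * a₂ * X + a₄) - (X ^ 2 + a₂ * X + a₄)) / X := by
        have := hXE.1; field_simp; ring
      rw [this]
      exact ((hgt.sub hg).div hXE).mono (by norm_num)
    have : a₂ ^ 2 - 4 * a₄ = (2 * X + a₂) ^ 2 - 4 * (X ^ 2 + a₂ * X + a₄) := by ring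
    rw [this] at hdisc
    exact hdisc.not_gt ((hl.sq.mono (by norm_num)).sub
      (((four_eq h2).ge'.mul_gt hg).mono (by norm_num))) le_rfl
  · exact PC.close_of_neg h2 σ τ hτ hσ ha₂ ha₄.ge' hc (eq_self hX0) hlt

variable {h : ℚ} (ha₂ : O.EQ a₂ 0) (ha₄ : O.EQ a₄ h) (hh : 0 < h)
include ha₂ ha₄ hh

/-- Multiplicative reduction, the points with nonsingular reduction. -/
theorem PC.close_of_unit {P : G} {X Y : L}
    (hc : M.co P = some (X, Y)) {o : ℚ} (hX : O.EQ X o) (ho : o ≤ 0) : M.Close O (τ P - P) := by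
  rcases ho.lt_or_eq with hlt | heq
  · exact PC.close_of_neg h2 σ τ hτ hσ ha₂.ge' (ha₄.ge hh.le) hc hX hlt
  subst heq
  refine XYModel.close_of_nonsingular h2 ha₂.ge' (ha₄.ge hh.le) σ τ hτ hσ hc hX.ge' ?_
  have e := M.eqn hc
  have ha₄gt : O.GT a₄ 0 := ha₄.gt hh
  have hY : O.GE Y 0 := by
    apply GE.of_sq
    rw [e]
    have t1 : O.GE (X ^ 3) 0 := (hX.ge'.pow 3).mono (by norm_num)
    have t2 : O.GE (a₂ * X ^ 2) 0 := (ha₂.ge'.mul hX.ge'.sq).mono (by norm_num)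
    have t3 : O.GE (a₄ * X) 0 := (ha₄gt.ge.mul hX.ge').mono (by norm_num)
    exact ((t1.add t2).add t3).mono (by norm_num)
  rcases hY.eq_or_gt with hYE | hYgt
  · exact Or.inl hYE
  right
  have hg : O.GT (X ^ 2 + a₂ * X + a₄) 0 := by
    have : X ^ 2 + a₂ * X + a₄ = Y ^ 2 / X := by
      rw [e]; have := hX.1; field_simp
    rw [this]
    exact (hYgt.sq.div hX).mono (by norm_num)
  have hl : O.GT (X + a₂) 0 := by
    have : X + a₂ = ((X ^ 2 + a₂ * X + a₄) - a₄) / X := by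
      have := hX.1; field_simp; ring
    rw [this]
    exact ((hg.sub ha₄gt).div hX).mono (by norm_num)
  have : 3 * X ^ 2 + 2 * a₂ * X + a₄ = X * (-a₂ + 3 * (X + a₂)) + a₄ := by ring
  rw [this]
  exact ((hX.mul (ha₂.neg.add_gt (((three_ge O).mul_gt hl).mono (by norm_num)))).of_eq
    (by norm_num)).add_gt ha₄gt

theorem close_of_mult
    {ϖ : L} (hϖ : O.EQ ϖ 1) (hσϖ : σ ϖ = ϖ) {p : ℕ} (hodd : Odd p) {w : ℤ} (hw : h = p * w)
    {P : G} (hpP : p • P = 0) : M.Close O (τ P - P) := by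
  have hp0 : (p : ℚ) ≠ 0 := by
    intro h0
    rw [hw, h0, zero_mul] at hh
    exact lt_irrefl _ hh
  rcases hc : M.co P with _ | ⟨X, Y⟩
  · rw [M.co_eq_none.mp hc, map_zero, sub_zero]; exact Or.inl rfl
  rcases GE_or_lt O X h with hge | ⟨hX0, hlt⟩
  · -- the middle component: pass to `2 P`
    have hred : M.Close O (τ (P + P) - (P + P)) → M.Close O (τ P - P) := by
      intro h'
      obtain ⟨k, hk⟩ := hodd
      have hP : P = (k + 1) • (P + P) := by
        have : (k + 1) • (P + P) = p • P + P := by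
          rw [hk, smul_add, ← add_smul, add_smul (2 * k) 1 P, one_smul,
            show k + 1 + (k + 1) = 2 * k + 1 + 1 by ring, add_smul (2 * k + 1) 1 P, one_smul,
            add_smul (2 * k) 1 P, one_smul]
        rw [this, hpP, zero_add]
      have : τ P - P = (k + 1) • (τ (P + P) - (P + P)) := by
        rw [smul_sub, ← map_nsmul, ← hP]
      rw [this]
      exact PC.close_nsmul h2 ha₂.ge' (ha₄.ge hh.le) h' _
    apply hred
    by_cases hY0 : Y = 0
    · subst hY0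
      rw [M.add_self_eq_zero hc, map_zero, sub_zero]; exact Or.inl rfl
    obtain ⟨Y₃, h3⟩ := M.co_dbl hc hY0
    have e := M.eqn hc
    have hYE := eq_self (O := O) hY0
    have hY2 : O.GE (Y ^ 2) (2 * h) := by
      have : Y ^ 2 = X * (X ^ 2 + a₂ * X + a₄) := by rw [e]; ring
      rw [this]
      have t : O.GE (X ^ 2 + a₂ * X + a₄) h :=
        ((hge.sq.mono (by linarith)).add ((ha₂.ge'.mul hge).mono (by linarith))).add ha₄.ge'
      exact (hge.mul t).mono (by linarith)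
    have hYord : 2 * h ≤ 2 * O.ord Y := hYE.sq.le_of_ge hY2
    have hE : O.EQ (X ^ 2 - a₄) h := EQ.gt_sub (hge.sq.gt (by linarith)) ha₄
    have hT := hE.sq.div ((four_eq h2).mul hYE.sq)
    exact PC.close_of_unit h2 σ τ hτ hσ ha₂ ha₄ hh h3 hT (by linarith)
  · have hXE := eq_self (O := O) hX0
    rcases le_or_gt (O.ord X) 0 with hle | hpos
    · exact PC.close_of_unit h2 σ τ hτ hσ ha₂ ha₄ hh hc hXE hle
    · obtain ⟨k, hk⟩ := XYModel.ord_of_torsion h2 ha₂ ha₄ hc hXE hpos hlt hpP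
      have hj : O.ord X = ((2 * w * k : ℤ) : ℚ) := by
        rw [hw] at hk
        have : (p : ℚ) * O.ord X = p * (2 * w * k) := by rw [hk]; ring
        have := mul_left_cancel₀ hp0 this
        rw [this]; push_cast; ring
      have hXj : O.EQ X ((2 * w * k : ℤ) : ℚ) := ⟨hX0, hj⟩
      exact XYModel.close_of_node h2 σ τ hτ hσ ha₂ ha₄ hh hϖ hσϖ hc hXj (hj ▸ hpos) (hj ▸ hlt)

end

end Abstract

end Fermat.Agent.S13Lib
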