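import Fermat.Agent.S13.BKernel
import Fermat.Agent.S13.OrdSigma

/-!
# Inertia at `2` acts unipotently on the `p`-torsion (multiplicative reduction at `2`)
-/

set_option autoImplicit false

namespace Fermat.Agent.S13Lib

open Fermat.Agent.S05Lib OrdData

namespace T2I

variable {L : Type} [Field L] {G : Type} [AddCommGroup G]

/-- two `p`-torsion points with unit, congruent `x`-coordinates have the same `x`-coordinate -/
lemma x_fixed {O : OrdData L} {b₂ β : L} (B : BModel L G b₂ β) (h2 : O.GT (2 : L) 0)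
    (hb₂ : O.EQ b₂ 0) (hβ : O.GT β 0) {p : ℕ} (hp : O.EQ (p : L) 0) {R R' : G} {x x' : L}
    (hR : B.xc R = some x) (hR' : B.xc R' = some x') (hx : O.EQ x 0) (hd : O.GT (x' - x) 0)
    (hpR : p • R = 0) (hpR' : p • R' = 0) : x' = x := by
  by_contra hne
  obtain ⟨t₁, t₂, h1, h2', hS, hP⟩ := B.add_sub hR' hR hne
  have hd0 : x' - x ≠ 0 := sub_ne_zero.mpr hne
  have hdE := eq_self (O := O) hd0
  have hdpos : 0 < O.ord (x' - x) := hdE.lt_of_gt hd
  have hx' : O.EQ x' 0 := by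
    have : x' = x + (x' - x) := by ring
    rw [this]; exact hx.add_gt hd
  have hxx : O.EQ (x' * x) 0 := (hx'.mul hx).of_eq (by ring)
  have hnum : O.EQ (2 * (x' + x) * (x' * x + β) + b₂ * (x' * x)) 0 := by
    apply EQ.gt_add
    · exact ((h2.mul_ge (hx'.ge'.add hx.ge')).mul_ge (hxx.ge'.add hβ.ge)).mono (by norm_num)
    · exact (hb₂.mul hxx).of_eq (by ring)
  have hSE := hnum.div hdE.sq
  have hPE := (hxx.sub_gt hβ).sq.div hdE.sq
  rcases quad_distinct_eq hS hP hSE hPE (by linarith) with ⟨ht, -⟩ | ⟨ht, -⟩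
  · exact B.nsmul_ne_zero_of_neg O hb₂.ge' hβ.ge h1 ht (by linarith) hp
      (by rw [smul_add, hpR, hpR', add_zero])
  · exact B.nsmul_ne_zero_of_neg O hb₂.ge' hβ.ge h2' ht (by linarith) hp
      (by rw [smul_sub, hpR, hpR', sub_zero])

variable {a₂ a₄ : L} {M : XYModel L G a₂ a₄} {O : OrdData L}

lemma xc_of_co (h4 : (4 : L) ≠ 0) (h2 : (2 : L) ≠ 0) {P : G} {x Y : L}
    (h : M.co P = some (4 * x, Y)) : (M.toBModel 4 h4 h2).xc P = some x := by
  rw [M.toBModel_xc 4 h4 h2 h]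
  congr 1
  field_simp

lemma co_of_xc (h4 : (4 : L) ≠ 0) (h2 : (2 : L) ≠ 0) {P : G} {x : L}
    (h : (M.toBModel 4 h4 h2).xc P = some x) : ∃ Y, M.co P = some (4 * x, Y) := by
  obtain ⟨X, Y, hc, rfl⟩ := BM.xc_some h
  refine ⟨Y, ?_⟩
  rw [hc]
  congr 2
  field_simp

lemma four_eq (h2 : O.EQ (2 : L) 1) : O.EQ (4 : L) 2 := by
  have := h2.mul h2
  norm_num at this
  exact this

lemma eight_eq (h2 : O.EQ (2 : L) 1) : O.EQ (8 : L) 3 := by
  have := (four_eq h2).mul h2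
  norm_num at this
  exact this

lemma sixteen_eq (h2 : O.EQ (2 : L) 1) : O.EQ (16 : L) 4 := by
  have := (four_eq h2).mul (four_eq h2)
  norm_num at this
  exact this

lemma sixtyfour_eq (h2 : O.EQ (2 : L) 1) : O.EQ (64 : L) 6 := by
  have := (sixteen_eq h2).mul (four_eq h2)
  norm_num at this
  exact this

section

variable (h2 : O.EQ (2 : L) 1) (ha₂ : O.EQ a₂ 0)
    {h : ℚ} (ha₄ : O.EQ a₄ (h + 4)) (hh : 0 < h) {p : ℕ} (hp : O.EQ (p : L) 0)
include h2 ha₂ ha₄ hh hp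

/-- the kernel of reduction has no `p`-torsion -/
lemma not_neg {D : G} {x Y : L} {c : ℚ} (hD : M.co D = some (4 * x, Y)) (hx : O.EQ x c)
    (hc : c < 0) : p • D ≠ 0 := by
  have h4 := four_eq h2
  refine (M.toBModel 4 h4.1 h2.1).nsmul_ne_zero_of_neg O ?_ ?_ (xc_of_co h4.1 h2.1 hD) hx hc hp
  · exact (((h4.mul ha₂).div h4).of_eq (by ring)).ge'
  · exact (ha₄.div h4.sq).ge (by linarith)

variable (hα : O.GE ((a₂ - 1) / 4) 0)
    (σ : L →+* L) (τ : G →+ G)
    (hτ : ∀ {P : G} {X Y : L}, M.co P = some (X, Y) → M.co (τ P) = some (σ X, σ Y))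
    (hσ : ∀ x : L, O.GE x 0 → O.GT (σ x - x) 0)
include hα hτ hσ

/-- CLAIM 1: the `p`-torsion points with nonsingular reduction are fixed. -/
lemma claim1 {R : G} {x Y : L} (hc : M.co R = some (4 * x, Y)) (hx : O.EQ x 0)
    (hpR : p • R = 0) : τ R = R := by
  have h4 := four_eq h2
  have h8 := eight_eq h2
  have h16 := sixteen_eq h2
  have h64 := sixtyfour_eq h2
  have h2ne := h2.1
  have h4ne := h4.1
  have h8ne := h8.1
  have h16ne := h16.1
  have h64ne := h64.1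
  have hτR := hτ hc
  rw [map_mul, map_ofNat] at hτR
  have hpτ : p • τ R = 0 := by rw [← map_nsmul, hpR, map_zero]
  have hb₂ : O.EQ (4 * a₂ / 4) 0 := ((h4.mul ha₂).div h4).of_eq (by ring)
  have hβ : O.GT (a₄ / 4 ^ 2) 0 := (ha₄.div h4.sq).gt (by linarith)
  have hxx : σ x = x :=
    x_fixed (M.toBModel 4 h4ne h2ne) (h2.gt one_pos) hb₂ hβ hp (xc_of_co h4ne h2ne hc)
      (xc_of_co h4ne h2ne hτR) hx (hσ x hx.ge') hpR hpτ
  rw [hxx] at hτR
  rcases M.eq_or_eq_neg hτR hc with hh' | hh'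
  · exact hh'
  exfalso
  have hY₁ : σ Y = -Y := by
    have := hτR.symm.trans (hh' ▸ M.co_neg hc)
    simpa using this
  have e := M.eqn hc
  -- `y` is integral
  have hy : O.GE ((Y - 4 * x) / 8) 0 := by
    have hS : (Y - 4 * x) / 8 + (-((Y - 4 * x) / 8) - x) = -x := by ring
    have hP : (Y - 4 * x) / 8 * (-((Y - 4 * x) / 8) - x)
        = -(x ^ 3 + (a₂ - 1) / 4 * x ^ 2 + a₄ / 16 * x) := by
      field_simp
      linear_combination (-64) * e
    refine (quad_ge hS hP hx.neg.ge' ?_).1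
    have t1 : O.GE (x ^ 3) 0 := (hx.ge'.pow 3).mono (by norm_num)
    have t2 : O.GE ((a₂ - 1) / 4 * x ^ 2) 0 := (hα.mul hx.ge'.sq).mono (by norm_num)
    have t3 : O.GE (a₄ / 16 * x) 0 := ((ha₄.div h16).mul hx).ge (by linarith)
    exact (((t1.add t2).add t3).neg).mono (by norm_num)
  have hdy := hσ _ hy
  have hdy' : σ ((Y - 4 * x) / 8) - (Y - 4 * x) / 8 = -(Y / 4) := by
    rw [map_div₀, map_sub, map_mul, map_ofNat, map_ofNat, hxx, hY₁]
    field_simp
    ring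
  rw [hdy'] at hdy
  have hY4 : O.EQ ((Y / 4) ^ 2) (2 * 0) := by
    have : (Y / 4) ^ 2 = a₂ * x ^ 2 + 4 * x ^ 3 + a₄ / 4 * x := by
      field_simp
      linear_combination e
    rw [this]
    have t1 : O.EQ (a₂ * x ^ 2) 0 := (ha₂.mul hx.sq).of_eq (by ring)
    have t2 : O.GT (4 * x ^ 3) 0 := (h4.mul (hx.pow 3)).gt (by norm_num)
    have t3 : O.GT (a₄ / 4 * x) 0 := ((ha₄.div h4).mul hx).gt (by linarith)
    exact ((t1.add_gt t2).add_gt t3).of_eq (by ring)
  exact hY4.of_sq.neg.not_gt hdy le_rfl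

/-- the points near the node -/
lemma near_node {P : G} {x Y : L} {m : ℚ} (hc : M.co P = some (4 * x, Y)) (hx : O.EQ x m)
    (h0 : 0 < m) (h3 : m < h) (hpP : p • P = 0) : τ (τ P - P) = τ P - P := by
  have h4 := four_eq h2
  have h8 := eight_eq h2
  have h16 := sixteen_eq h2
  have h64 := sixtyfour_eq h2
  have h2ne := h2.1
  have h4ne := h4.1
  have h8ne := h8.1
  have h16ne := h16.1
  have h64ne := h64.1
  have hx0 := hx.1
  have hτP := hτ hc
  rw [map_mul, map_ofNat] at hτP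
  have hpτ : p • τ P = 0 := by rw [← map_nsmul, hpP, map_zero]
  have hpR : p • (τ P - P) = 0 := by rw [smul_sub, hpτ, hpP, sub_zero]
  have e := M.eqn hc
  have e' := M.eqn hτP
  have hx' : O.EQ (σ x) m := ord_map_eq σ hσ h2 (map_ofNat σ 2) hx
  have hx'0 := hx'.1
  -- the slope
  obtain ⟨s, hs⟩ : ∃ s : L, s = (Y / (4 * x) - 1) / 2 := ⟨_, rfl⟩
  have hY : Y = 4 * x * (2 * s + 1) := by rw [hs]; field_simp; ring
  have hσs : σ s = (σ Y / (4 * σ x) - 1) / 2 := by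
    rw [hs, map_div₀, map_sub, map_div₀, map_mul, map_ofNat, map_ofNat, map_one]
  have hY' : σ Y = 4 * σ x * (2 * σ s + 1) := by rw [hσs]; field_simp; ring
  have hs2 : s ^ 2 + s = x + (a₂ - 1) / 4 + a₄ / (16 * x) := by
    rw [hY] at e
    field_simp
    field_simp at e
    linear_combination 4 * e
  have hs2' : σ s ^ 2 + σ s = σ x + (a₂ - 1) / 4 + a₄ / (16 * σ x) := by
    rw [hY'] at e'
    field_simp
    field_simp at e'
    linear_combination 4 * e'
  -- integrality of the slope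
  have hβx : O.GT (a₄ / (16 * x)) 0 := (ha₄.div (h16.mul hx)).gt (by linarith)
  have hβx' : O.GT (a₄ / (16 * σ x)) 0 := (ha₄.div (h16.mul hx')).gt (by linarith)
  have hsge : O.GE s 0 := by
    have hS : s + (-1 - s) = -1 := by ring
    have hP : s * (-1 - s) = -(x + (a₂ - 1) / 4 + a₄ / (16 * x)) := by
      rw [← hs2]; ring
    refine (quad_ge hS hP EQ.one.neg.ge' ?_).1
    exact ((((hx.ge h0.le).add hα).add hβx.ge).neg).mono (by norm_num)
  have hds := hσ s hsge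
  have hσsge : O.GE (σ s) 0 := by
    have : σ s = s + (σ s - s) := by ring
    rw [this]; exact hsge.add hds.ge
  have h2gt : O.GT (2 : L) 0 := h2.gt one_pos
  -- `2 s + 1`, `2 s' + 1`, `s' + s + 1` are units
  have hr : O.EQ (2 * s + 1) 0 := EQ.gt_add ((h2gt.mul_ge hsge).mono (by norm_num)) EQ.one
  have hr' : O.EQ (2 * σ s + 1) 0 := EQ.gt_add ((h2gt.mul_ge hσsge).mono (by norm_num)) EQ.one
  have hu : O.EQ (σ s + s + 1) 0 := by
    have : σ s + s + 1 = (2 * s + 1) + (σ s - s) := by ring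
    rw [this]; exact hr.add_gt hds
  by_cases hxx : σ x = x
  · rw [hxx] at hτP
    rcases M.eq_or_eq_neg hτP hc with hh' | hh'
    · rw [hh', sub_self, map_zero]
    · exfalso
      have hY₁ : σ Y = -Y := by
        have := hτP.symm.trans (hh' ▸ M.co_neg hc)
        simpa using this
      have : σ s + s + 1 = 0 := by
        rw [hσs, hxx, hY₁, hs]; field_simp; ring
      exact hu.1 this
  have hXX : 4 * σ x ≠ 4 * x := fun h' => hxx (mul_left_cancel₀ h4ne h')
  obtain ⟨Y₃, hR⟩ := M.co_sub hτP hc hXX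
  have hv0 : σ x - x ≠ 0 := sub_ne_zero.mpr hxx
  have hvE := eq_self (O := O) hv0
  have hvge : m ≤ O.ord (σ x - x) := hvE.le_of_ge (hx'.ge'.sub hx.ge')
  obtain ⟨lam, hlam⟩ : ∃ lam : L, lam = ((σ s + s + 1) * x + σ s * (σ x - x)) / (σ x - x) :=
    ⟨_, rfl⟩
  have hXR : ((σ Y + Y) / (4 * σ x - 4 * x)) ^ 2 - a₂ - 4 * σ x - 4 * x
      = 4 * (lam ^ 2 + lam - (a₂ - 1) / 4 - σ x - x) := by
    have h1 : (σ Y + Y) / (4 * σ x - 4 * x) = 2 * lam + 1 := by
      rw [hlam, hY', hY]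
      have : 4 * σ x - 4 * x = 4 * (σ x - x) := by ring
      rw [this]
      field_simp
      ring
    rw [h1]
    field_simp
    ring
  rw [hXR] at hR
  have hux : O.EQ ((σ s + s + 1) * x) m := (hu.mul hx).of_eq (by ring)
  rcases hvge.lt_or_eq with hlt | heq
  · -- `δ > m`: the difference would be in the kernel of reduction
    exfalso
    have hnum : O.EQ ((σ s + s + 1) * x + σ s * (σ x - x)) m :=
      hux.add_gt ((hσsge.mul hvE.ge').gt (by linarith))
    have hlE : O.EQ lam (m - O.ord (σ x - x)) := hlam ▸ hnum.div hvE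
    have hxR : O.EQ (lam ^ 2 + lam - (a₂ - 1) / 4 - σ x - x) (2 * (m - O.ord (σ x - x))) :=
      (((hlE.sq.add_gt (hlE.gt (by linarith))).sub_gt (hα.gt (by linarith))).sub_gt
        (hx'.gt (by linarith))).sub_gt (hx.gt (by linarith))
    exact not_neg h2 ha₂ ha₄ hh hp hR hxR (by linarith) hpR
  · -- `δ = m`
    have hvE' : O.EQ (σ x - x) m := hvE.of_eq heq.symm
    have hcE : O.EQ ((σ s + s + 1) * x / (σ x - x)) 0 := (hux.div hvE').of_eq (by ring)
    have hc2 : O.EQ (2 * σ s + 1 + (σ s + s + 1) * x / (σ x - x)) 0 := by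
      have : 2 * σ s + 1 + (σ s + s + 1) * x / (σ x - x)
          = ((2 * σ s + 1) * σ x - (σ s - s) * x) / (σ x - x) := by
        field_simp
        ring
      rw [this]
      have t1 : O.EQ ((2 * σ s + 1) * σ x) m := (hr'.mul hx').of_eq (by ring)
      have t2 : O.GT ((σ s - s) * x) m := (hds.mul_ge hx.ge').mono (by linarith)
      exact ((t1.sub_gt t2).div hvE').of_eq (by ring)
    have hxR : lam ^ 2 + lam - (a₂ - 1) / 4 - σ x - x
        = (σ s + s + 1) * x / (σ x - x) * (2 * σ s + 1 + (σ s + s + 1) * x / (σ x - x))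
          + a₄ / (16 * σ x) - x := by
      have hl : lam = σ s + (σ s + s + 1) * x / (σ x - x) := by
        rw [hlam]; field_simp; ring
      rw [hl]
      linear_combination hs2'
    have hxRE : O.EQ (lam ^ 2 + lam - (a₂ - 1) / 4 - σ x - x) 0 := by
      rw [hxR]
      exact (((hcE.mul hc2).of_eq (by ring)).add_gt hβx').sub_gt (hx.gt h0)
    exact claim1 h2 ha₂ ha₄ hh hp hα σ τ hτ hσ hR hxRE hpR

/-- the middle component: pass to `2 P` -/
lemma far_node (hodd : Odd p) {P : G} {x Y : L} (hc : M.co P = some (4 * x, Y)) (hx : O.GE x h)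
    (hpP : p • P = 0) : τ P = P := by
  have h4 := four_eq h2
  have h2ne := h2.1
  have h4ne := h4.1
  have hred : τ (P + P) = P + P → τ P = P := by
    intro h'
    obtain ⟨k, hk⟩ := hodd
    have hP : P = (k + 1) • (P + P) := by
      have : (k + 1) • (P + P) = p • P + P := by
        rw [hk, smul_add, ← add_smul, add_smul (2 * k) 1 P, one_smul,
          show k + 1 + (k + 1) = 2 * k + 1 + 1 by ring, add_smul (2 * k + 1) 1 P, one_smul,
          add_smul (2 * k) 1 P, one_smul]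
      rw [this, hpP, zero_add]
    rw [hP, map_nsmul, h']
  apply hred
  have hp2 : p • (P + P) = 0 := by rw [smul_add, hpP, add_zero]
  have hb₂ : O.EQ (4 * a₂ / 4) 0 := ((h4.mul ha₂).div h4).of_eq (by ring)
  have hβ : O.EQ (a₄ / 4 ^ 2) h := (ha₄.div h4.sq).of_eq (by ring)
  have hxc := xc_of_co (M := M) h4ne h2ne hc
  by_cases hden : 4 * x ^ 3 + 4 * a₂ / 4 * x ^ 2 + 4 * (a₄ / 4 ^ 2) * x = 0
  · rw [(M.toBModel 4 h4ne h2ne).dbl_zero hxc hden, map_zero]
  have hd := (M.toBModel 4 h4ne h2ne).dbl hxc hden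
  obtain ⟨Y₂, hc2⟩ := co_of_xc h4ne h2ne hd
  have hdenE := eq_self (O := O) hden
  have hdenge : O.GE (4 * x ^ 3 + 4 * a₂ / 4 * x ^ 2 + 4 * (a₄ / 4 ^ 2) * x) (2 * h) := by
    have t1 : O.GE (4 * x ^ 3) (2 * h) := (h4.ge'.mul (hx.pow 3)).mono (by push_cast; linarith)
    have t2 : O.GE (4 * a₂ / 4 * x ^ 2) (2 * h) := (hb₂.ge'.mul hx.sq).mono (by linarith)
    have t3 : O.GE (4 * (a₄ / 4 ^ 2) * x) (2 * h) := ((h4.mul hβ).ge'.mul hx).mono (by linarith)
    exact (t1.add t2).add t3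
  have hdord := hdenE.le_of_ge hdenge
  have hnum : O.EQ (x ^ 2 - a₄ / 4 ^ 2) h := EQ.gt_sub (hx.sq.gt (by linarith)) hβ
  have hT := hnum.sq.div hdenE
  rcases (show 2 * h - O.ord (4 * x ^ 3 + 4 * a₂ / 4 * x ^ 2 + 4 * (a₄ / 4 ^ 2) * x) ≤ 0 by
    linarith).lt_or_eq with hlt | heq
  · exact absurd hp2 (not_neg h2 ha₂ ha₄ hh hp hc2 hT hlt)
  · exact claim1 h2 ha₂ ha₄ hh hp hα σ τ hτ hσ hc2 (hT.of_eq heq) hp2

end

end T2I

section Abstract

variable {L : Type} [Field L] {G : Type} [AddCommGroup G] {a₂ a₄ : L} {M : XYModel L G a₂ a₄}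
  {O : OrdData L}

theorem two_inertia_sq (h2 : O.EQ (2 : L) 1) (ha₂ : O.EQ a₂ 0) (hα : O.GE ((a₂ - 1) / 4) 0)
    {h : ℚ} (ha₄ : O.EQ a₄ (h + 4)) (hh : 0 < h)
    (σ : L →+* L) (τ : G →+ G)
    (hτ : ∀ {P : G} {X Y : L}, M.co P = some (X, Y) → M.co (τ P) = some (σ X, σ Y))
    (hσ : ∀ x : L, O.GE x 0 → O.GT (σ x - x) 0)
    {p : ℕ} (hp : O.EQ (p : L) 0) (hodd : Odd p) {P : G} (hpP : p • P = 0) :
    τ (τ P - P) = τ P - P := by
  have h4ne : (4 : L) ≠ 0 := (T2I.four_eq h2).1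
  rcases hc : M.co P with _ | ⟨X, Y⟩
  · rw [M.co_eq_none.mp hc, map_zero, sub_self, map_zero]
  obtain ⟨x, rfl⟩ : ∃ x : L, X = 4 * x := ⟨X / 4, by field_simp⟩
  have hfix : τ P = P → τ (τ P - P) = τ P - P := by
    intro h'
    rw [h', sub_self, map_zero]
  rcases GE_or_lt O x h with hge | ⟨hx0, hlt⟩
  · exact hfix (T2I.far_node h2 ha₂ ha₄ hh hp hα σ τ hτ hσ hodd hc hge hpP)
  have hxE := eq_self (O := O) hx0
  rcases lt_trichotomy (O.ord x) 0 with hneg | hzero | hpos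
  · exact absurd hpP (T2I.not_neg h2 ha₂ ha₄ hh hp hc hxE hneg)
  · exact hfix (T2I.claim1 h2 ha₂ ha₄ hh hp hα σ τ hτ hσ hc (hxE.of_eq hzero) hpP)
  · exact T2I.near_node h2 ha₂ ha₄ hh hp hα σ τ hτ hσ hc hxE hpos hlt hpP

end Abstract

end Fermat.Agent.S13Lib
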